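import Fermat.Agent.PT.Defs
import Fermat.Agent.Local.Place

/-!
Parcel A: `ℚ̄` is dense in `ℚ̄_q`, the local Galois group is the whole decomposition group.
-/

set_option autoImplicit false
set_option linter.style.haveILetI false

noncomputable section

open Polynomial
open scoped TensorProduct

namespace FLTAgent.PT

instance factPrimesCoe (q : Nat.Primes) : Fact (q : ℕ).Prime := ⟨q.2⟩

/-- `ℚ_q` -/
abbrev Qq (q : Nat.Primes) : Type := ℚ_[(q : ℕ)]

/-- `ℚ̄_q` -/
abbrev Cq (q : Nat.Primes) : Type := PadicAlgCl (q : ℕ)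

/-- the embedding of `ℚ̄` -/
abbrev iota (q : Nat.Primes) : AlgebraicClosure ℚ →ₐ[ℚ] Cq q := padicEmbedding (q : ℕ)

/-- `Gam q` as a group of automorphisms -/
def toAut (q : Nat.Primes) : Gam q ≃* (Cq q ≃ₐ[Qq q] Cq q) :=
  { toFun := fun g => g, invFun := fun g => g, left_inv := fun _ => rfl, right_inv := fun _ => rfl,
    map_mul' := fun _ _ => rfl }

theorem iota_loc (q : Nat.Primes) (g : Gam q) (x : AlgebraicClosure ℚ) :
    iota q (loc q g x) = toAut q g (iota q x) :=
  padicEmbedding_localGaloisToGlobal (q : ℕ) g x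

theorem norm_toAut (q : Nat.Primes) (g : Gam q) (x : Cq q) : ‖toAut q g x‖ = ‖x‖ :=
  congrArg NNReal.toReal (nnnorm_padicAlgCl_algEquiv (q : ℕ) g x)

theorem continuous_toAut (q : Nat.Primes) (g : Gam q) : Continuous (toAut q g) :=
  (AddMonoidHomClass.isometry_of_norm (toAut q g) (norm_toAut q g)).continuous

variable {q : Nat.Primes}

/-- `ℚ̄` is dense -/
theorem denseRange_iota (q : Nat.Primes) : DenseRange (iota q) := by
  rw [Metric.denseRange_iff]
  intro a ε hε
  set f := minpoly (Qq q) a with hf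
  have hint : IsIntegral (Qq q) a := Algebra.IsIntegral.isIntegral a
  have hfm : f.Monic := minpoly.monic hint
  set n := f.natDegree with hn
  have hn0 : 0 < n := minpoly.natDegree_pos hint
  have hε' : (0 : ℝ) < (ε ^ n) / (max ‖a‖ 1) ^ n := by positivity
  choose r hr using fun i => Padic.rat_dense (q : ℕ) (f.coeff i) hε'
  let g : ℚ[X] := X ^ n + ∑ i : Fin n, C (r i) * X ^ (i : ℕ)
  have hgm : g.Monic := monic_X_pow_add
    (lt_of_le_of_lt (degree_sum_le _ _) ((Finset.sup_lt_iff (WithBot.bot_lt_coe n)).2 fun i _ =>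
      lt_of_le_of_lt (degree_C_mul_X_pow_le _ _) (WithBot.coe_lt_coe.2 i.2)))
  have hgn : g.natDegree = n := by
    refine natDegree_eq_of_degree_eq_some ?_
    show (X ^ n + ∑ i : Fin n, C (r i) * X ^ (i : ℕ)).degree = _
    rw [degree_add_eq_left_of_degree_lt, degree_X_pow]
    rw [degree_X_pow]
    exact lt_of_le_of_lt (degree_sum_le _ _) ((Finset.sup_lt_iff (WithBot.bot_lt_coe n)).2 fun i _ =>
      lt_of_le_of_lt (degree_C_mul_X_pow_le _ _) (WithBot.coe_lt_coe.2 i.2))
  -- the value at `a` is small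
  have h0 : aeval a f = 0 := minpoly.aeval _ _
  have hsum : aeval a g = ∑ i : Fin n,
      algebraMap (Qq q) (Cq q) ((r i : Qq q) - f.coeff i) * a ^ (i : ℕ) := by
    have hfs : f = X ^ n + ∑ i : Fin n, C (f.coeff i) * X ^ (i : ℕ) := by
      rw [Fin.sum_univ_eq_sum_range (fun i => C (f.coeff i) * X ^ i) n]
      exact hfm.as_sum
    rw [hfs] at h0
    simp only [map_add, map_pow, aeval_X, map_sum, map_mul, aeval_C] at h0
    show aeval a (X ^ n + ∑ i : Fin n, C (r i) * X ^ (i : ℕ)) = _
    simp only [map_add, map_pow, aeval_X, map_sum, map_mul, aeval_C, map_sub, sub_mul,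
      Finset.sum_sub_distrib]
    rw [eq_sub_iff_add_eq]
    conv_rhs => rw [← add_zero (∑ _i : Fin n, _), ← h0]
    simp only [eq_ratCast, map_ratCast]
    abel
  have hsmall : ‖aeval a g‖ < ε ^ n := by
    rw [hsum]
    haveI : Nonempty (Fin n) := ⟨⟨0, hn0⟩⟩
    obtain ⟨i, -, hi⟩ := IsUltrametricDist.exists_norm_finsetSum_le Finset.univ
      (fun i : Fin n => algebraMap (Qq q) (Cq q) ((r i : Qq q) - f.coeff i) * a ^ (i : ℕ))
    refine lt_of_le_of_lt hi ?_
    rw [norm_mul, norm_pow, norm_algebraMap', norm_sub_rev]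
    have h1 : ‖a‖ ^ (i : ℕ) ≤ max ‖a‖ 1 ^ n :=
      (pow_le_pow_left₀ (norm_nonneg _) (le_max_left _ _) _).trans
        (pow_le_pow_right₀ (le_max_right _ _) i.2.le)
    calc _ ≤ ‖f.coeff i - (r i : Qq q)‖ * max ‖a‖ 1 ^ n :=
          mul_le_mul_of_nonneg_left h1 (norm_nonneg _)
      _ < ε ^ n / max ‖a‖ 1 ^ n * max ‖a‖ 1 ^ n :=
          mul_lt_mul_of_pos_right (hr i) (by positivity)
      _ = ε ^ n := div_mul_cancel₀ _ (by positivity)
  -- but it is the product of the distances to the roots
  have hsplit : (g.map (algebraMap ℚ (AlgebraicClosure ℚ))).Splits := IsAlgClosed.splits _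
  have hprod : aeval a g = ((g.aroots (AlgebraicClosure ℚ)).map fun b => a - iota q b).prod := by
    have h := hsplit.eq_prod_roots_of_monic (hgm.map _)
    have h' : g.map (algebraMap ℚ (Cq q)) =
        (g.map (algebraMap ℚ (AlgebraicClosure ℚ))).map (iota q : AlgebraicClosure ℚ →+* Cq q) := by
      rw [Polynomial.map_map, AlgHom.comp_algebraMap]
    rw [← eval_map_algebraMap, h', h, Polynomial.map_multiset_prod, eval_multiset_prod,
      Multiset.map_map, Multiset.map_map]
    refine congrArg Multiset.prod (Multiset.map_congr rfl fun b _ => ?_)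
    simp
  by_contra! hc
  have hcard : Multiset.card (g.aroots (AlgebraicClosure ℚ)) = n := by
    rw [aroots_def, ← hsplit.natDegree_eq_card_roots, natDegree_map, hgn]
  have key : ∀ s : Multiset (AlgebraicClosure ℚ),
      ε ^ Multiset.card s ≤ ‖(s.map fun b => a - iota q b).prod‖ := by
    intro s
    induction s using Multiset.induction with
    | empty => simp
    | cons b s ih =>
      rw [Multiset.card_cons, Multiset.map_cons, Multiset.prod_cons, norm_mul, pow_succ']
      exact mul_le_mul (by rw [← dist_eq_norm]; exact hc b) ih (by positivity) (norm_nonneg _)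
  have := key (g.aroots (AlgebraicClosure ℚ))
  rw [hcard, ← hprod] at this
  exact absurd hsmall (not_lt.2 this)

/-- `Gam q` embeds -/
theorem loc_injective' (q : Nat.Primes) : Function.Injective (loc q) := by
  intro g h hgh
  have h1 : (toAut q g : Cq q → Cq q) = toAut q h :=
    (denseRange_iota q).equalizer (continuous_toAut q g) (continuous_toAut q h) (funext fun x => by
      simp only [Function.comp_apply, ← iota_loc, hgh])
  exact (toAut q).injective (DFunLike.coe_injective h1)

theorem norm_iota_of_mem {d : GQ} (hd : d ∈ (ExtCitation.primeLocalPlace q).decompositionSubgroup ℚ)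
    (x : AlgebraicClosure ℚ) : ‖iota q (d x)‖ = ‖iota q x‖ := by
  rcases eq_or_ne x 0 with rfl | hx
  · simp
  have hv := Local.val_aut hd x
  have hdx : d x ≠ 0 := by simpa using hx
  have hmem : ∀ y z : AlgebraicClosure ℚ, z ≠ 0 →
      (ExtCitation.primeLocalPlace q).valuation y = (ExtCitation.primeLocalPlace q).valuation z →
      ‖iota q y‖ ≤ ‖iota q z‖ := by
    intro y z hz hyz
    have h1 : y / z ∈ ExtCitation.primeLocalPlace q := by
      rw [← ValuationSubring.valuation_le_one_iff, map_div₀, hyz,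
        div_self ((_root_.map_ne_zero _).2 hz)]
    have h2 : ‖iota q (y / z)‖₊ ≤ 1 := h1
    rw [map_div₀, nnnorm_div, div_le_one (by simpa [pos_iff_ne_zero] using hz)] at h2
    exact h2
  exact le_antisymm (hmem _ _ hx hv) (hmem _ _ hdx hv.symm)

/-- the image of `Gam q` is the whole decomposition group -/
theorem range_loc' (q : Nat.Primes) :
    (loc q).range = (ExtCitation.primeLocalPlace q).decompositionSubgroup ℚ := by
  refine le_antisymm ?_ fun d hd => ?_
  · rintro _ ⟨g, rfl⟩
    exact localGaloisToGlobal_mem_decompositionSubgroup (q : ℕ) g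
  let Φ₁ : Qq q ⊗[ℚ] AlgebraicClosure ℚ →ₐ[Qq q] Cq q :=
    Algebra.TensorProduct.lift (Algebra.ofId _ _) (iota q) fun _ _ => Commute.all _ _
  let Φ₂ : Qq q ⊗[ℚ] AlgebraicClosure ℚ →ₐ[Qq q] Cq q :=
    Algebra.TensorProduct.lift (Algebra.ofId _ _) ((iota q).comp d.toAlgHom)
      fun _ _ => Commute.all _ _
  have happrox : ∀ z, ∀ ε > (0 : ℝ), ∃ y : AlgebraicClosure ℚ,
      ‖Φ₁ z - iota q y‖ < ε ∧ ‖Φ₂ z - iota q (d y)‖ < ε := by
    intro z
    induction z using TensorProduct.induction_on with
    | zero => exact fun ε hε => ⟨0, by simpa using hε, by simpa using hε⟩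
    | tmul c x =>
      intro ε hε
      obtain ⟨r, hr⟩ := Padic.rat_dense (q : ℕ) c (div_pos hε (show 0 < ‖iota q x‖ + 1 by positivity))
      have hr' : ‖c - (r : Qq q)‖ * ‖iota q x‖ < ε := by
        refine lt_of_le_of_lt (mul_le_mul_of_nonneg_left (le_add_of_nonneg_right zero_le_one)
          (norm_nonneg _)) ?_
        rwa [← lt_div_iff₀ (by positivity)]
      refine ⟨(r : AlgebraicClosure ℚ) * x, ?_, ?_⟩
      · show ‖Φ₁ (c ⊗ₜ x) - _‖ < ε
        rw [Algebra.TensorProduct.lift_tmul, Algebra.ofId_apply, map_mul, map_ratCast, ← sub_mul,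
          ← map_ratCast (algebraMap (Qq q) (Cq q)), ← map_sub, norm_mul, norm_algebraMap']
        exact hr'
      · show ‖Φ₂ (c ⊗ₜ x) - _‖ < ε
        rw [Algebra.TensorProduct.lift_tmul, Algebra.ofId_apply, map_mul, map_mul, map_ratCast,
          map_ratCast, AlgHom.comp_apply, ← map_ratCast (algebraMap (Qq q) (Cq q))]
        show ‖algebraMap (Qq q) (Cq q) c * iota q (d x) - _ * iota q (d x)‖ < ε
        rw [← sub_mul, ← map_sub, norm_mul, norm_algebraMap', norm_iota_of_mem hd]
        exact hr'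
    | add z w hz hw =>
      intro ε hε
      obtain ⟨y, hy, hy'⟩ := hz (ε / 2) (half_pos hε)
      obtain ⟨y', hy₂, hy₂'⟩ := hw (ε / 2) (half_pos hε)
      refine ⟨y + y', ?_, ?_⟩
      · rw [map_add, map_add, add_sub_add_comm]
        exact lt_of_le_of_lt (norm_add_le _ _) (by linarith)
      · rw [map_add, map_add, map_add, add_sub_add_comm]
        exact lt_of_le_of_lt (norm_add_le _ _) (by linarith)
  have hker : ∀ z w, Φ₁ z = Φ₁ w → Φ₂ z = Φ₂ w := by
    intro z w hzw
    rw [← sub_eq_zero, ← map_sub]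
    have hz : Φ₁ (z - w) = 0 := by rw [map_sub, hzw, sub_self]
    refine norm_le_zero_iff.1 (le_of_forall_pos_le_add fun ε hε => ?_)
    rw [zero_add]
    obtain ⟨y, hy, hy'⟩ := happrox (z - w) (ε / 2) (half_pos hε)
    rw [hz, zero_sub, norm_neg] at hy
    have h1 := norm_add_le (Φ₂ (z - w) - iota q (d y)) (iota q (d y))
    rw [sub_add_cancel, norm_iota_of_mem hd] at h1
    linarith
  -- the map on the compositum
  let L : Subalgebra (Qq q) (Cq q) := Φ₁.range
  have hL : IsField L := Subalgebra.isField_of_algebraic L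
  choose s hs using fun l : L => l.2
  let ψ : L.toIntermediateField' hL →ₐ[Qq q] Cq q :=
    { toFun := fun l => Φ₂ (s ⟨l, l.2⟩)
      map_one' := by rw [← map_one Φ₂]; exact hker _ _ (by rw [map_one]; exact hs 1)
      map_mul' := fun a b => by
        rw [← map_mul]
        exact hker _ _ (by rw [map_mul]; exact (hs _).trans (congrArg₂ (· * ·) (hs _) (hs _)).symm)
      map_zero' := by rw [← map_zero Φ₂]; exact hker _ _ (by rw [map_zero]; exact hs 0)
      map_add' := fun a b => by
        rw [← map_add]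
        exact hker _ _ (by rw [map_add]; exact (hs _).trans (congrArg₂ (· + ·) (hs _) (hs _)).symm)
      commutes' := fun c => by
        rw [← Φ₂.commutes c]
        exact hker _ _ (by rw [Φ₁.commutes]; exact hs _) }
  have hψ : ∀ z, ψ ⟨Φ₁ z, z, rfl⟩ = Φ₂ z := fun z => hker _ _ (hs _)
  obtain ⟨σ, hσ⟩ := IntermediateField.exists_algHom_of_adjoin_splits
    (S := (Set.univ : Set (Cq q))) (fun x _ => ⟨Algebra.IsIntegral.isIntegral x, IsAlgClosed.splits _⟩)
    ψ (IntermediateField.adjoin_univ _ _)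
  let τ : Cq q ≃ₐ[Qq q] Cq q := AlgEquiv.ofBijective σ (Algebra.IsAlgebraic.algHom_bijective σ)
  refine ⟨(toAut q).symm τ, AlgEquiv.ext fun x => (iota q).toRingHom.injective ?_⟩
  show iota q _ = iota q _
  rw [iota_loc, MulEquiv.apply_symm_apply]
  show σ (iota q x) = _
  have h1 : iota q x = Φ₁ (1 ⊗ₜ x) := by
    rw [Algebra.TensorProduct.lift_tmul, map_one, one_mul]
  have h2 := DFunLike.congr_fun hσ ⟨Φ₁ (1 ⊗ₜ x), _, rfl⟩
  rw [hψ] at h2
  rw [h1]
  refine h2.trans ?_
  rw [Algebra.TensorProduct.lift_tmul, map_one, one_mul]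
  rfl

theorem inert_le_range (q : Nat.Primes) :
    (ExtCitation.primeLocalPlace q).inertiaSubgroupIn ℚ ≤ (loc q).range := fun d hd => by
  rw [range_loc' q]
  exact Local.inertia_mem_decomposition hd

/-- the action is smooth for the levels of `Gam q` -/
theorem exists_level_fix_point (x : Cq q) :
    ∃ F : IntermediateField ℚ (AlgebraicClosure ℚ), FiniteDimensional ℚ F ∧
      ∀ g : Gam q, loc q g ∈ F.fixingSubgroup → toAut q g x = x := by
  classical
  haveI : Algebra.IsAlgebraic ℚ (AlgebraicClosure ℚ) := AlgebraicClosure.isAlgebraic ℚ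
  set f := minpoly (Qq q) x
  have hint : IsIntegral (Qq q) x := Algebra.IsIntegral.isIntegral x
  let S : Finset (Cq q) := (f.aroots (Cq q)).toFinset.filter (· ≠ x)
  obtain ⟨δ, hδ, hS⟩ : ∃ δ > (0 : ℝ), ∀ y ∈ S, δ ≤ ‖x - y‖ := by
    rcases S.eq_empty_or_nonempty with h | h
    · exact ⟨1, one_pos, by simp [h]⟩
    · refine ⟨S.inf' h fun y => ‖x - y‖, ?_, fun y hy => Finset.inf'_le _ hy⟩
      rw [gt_iff_lt, Finset.lt_inf'_iff]
      intro y hy
      simpa [sub_eq_zero] using (Ne.symm (Finset.mem_filter.1 hy).2)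
  obtain ⟨b, hb⟩ := Metric.denseRange_iff.1 (denseRange_iota q) x δ hδ
  rw [dist_eq_norm] at hb
  have hx : x ∈ IntermediateField.adjoin (Qq q) ({iota q b} : Set (Cq q)) :=
    IsKrasner.krasner (minpoly.irreducible hint).separable (IsAlgClosed.splits _)
      (Algebra.IsIntegral.isIntegral _) fun x' hconj hne => lt_of_lt_of_le hb (hS x' (by
        refine Finset.mem_filter.2 ⟨?_, hne.symm⟩
        rw [Multiset.mem_toFinset, mem_aroots]
        refine ⟨minpoly.ne_zero hint, ?_⟩
        rw [show f = minpoly (Qq q) x' from hconj]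
        exact minpoly.aeval _ _))
  refine ⟨IntermediateField.adjoin ℚ {b},
    IntermediateField.adjoin.finiteDimensional (Algebra.IsIntegral.isIntegral b), fun g hg => ?_⟩
  have hgb : toAut q g (iota q b) = iota q b := by
    rw [← iota_loc, (IntermediateField.mem_fixingSubgroup_iff _ _).1 hg b
      (IntermediateField.mem_adjoin_simple_self ℚ b)]
  have hle : IntermediateField.adjoin (Qq q) ({iota q b} : Set (Cq q)) ≤
      IntermediateField.fixedField (Subgroup.zpowers (toAut q g)) := by
    rw [IntermediateField.adjoin_le_iff, Set.singleton_subset_iff]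
    exact (IntermediateField.mem_fixedField_iff _ _).2 fun s hs =>
      (Subgroup.zpowers_le.2 (show toAut q g ∈ MulAction.stabilizer _ (iota q b) from hgb)) hs
  exact (IntermediateField.mem_fixedField_iff _ _).1 (hle hx) _ (Subgroup.mem_zpowers _)

end FLTAgent.PT
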