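import Fermat.Agent.PT.Local.Perm

/-!
Parcel C: local duality. The two pairings are nondegenerate for every finite module: by induction
from the permutation modules, where it is the nondegeneracy of the symbols.
-/

set_option autoImplicit false
set_option linter.style.haveILetI false
set_option linter.unusedSectionVars false

noncomputable section

open CategoryTheory groupCohomology

namespace FLTAgent.PT.Loc

variable {p : ℕ} [Fact p.Prime] {q : Nat.Primes} {M N A B C : Rep.{0} (ZMod p) GQ}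

section LinAlg

variable {V W L : Type} [AddCommGroup V] [Module (ZMod p) V] [AddCommGroup W] [Module (ZMod p) W]
  [AddCommGroup L] [Module (ZMod p) L] [Module.Finite (ZMod p) V] [Module.Finite (ZMod p) W]

theorem finrank_hom_line (hL : Module.finrank (ZMod p) L = 1) :
    Module.finrank (ZMod p) (W →ₗ[ZMod p] L) = Module.finrank (ZMod p) W := by
  haveI : Module.Finite (ZMod p) L := Module.finite_of_finrank_eq_succ hL
  haveI : Module.Free (ZMod p) W := Module.Free.of_divisionRing _ _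
  haveI : Module.Free (ZMod p) L := Module.Free.of_divisionRing _ _
  rw [Module.finrank_linearMap, hL, mul_one]

theorem finite_hom_line (hL : Module.finrank (ZMod p) L = 1) :
    Module.Finite (ZMod p) (W →ₗ[ZMod p] L) := by
  haveI : Module.Finite (ZMod p) L := Module.finite_of_finrank_eq_succ hL
  haveI : Module.Free (ZMod p) W := Module.Free.of_divisionRing _ _
  haveI : Module.Free (ZMod p) L := Module.Free.of_divisionRing _ _
  infer_instance

theorem finrank_le_of_injective_line (hL : Module.finrank (ZMod p) L = 1)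
    {f : V →ₗ[ZMod p] W →ₗ[ZMod p] L} (hf : Function.Injective f) :
    Module.finrank (ZMod p) V ≤ Module.finrank (ZMod p) W := by
  haveI := finite_hom_line (W := W) hL
  haveI : Module.Free (ZMod p) (W →ₗ[ZMod p] L) := Module.Free.of_divisionRing _ _
  rw [← finrank_hom_line (W := W) hL]
  exact LinearMap.finrank_le_finrank_of_injective hf

theorem flip_injective_of_surjective (hL : Module.finrank (ZMod p) L = 1)
    {f : V →ₗ[ZMod p] W →ₗ[ZMod p] L} (hf : Function.Surjective f) :
    Function.Injective f.flip := by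
  rw [← LinearMap.ker_eq_bot, Submodule.eq_bot_iff]
  intro w hw
  by_contra h
  obtain ⟨e, he⟩ : ∃ e : L, e ≠ 0 := by
    haveI := Module.nontrivial_of_finrank_eq_succ hL
    exact exists_ne 0
  obtain ⟨φ, hφ⟩ : ∃ φ : W →ₗ[ZMod p] ZMod p, φ w ≠ 0 := by
    by_contra! hall
    exact h ((Module.forall_dual_apply_eq_zero_iff (ZMod p) w).1 hall)
  obtain ⟨v, hv⟩ := hf (φ.smulRight e)
  have h0 : f v w = 0 := LinearMap.congr_fun hw v
  rw [hv, LinearMap.smulRight_apply, smul_eq_zero] at h0
  exact h0.elim hφ he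

theorem bijective_of_injective_line (hL : Module.finrank (ZMod p) L = 1)
    {f : V →ₗ[ZMod p] W →ₗ[ZMod p] L} (hf : Function.Injective f)
    (hle : Module.finrank (ZMod p) W ≤ Module.finrank (ZMod p) V) :
    Function.Bijective f ∧ Function.Bijective f.flip := by
  haveI := finite_hom_line (W := W) hL
  haveI := finite_hom_line (W := V) hL
  have he : Module.finrank (ZMod p) V = Module.finrank (ZMod p) W :=
    le_antisymm (finrank_le_of_injective_line hL hf) hle
  have hb : Function.Bijective f :=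
    ⟨hf, (LinearMap.injective_iff_surjective_of_finrank_eq_finrank
      (he.trans (finrank_hom_line hL).symm)).1 hf⟩
  have hi := flip_injective_of_surjective hL hb.2
  exact ⟨hb, hi, (LinearMap.injective_iff_surjective_of_finrank_eq_finrank
    (he.symm.trans (finrank_hom_line hL).symm)).1 hi⟩

theorem bijective_of_injective_both (hL : Module.finrank (ZMod p) L = 1)
    {f : V →ₗ[ZMod p] W →ₗ[ZMod p] L} (hf : Function.Injective f)
    (hf' : Function.Injective f.flip) : Function.Bijective f ∧ Function.Bijective f.flip :=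
  bijective_of_injective_line hL hf (finrank_le_of_injective_line hL hf')

/-- the middle of an exact sequence of finite modules is finite -/
theorem finite_mid {U X Y : Type} [AddCommGroup U] [Module (ZMod p) U] [AddCommGroup X]
    [Module (ZMod p) X] [AddCommGroup Y] [Module (ZMod p) Y] [Module.Finite (ZMod p) U]
    [Module.Finite (ZMod p) Y] (f : U →ₗ[ZMod p] X) (g : X →ₗ[ZMod p] Y)
    (h : LinearMap.range f = LinearMap.ker g) : Module.Finite (ZMod p) X := by
  haveI : Module.Finite (ZMod p) (LinearMap.ker g) := by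
    rw [← h]; exact Module.Finite.range f
  haveI : Module.Finite (ZMod p) (X ⧸ LinearMap.ker g) :=
    Module.Finite.equiv g.quotKerEquivRange.symm
  exact Module.Finite.of_submodule_quotient (LinearMap.ker g)

end LinAlg

theorem finrank_lH2 : Module.finrank (ZMod p) (lH2 q (mu p)) = 1 := finrank_lH2_mu' p q

theorem finite_lH0 (hM : IsAdm (MonoidHom.id GQ) M) : Module.Finite (ZMod p) (lH0 q M) := by
  haveI := hM.finite
  infer_instance

section Adjoint

variable (φ : M →ₗ[ZMod p] N) (hφ : ∀ g m, φ (M.ρ g m) = N.ρ g (φ m))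

theorem pair11_adjoint (hM : IsAdm (MonoidHom.id GQ) M) (hN : IsAdm (MonoidHom.id GQ) N)
    (x : lH1 q M) (y : lH1 q (dual' N)) :
    pair11 q hN (lpush1 φ hφ q x) y = pair11 q hM x (lpush1 (dmap φ) (dmap_eqv φ hφ) q y) := by
  obtain ⟨z, rfl⟩ := Submodule.mkQ_surjective _ x
  obtain ⟨w, rfl⟩ := Submodule.mkQ_surjective _ y
  show h2mk (loc q) (Rep.res (loc q) (mu p)) _ = h2mk (loc q) (Rep.res (loc q) (mu p)) _
  refine congrArg _ (Subtype.ext (funext fun g => ?_))
  show evM N (φ (z.1 g.1)) ((dual' N).ρ (loc q g.1) (w.1 g.2)) =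
    evM M (z.1 g.1) ((dual' M).ρ (loc q g.1) (dmap φ (w.1 g.2)))
  rw [← dmap_eqv φ hφ]
  rfl

theorem pair02_adjoint (n : lH0 q (dual' N)) (c : lH2 q M) :
    pair02 q M ⟨dmap φ n.1, fun g => by
      show (dual' M).ρ (loc q g) (dmap φ n.1) = dmap φ n.1
      rw [← dmap_eqv φ hφ]; exact congrArg (dmap φ) (n.2 g)⟩ c =
      pair02 q N n (lpush2 φ hφ q c) := by
  obtain ⟨z, rfl⟩ := Submodule.mkQ_surjective _ c
  show h2mk (loc q) (Rep.res (loc q) (mu p)) _ = h2mk (loc q) (Rep.res (loc q) (mu p)) _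
  exact congrArg _ (Subtype.ext (funext fun g => rfl))

theorem pair11_flip (hM : IsAdm (MonoidHom.id GQ) M) (x : lH1 q M) (y : lH1 q (dual' M)) :
    pair11 q hM x y +
      pair11 q (isAdm_dual hM) y (lpush1 (ddual M) ddual_eqv q x) = 0 := by
  have h := cupH_flip (r := loc q) (A := Rep.res (loc q) M) (B := Rep.res (loc q) (dual' M))
    (C := Rep.res (loc q) (mu p)) (φ := evM M) (fun g => evM_eqv M (loc q g)) (hM.res _)
    ((isAdm_dual hM).res _) (evD M) (fun g => evD_eqv M (loc q g)) (fun a b => rfl) x y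
  refine Eq.trans (congrArg (pair11 q hM x y + ·) ?_) h
  obtain ⟨z, rfl⟩ := Submodule.mkQ_surjective _ x
  obtain ⟨w, rfl⟩ := Submodule.mkQ_surjective _ y
  show h2mk (loc q) (Rep.res (loc q) (mu p)) _ = h2mk (loc q) (Rep.res (loc q) (mu p)) _
  refine congrArg _ (Subtype.ext (funext fun g => ?_))
  show evM (dual' M) (w.1 g.1) ((dual' (dual' M)).ρ (loc q g.1) (ddual M (z.1 g.2))) =
    evD M (w.1 g.1) (M.ρ (loc q g.1) (z.1 g.2))
  rw [← ddual_eqv]
  rfl

end Adjoint

section Left02

/-- corestriction onto a module from a vector fixed by an open subgroup -/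
def pushVec {V : Subgroup (Gam q)} [Finite (Gam q ⧸ V)] (M : Rep.{0} (ZMod p) GQ) (m : M)
    (hm : ∀ v ∈ V, M.ρ (loc q v) m = m) (hω : ∀ v ∈ V, om p v = 1) :
    Ind V (mu p) →ₗ[ZMod p] Rep.res (loc q) M :=
  letI := Fintype.ofFinite (Gam q ⧸ V)
  ∑ x : Gam q ⧸ V, (LinearMap.proj x : ((Gam q ⧸ V) → ZMod p) →ₗ[ZMod p] ZMod p).smulRight
    (Quotient.liftOn' x (fun g => (om p g)⁻¹ • M.ρ (loc q g) m) fun a b hab => by
      rw [QuotientGroup.leftRel_apply] at hab
      have h1 := hm _ hab
      have h2 := hω _ hab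
      have e : b = a * (a⁻¹ * b) := (mul_inv_cancel_left a b).symm
      have hb : om p b = om p a := by
        conv_lhs => rw [e]
        rw [om, map_mul, map_mul, Units.val_mul]
        exact (congrArg (om p a * ·) h2).trans (mul_one _)
      show (om p a)⁻¹ • M.ρ (loc q a) m = (om p b)⁻¹ • M.ρ (loc q b) m
      rw [hb]
      conv_rhs => rw [e, map_mul, map_mul, Module.End.mul_apply, h1])

variable {V : Subgroup (Gam q)} [Fintype (Gam q ⧸ V)] (m : M)
  (hm : ∀ v ∈ V, M.ρ (loc q v) m = m) (hω : ∀ v ∈ V, om p v = 1)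

theorem pushVec_apply (f : Ind V (mu p)) :
    pushVec M m hm hω f =
      ∑ x : Gam q ⧸ V, (f x : ZMod p) • ((om p x.out)⁻¹ • M.ρ (loc q x.out) m) := by
  show (pushVec M m hm hω) f = _
  rw [pushVec]
  convert rfl using 2
  · rw [LinearMap.sum_apply]
    refine Finset.sum_congr (by congr 1; exact Subsingleton.elim _ _) fun x _ => ?_
    rw [LinearMap.smulRight_apply]
    exact congrArg ((f x : ZMod p) • ·) (congrArg (fun y => Quotient.liftOn' y
      (fun g => (om p g)⁻¹ • M.ρ (loc q g) m) _) (Quotient.out_eq' x))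

theorem pushVec_eqv (g : Gam q) (f : Ind V (mu p)) :
    pushVec M m hm hω ((Ind V (mu p)).ρ g f) =
      (Rep.res (loc q) M).ρ g (pushVec M m hm hω f) := by
  rw [pushVec_apply, pushVec_apply, map_sum]
  refine Fintype.sum_equiv (MulAction.toPerm g⁻¹) _ _ fun x => ?_
  set y := g⁻¹ • x with hy
  show ((mu p).ρ (loc q g) (f y) : ZMod p) • ((om p x.out)⁻¹ • M.ρ (loc q x.out) m) =
    M.ρ (loc q g) ((f y : ZMod p) • ((om p y.out)⁻¹ • M.ρ (loc q y.out) m))
  rw [mu_apply, map_smul, map_smul, ← Module.End.mul_apply, ← map_mul, ← map_mul]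
  have h1 : ((x.out : Gam q) : Gam q ⧸ V) = ((g * y.out : Gam q) : Gam q ⧸ V) := by
    rw [QuotientGroup.out_eq']
    show x = g • ((y.out : Gam q) : Gam q ⧸ V)
    rw [QuotientGroup.out_eq', hy, smul_inv_smul]
  have hv := QuotientGroup.eq.1 h1
  have e : g * y.out = x.out * (x.out⁻¹ * (g * y.out)) := (mul_inv_cancel_left _ _).symm
  have hρ : M.ρ (loc q (g * y.out)) m = M.ρ (loc q x.out) m := by
    conv_lhs => rw [e, map_mul, map_mul, Module.End.mul_apply, hm _ hv]
  have ho : om p x.out = om p g * om p y.out := by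
    have h2 : om p (g * y.out) = om p x.out := by
      conv_lhs => rw [e]
      rw [om, map_mul, map_mul, Units.val_mul]
      exact (congrArg (om p x.out * ·) (hω _ hv)).trans (mul_one _)
    rw [← h2, om, map_mul, map_mul, Units.val_mul]
  rw [hρ, ho, smul_smul, smul_smul]
  congr 1
  rw [mul_inv]
  have hg : om p g ≠ 0 := Units.ne_zero _
  field_simp

end Left02

theorem pair02_injective (hM : IsAdm (MonoidHom.id GQ) M) : Function.Injective (pair02 q M) := by
  classical
  rw [← LinearMap.ker_eq_bot, Submodule.eq_bot_iff]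
  intro n hn
  by_contra hne
  have hn0 : (n.1 : Module.Dual (ZMod p) M) ≠ 0 := fun h => hne (Subtype.ext h)
  obtain ⟨m, hm⟩ : ∃ m, (n.1 : Module.Dual (ZMod p) M) m = 1 := by
    obtain ⟨m₀, hm₀⟩ : ∃ m₀, (n.1 : Module.Dual (ZMod p) M) m₀ ≠ 0 := by
      by_contra! h
      exact hn0 (LinearMap.ext h)
    exact ⟨((n.1 : Module.Dual (ZMod p) M) m₀)⁻¹ • m₀, by
      rw [map_smul, smul_eq_mul, inv_mul_cancel₀ hm₀]⟩
  obtain ⟨F, hF, hρ⟩ := hM.level
  set V := F.fixingSubgroup.comap (loc q) ⊓ Kom p q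
  have hV : OpenU q V := openU_inf ⟨F, hF, le_rfl⟩ openU_Kom
  haveI := finite_quot hV
  letI := Fintype.ofFinite (Gam q ⧸ V)
  have hfix : ∀ v ∈ V, M.ρ (loc q v) m = m := fun v hv => by
    rw [show M.ρ (loc q v) = 1 from hρ _ hv.1]; rfl
  have hω : ∀ v ∈ V, om p v = 1 := fun v hv => om_Kom hv.2
  have hinv : ∀ (g : Gam q) (v : M), (n.1 : Module.Dual (ZMod p) M) (M.ρ (loc q g) v) =
      om p g * (n.1 : Module.Dual (ZMod p) M) v := by
    intro g v
    have h := evD_eqv M (loc q g) n.1 v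
    rw [show (dual' M).ρ (loc q g) n.1 = n.1 from n.2 g, mu_apply] at h
    exact h
  have hcomp : ∀ f : Ind V (mu p), (n.1 : Module.Dual (ZMod p) M) (pushVec M m hfix hω f) =
      indSum V (Rep.res (loc q) (mu p)) f := by
    intro f
    rw [pushVec_apply, map_sum]
    show _ = (∑ x, (f x : ZMod p))
    refine Finset.sum_congr rfl fun x _ => ?_
    rw [map_smul, map_smul, hinv, hm, mul_one, smul_eq_mul, smul_eq_mul,
      inv_mul_cancel₀ (Units.ne_zero _), mul_one]
  obtain ⟨c, hc⟩ := exists_lH2_ne p q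
  obtain ⟨d, rfl⟩ := eps2_surjective (p := p) hV c
  refine hc ?_
  have h := LinearMap.congr_fun hn (h2push (loc q) (pushVec M m hfix hω) (pushVec_eqv m hfix hω) d)
  obtain ⟨z, rfl⟩ := Submodule.mkQ_surjective _ d
  refine Eq.trans ?_ h
  show h2mk (loc q) (Rep.res (loc q) (mu p)) _ = h2mk (loc q) (Rep.res (loc q) (mu p)) _
  exact congrArg _ (Subtype.ext (funext fun g => (hcomp _).symm))

section PermCase

variable {H : Subgroup GQ} (hH : IsOpenSub (MonoidHom.id GQ) H)
  (hω : ∀ h ∈ H, ExtCitation.cycloChar p h = 1)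

include hH in
theorem isAdm_permOne : IsAdm (MonoidHom.id GQ) (ind H (one p)) :=
  isAdm_ind hH (isAdm_one p)

set_option maxHeartbeats 800000 in
include hH hω in
theorem pair11_perm_injective :
    Function.Injective (pair11 q (isAdm_permOne (p := p) hH)) := by
  classical
  rw [← LinearMap.ker_eq_bot, Submodule.eq_bot_iff]
  intro x hx
  by_contra hne
  haveI := hH.finite_quotient
  letI := Fintype.ofFinite (GQ ⧸ H)
  have hb := shap1_bijective (f := loc q) (H := H) (N := one p) (r := MonoidHom.id GQ) (r' := loc q)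
    (fun _ => rfl) hH (isAdm_one p) isOrbitReps_repsQ
  obtain ⟨x₀, hx₀⟩ : ∃ x₀ : repsQ q H, shap1 (loc q) H (one p) (loc q) (repsQ q H) x x₀ ≠ 0 := by
    by_contra! h
    exact hne (hb.1 (by rw [map_zero]; exact funext h))
  set S := stQ q H x₀.1
  have hS : OpenU q S := openU_stQ hH x₀.1
  haveI := finite_quot hS
  letI := Fintype.ofFinite (Gam q ⧸ S)
  let ι : Gam q ⧸ S → GQ ⧸ H := fun y =>
    Quotient.liftOn' y (fun g => loc q g • (x₀.1 : GQ ⧸ H)) fun a b hab => by
      rw [QuotientGroup.leftRel_apply] at hab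
      have h : loc q (a⁻¹ * b) • (x₀.1 : GQ ⧸ H) = x₀.1 := hab
      conv_lhs => rw [← h]
      rw [smul_smul, ← map_mul, mul_inv_cancel_left]
  have hι : ∀ g y, ι (g • y) = loc q g • ι y := by
    intro g y
    induction y using QuotientGroup.induction_on with
    | H a =>
      show loc q (g * a) • (x₀.1 : GQ ⧸ H) = loc q g • loc q a • (x₀.1 : GQ ⧸ H)
      rw [map_mul, mul_smul]
  let pc : Rep.res (loc q) (ind H (one p)) →ₗ[ZMod p] Ind S (one p) :=
    LinearMap.funLeft (ZMod p) (ZMod p) ι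
  have hpc : ∀ g f, pc ((Rep.res (loc q) (ind H (one p))).ρ g f) = (Ind S (one p)).ρ g (pc f) := by
    intro g f
    funext y
    show f ((loc q g)⁻¹ • ι y) = f (ι (g⁻¹ • y))
    rw [hι, map_inv]
  let e := LinearEquiv.ofBijective (permDual (p := p) H) permDual_bijective
  have he : ∀ g w, e.symm ((ind H (mu p)).ρ g w) = (dual' (ind H (one p))).ρ g (e.symm w) := by
    intro g w
    refine e.injective ?_
    rw [e.apply_symm_apply]
    show _ = permDual H _
    rw [permDual_eqv]
    show _ = (ind H (mu p)).ρ g (e (e.symm w))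
    rw [e.apply_symm_apply]
  let Ψ : Ind S (mu p) →ₗ[ZMod p] Rep.res (loc q) (dual' (ind H (one p))) :=
    e.symm.toLinearMap ∘ₗ pushCos ι
  have hΨ : ∀ g f, Ψ ((Ind S (mu p)).ρ g f) =
      (Rep.res (loc q) (dual' (ind H (one p)))).ρ g (Ψ f) := by
    intro g f
    show e.symm (pushCos ι _) = _
    rw [pushCos_eqv ι hι]
    exact he _ _
  have hkey : ∀ (f : ind H (one p)) (b : Ind S (mu p)),
      indSum S (Rep.res (loc q) (mu p)) (indMul p S (pc f) b) = evM (ind H (one p)) f (Ψ b) := by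
    intro f b
    set φ : Module.Dual (ZMod p) (ind H (one p)) := Ψ b
    have hφ : ∀ z, φ (deltaFn H z) = pushCos (N := mu p) ι b z := fun z =>
      congrFun (e.apply_symm_apply (pushCos ι b)) z
    show (∑ y, (f (ι y) : ZMod p) * b y) = φ f
    rw [sum_smul_deltaFn f, map_sum]
    conv_lhs => rw [← Finset.sum_fiberwise Finset.univ ι (fun y => (_ : ZMod p) * b y)]
    refine Finset.sum_congr rfl fun z _ => ?_
    rw [map_smul, hφ, smul_eq_mul, pushCos_apply, Finset.mul_sum]
    refine Finset.sum_congr rfl fun y hy => ?_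
    rw [← sum_smul_deltaFn f, (Finset.mem_filter.1 hy).2]
  set a := h1push (loc q) pc hpc x
  have ha : ev1 S (one p) a = shap1 (loc q) H (one p) (loc q) (repsQ q H) x x₀ := by
    obtain ⟨z, rfl⟩ := Submodule.mkQ_surjective _ x
    refine congrArg (Submodule.mkQ _) (Subtype.ext (funext fun u => ?_))
    show z.1 u (loc q 1 • (x₀.1 : GQ ⧸ H)) = z.1 u x₀.1
    rw [map_one, one_smul]
  have ha0 : ev1 S (one p) a ≠ 0 := fun h => hx₀ (by rw [← ha, h])
  obtain ⟨y₀, hy₀, -⟩ := exists_symU_ne (om_stQ hω x₀.1) ha0 hS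
  obtain ⟨b, rfl⟩ := (ev1_bijective hS (isAdm_mu p)).2 y₀
  rw [← ev2_symI hS] at hy₀
  have h := cupH_proj (r := loc q) (A := Rep.res (loc q) (ind H (one p)))
    (B := Rep.res (loc q) (dual' (ind H (one p)))) (C := Rep.res (loc q) (mu p))
    (φ := evM (ind H (one p))) (fun g => evM_eqv (ind H (one p)) (loc q g)) (φ' := indMul p S) indMul_eqv
    ((isAdm_dual (isAdm_permOne hH)).res _) (isAdm_Ind hS (isAdm_mu p)) pc hpc Ψ hΨ
    (indSum S (Rep.res (loc q) (mu p))) indSum_Ind_eqv hkey x b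
  have h0 : eps2 S (mu p) (symI hS a b) = 0 :=
    h.trans (LinearMap.congr_fun hx _)
  obtain ⟨g, -, hl⟩ := exists_gen_all hS (om_stQ hω x₀.1)
  obtain ⟨c, hc⟩ := exists_lH2_ne p q
  obtain ⟨d, rfl⟩ := eps2_surjective (p := p) hS c
  obtain ⟨k, rfl⟩ := hl d
  obtain ⟨k', hk'⟩ := hl (symI hS a b)
  rw [hk', map_smul, smul_eq_zero] at h0
  refine h0.elim (fun e0 => hy₀ (by rw [hk', e0, zero_smul, map_zero])) fun e0 => hc ?_
  rw [map_smul, e0, smul_zero]

include hH hω in
theorem finrank_lH0_dual_perm :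
    Module.finrank (ZMod p) (lH0 q (dual' (ind H (one p)))) = Nat.card (repsQ q H) := by
  haveI := hH.finite_quotient
  haveI := finite_repsQ (q := q) hH
  letI := Fintype.ofFinite (repsQ q H)
  let ev : lH0 q (ind H (mu p)) →ₗ[ZMod p] (repsQ q H → ZMod p) :=
    { toFun := fun a x => a.1 x.1
      map_add' := fun a b => rfl
      map_smul' := fun c a => rfl }
  have hsh := shap0_bijective (f := loc q) (H := H) (N := mu p) (isOrbitReps_repsQ (q := q) (H := H))
  have hev : Function.Bijective ev := by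
    refine ⟨fun a b h => hsh.1 (funext fun x => Subtype.ext (congrFun h x)), fun t => ?_⟩
    obtain ⟨a, ha⟩ := hsh.2 fun x => ⟨(t x : ZMod p), fun u => by
      show ((mu p).ρ (loc q (u : Gam q)) (t x) : ZMod p) = t x
      rw [mu_apply, om_stQ hω x.1 _ u.2, one_mul]⟩
    exact ⟨a, funext fun x => congrArg Subtype.val (congrFun ha x)⟩
  let e := LinearEquiv.ofBijective (permDual (p := p) H) permDual_bijective
  have hmap : (lH0 q (dual' (ind H (one p)))).map (e : dual' (ind H (one p)) →ₗ[ZMod p] ind H (mu p)) =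
      lH0 q (ind H (mu p)) := by
    refine le_antisymm ?_ fun w hw => ?_
    · rintro _ ⟨f, hf, rfl⟩ g
      show (ind H (mu p)).ρ (loc q g) (permDual H f) = permDual H f
      rw [← permDual_eqv]
      exact congrArg (permDual H) (hf g)
    · refine ⟨e.symm w, fun g => e.injective ?_, e.apply_symm_apply w⟩
      show permDual H ((dual' (ind H (one p))).ρ (loc q g) (e.symm w)) = e (e.symm w)
      rw [permDual_eqv, e.apply_symm_apply]
      show (ind H (mu p)).ρ (loc q g) (e (e.symm w)) = w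
      rw [e.apply_symm_apply]
      exact hw g
  rw [(e.submoduleMap (lH0 q (dual' (ind H (one p))))).finrank_eq, hmap,
    (LinearEquiv.ofBijective ev hev).finrank_eq, Module.finrank_fintype_fun_eq_card,
    Nat.card_eq_fintype_card]

end PermCase

/-- nondegeneracy on one side, and finiteness -/
structure Nondeg (q : Nat.Primes) (M : Rep.{0} (ZMod p) GQ) : Prop where
  fin1 : Module.Finite (ZMod p) (lH1 q M)
  fin2 : Module.Finite (ZMod p) (lH2 q M)
  inj11 : ∀ hM : IsAdm (MonoidHom.id GQ) M, Function.Injective (pair11 q hM)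
  inj02 : Function.Injective (pair02 q M).flip

theorem Nondeg.retract (hN : Nondeg q N) (i : M →ₗ[ZMod p] N) (s : N →ₗ[ZMod p] M)
    (hi : ∀ g a, i (M.ρ g a) = N.ρ g (i a)) (hs : ∀ g b, s (N.ρ g b) = M.ρ g (s b))
    (h : ∀ a, s (i a) = a) (hN' : IsAdm (MonoidHom.id GQ) N) : Nondeg q M := by
  have h1 : Function.Injective (lpush1 i hi q) := Function.LeftInverse.injective
    (g := lpush1 s hs q) fun x => h1push_retract (r := loc q) (A := Rep.res (loc q) M)
      (B := Rep.res (loc q) N) i s (fun g a => hi (loc q g) a) (fun g b => hs (loc q g) b) h x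
  have h2 : Function.Injective (lpush2 i hi q) := Function.LeftInverse.injective
    (g := lpush2 s hs q) fun x => h2push_retract (r := loc q) (A := Rep.res (loc q) M)
      (B := Rep.res (loc q) N) i s (fun g a => hi (loc q g) a) (fun g b => hs (loc q g) b) h x
  haveI := hN.fin1
  haveI := hN.fin2
  refine ⟨Module.Finite.of_injective _ h1, Module.Finite.of_injective _ h2, fun hM => ?_, ?_⟩
  · refine (injective_iff_map_eq_zero _).2 fun x hx => ?_
    have e : pair11 q hN' (lpush1 i hi q x) = 0 := LinearMap.ext fun y => by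
      rw [pair11_adjoint i hi hM hN', hx]
      rfl
    have e' : lpush1 i hi q x = 0 := (injective_iff_map_eq_zero _).1 (hN.inj11 hN') _ e
    exact (injective_iff_map_eq_zero _).1 h1 _ e'
  · refine (injective_iff_map_eq_zero _).2 fun c hc => ?_
    have e : (pair02 q N).flip (lpush2 i hi q c) = 0 := LinearMap.ext fun n => by
      rw [LinearMap.flip_apply, ← pair02_adjoint i hi]
      exact LinearMap.congr_fun hc _
    have e' : lpush2 i hi q c = 0 := (injective_iff_map_eq_zero _).1 hN.inj02 _ e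
    exact (injective_iff_map_eq_zero _).1 h2 _ e'

theorem Nondeg.of_subsingleton (M : Rep.{0} (ZMod p) GQ) [Subsingleton M] : Nondeg q M := by
  haveI : Subsingleton (Z1 (loc q) (Rep.res (loc q) M)) :=
    ⟨fun a b => Subtype.ext (funext fun _ => Subsingleton.elim (α := M) _ _)⟩
  haveI : Subsingleton (levelCocycles₂ (loc q) (Rep.res (loc q) M)) :=
    ⟨fun a b => Subtype.ext (funext fun _ => Subsingleton.elim (α := M) _ _)⟩
  haveI : Subsingleton (lH1 q M) := (Submodule.mkQ_surjective _).subsingleton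
  haveI : Subsingleton (lH2 q M) := (Submodule.mkQ_surjective _).subsingleton
  exact ⟨inferInstance, inferInstance, fun _ => Function.injective_of_subsingleton _,
    Function.injective_of_subsingleton _⟩

theorem ddual_retract (hM : IsAdm (MonoidHom.id GQ) M) :
    ∃ s : dual' (dual' M) →ₗ[ZMod p] M, (∀ g b, s ((dual' (dual' M)).ρ g b) = M.ρ g (s b)) ∧
      (∀ a, s (ddual M a) = a) ∧ ∀ b, ddual M (s b) = b := by
  let e := LinearEquiv.ofBijective (ddual M) (ddual_bijective hM)
  refine ⟨e.symm.toLinearMap, fun g b => e.injective ?_, e.symm_apply_apply, e.apply_symm_apply⟩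
  show e (e.symm _) = ddual M (M.ρ g (e.symm b))
  rw [e.apply_symm_apply, ddual_eqv]
  show _ = (dual' (dual' M)).ρ g (e (e.symm b))
  rw [e.apply_symm_apply]

theorem Nondeg.ddual (hN : Nondeg q M) (hM : IsAdm (MonoidHom.id GQ) M) :
    Nondeg q (dual' (dual' M)) := by
  obtain ⟨s, hs, h1, h2⟩ := ddual_retract hM
  exact hN.retract s (FLTAgent.PT.ddual M) hs ddual_eqv h2 hM

/-- the two bijections -/
theorem Nondeg.bij11 (h : Nondeg q M) (h' : Nondeg q (dual' M)) (hM : IsAdm (MonoidHom.id GQ) M) :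
    Function.Bijective (pair11 q hM) ∧ Function.Bijective (pair11 q hM).flip := by
  haveI := h.fin1
  haveI := h'.fin1
  refine bijective_of_injective_both (V := lH1 q M) (W := lH1 q (dual' M)) (L := lH2 q (mu p))
    (finrank_lH2 (p := p) (q := q)) (h.inj11 hM) ?_
  refine (injective_iff_map_eq_zero _).2 fun y hy => ?_
  refine (injective_iff_map_eq_zero _).1 (h'.inj11 (isAdm_dual hM)) y (LinearMap.ext fun w => ?_)
  rw [LinearMap.zero_apply]
  obtain ⟨s, hs, h1, h2⟩ := ddual_retract hM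
  have he := pair11_flip hM (lpush1 s hs q w) y
  rw [show pair11 q hM (lpush1 s hs q w) y = 0 from LinearMap.congr_fun hy _, zero_add] at he
  rwa [show lpush1 (FLTAgent.PT.ddual M) ddual_eqv q (lpush1 s hs q w) = w from
    h1push_retract (r := loc q) (A := Rep.res (loc q) (dual' (dual' M))) (B := Rep.res (loc q) M)
      s (FLTAgent.PT.ddual M) (fun g b => hs (loc q g) b)
      (fun g a => ddual_eqv (loc q g) a) h2 w] at he

theorem Nondeg.bij02 (h : Nondeg q M) (hM : IsAdm (MonoidHom.id GQ) M) :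
    Function.Bijective (pair02 q M) ∧ Function.Bijective (pair02 q M).flip := by
  haveI := h.fin2
  haveI := finite_lH0 (q := q) (isAdm_dual hM)
  exact bijective_of_injective_both (V := lH0 q (dual' M)) (W := lH2 q M) (L := lH2 q (mu p))
    (finrank_lH2 (p := p) (q := q)) (pair02_injective hM) h.inj02

section Perm

variable {H : Subgroup GQ}

theorem nondeg_perm (hH : IsOpenSub (MonoidHom.id GQ) H)
    (hω : ∀ h ∈ H, ExtCitation.cycloChar p h = 1) :
    Nondeg q (ind H (one p)) ∧ Nondeg q (dual' (ind H (one p))) := by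
  haveI := hH.finite_quotient
  haveI := finite_lH1_perm (q := q) hH hω
  haveI := finite_lH2_perm (q := q) hH hω
  haveI := finite_lH0 (q := q) (isAdm_dual (isAdm_permOne (p := p) hH))
  have hP : Nondeg q (ind H (one p)) := by
    refine ⟨inferInstance, inferInstance, fun _ => pair11_perm_injective hH hω, ?_⟩
    refine (bijective_of_injective_line (V := lH0 q (dual' (ind H (one p)))) (W := lH2 q (ind H (one p)))
      (L := lH2 q (mu p)) (finrank_lH2 (p := p) (q := q)) (pair02_injective (isAdm_permOne hH)) ?_).2.1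
    rw [finrank_lH2_perm hH hω, finrank_lH0_dual_perm hH hω, card_repsQ]
  refine ⟨hP, ?_⟩
  let u : dual' (ind H (one p)) →ₗ[ZMod p] ind H (one p) := untwistMu hω ∘ₗ permDual H
  have hu : ∀ g f, u ((dual' (ind H (one p))).ρ g f) = (ind H (one p)).ρ g (u f) := fun g f => by
    show untwistMu hω (permDual H _) = _
    rw [permDual_eqv, untwistMu_eqv]
    rfl
  have hub : Function.Bijective u := (Function.bijective_iff_has_inverse.2
    ⟨twistMu hω, twist_untwist hω, untwist_twist hω⟩).comp permDual_bijective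
  let e := LinearEquiv.ofBijective u hub
  refine hP.retract u e.symm.toLinearMap hu (fun g b => e.injective ?_) e.symm_apply_apply
    (isAdm_permOne hH)
  show e (e.symm _) = u ((dual' (ind H (one p))).ρ g (e.symm b))
  rw [e.apply_symm_apply, hu]
  show _ = (ind H (one p)).ρ g (e (e.symm b))
  rw [e.apply_symm_apply]

end Perm

section Ext

variable (E : SES (MonoidHom.id GQ) A B C)

/-- the local sequence -/
abbrev locSES (q : Nat.Primes) (E : SES (MonoidHom.id GQ) A B C) :
    SES (loc q) (Rep.res (loc q) A) (Rep.res (loc q) B) (Rep.res (loc q) C) :=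
  E.res (loc q) (loc q) fun _ => rfl

theorem pair02_del1 (hC : IsAdm (MonoidHom.id GQ) C) (n : lH0 q (dual' A)) (z : lH1 q C) :
    pair02 q A n ((locSES q E).del1 z) = pair11 q hC z ((locSES q E.dual).del0 n) := by
  obtain ⟨z, rfl⟩ := Submodule.mkQ_surjective _ z
  set El := locSES q E
  set y := (locSES q E.dual).del0Z n
  have hflip := cupH_flip (r := loc q) (A := Rep.res (loc q) C) (B := Rep.res (loc q) (dual' C))
    (C := Rep.res (loc q) (mu p)) (φ := evM C) (fun g => evM_eqv C (loc q g)) (hC.res _)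
    ((isAdm_dual hC).res _) (evD C) (fun g => evD_eqv C (loc q g)) (fun a b => rfl)
    (h1mk (loc q) _ z) (h1mk (loc q) _ y)
  show h2mk (loc q) (Rep.res (loc q) (mu p)) _ = pair11 q hC (h1mk (loc q) _ z) (h1mk (loc q) _ y)
  refine Eq.trans ?_ (eq_neg_of_add_eq_zero_left hflip).symm
  erw [eq_neg_iff_add_eq_zero, cupH_mk, ← map_add, continuousH2π_eq_zero_iff,
    mem_levelCoboundaries₂_iff]
  set ν : dual' B := (locSES q E.dual).sec n.1
  refine ⟨fun g => evD B ν (El.sec (z.1 g)), IsLevelConstant₁.comp z.2.2 (fun v => evD B ν (El.sec v)), ?_⟩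
  rw [show (fun g => evD B ν (El.sec (z.1 g))) = cup01 (A := Rep.res (loc q) (dual' B))
      (B := Rep.res (loc q) B) (C := Rep.res (loc q) (mu p)) (evD B) ν (El.sec ∘ z.1) from rfl,
    d_cup01 (fun g => evD_eqv B (loc q g))]
  funext g
  rw [add_comm, Submodule.coe_add, Pi.add_apply, Pi.add_apply]
  refine congrArg₂ (· + ·) ?_ ?_
  · show evD B ν ((d₁₂ (Rep.res (loc q) B)).hom (El.sec ∘ z.1) g) =
      evD A n.1 ((El.del1Z z).1 g)
    rw [← El.i_del1Z z g]
    have e : dmap E.i ν = n.1 := (locSES q E.dual).pr_sec n.1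
    conv_rhs => rw [← e]
    rfl
  · show evD B ((d₀₁ (Rep.res (loc q) (dual' B))).hom ν g.1)
        ((Rep.res (loc q) B).ρ g.1 (El.sec (z.1 g.2))) =
      evD C (y.1 g.1) ((Rep.res (loc q) C).ρ g.1 (z.1 g.2))
    rw [d₀₁_hom_apply, ← (locSES q E.dual).i_del0Z n g.1]
    show evD C (y.1 g.1) (E.pr ((Rep.res (loc q) B).ρ g.1 (El.sec (z.1 g.2)))) = _
    rw [show E.pr ((Rep.res (loc q) B).ρ g.1 (El.sec (z.1 g.2))) =
        (Rep.res (loc q) C).ρ g.1 (E.pr (El.sec (z.1 g.2))) from E.pr_eqv _ _,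
      show E.pr (El.sec (z.1 g.2)) = z.1 g.2 from El.pr_sec _]

theorem pair02_del1' (hA : IsAdm (MonoidHom.id GQ) A) (c : lH0 q C)
    (φ : lH0 q (dual' (dual' C))) (hφ : φ.1 = ddual C c.1) (y : lH1 q (dual' A)) :
    pair02 q (dual' C) φ ((locSES q E.dual).del1 y) +
      pair11 q hA ((locSES q E).del0 c) y = 0 := by
  obtain ⟨y, rfl⟩ := Submodule.mkQ_surjective _ y
  set El := locSES q E
  set Ed := locSES q E.dual
  set a := El.del0Z c
  show h2mk (loc q) (Rep.res (loc q) (mu p)) _ +
    h2mk (loc q) (Rep.res (loc q) (mu p)) _ = 0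
  rw [← map_add, continuousH2π_eq_zero_iff, mem_levelCoboundaries₂_iff]
  set b : B := El.sec c.1
  refine ⟨fun g => evM B b (Ed.sec (y.1 g)), IsLevelConstant₁.comp y.2.2 (fun v => evM B b (Ed.sec v)), ?_⟩
  rw [show (fun g => evM B b (Ed.sec (y.1 g))) = cup01 (A := Rep.res (loc q) B)
      (B := Rep.res (loc q) (dual' B)) (C := Rep.res (loc q) (mu p)) (evM B) b (Ed.sec ∘ y.1) from rfl,
    d_cup01 (fun g => evM_eqv B (loc q g))]
  funext g
  rw [add_comm, Submodule.coe_add, Pi.add_apply, Pi.add_apply]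
  refine congrArg₂ (· + ·) ?_ ?_
  · show evM B b ((d₁₂ (Rep.res (loc q) (dual' B))).hom (Ed.sec ∘ y.1) g) =
      evD (dual' C) φ.1 ((Ed.del1Z y).1 g)
    rw [hφ, ← Ed.i_del1Z y g]
    have e : E.pr b = c.1 := El.pr_sec c.1
    conv_rhs => rw [← e]
    rfl
  · show evM B ((d₀₁ (Rep.res (loc q) B)).hom b g.1)
        ((Rep.res (loc q) (dual' B)).ρ g.1 (Ed.sec (y.1 g.2))) =
      evM A (a.1 g.1) ((Rep.res (loc q) (dual' A)).ρ g.1 (y.1 g.2))
    rw [d₀₁_hom_apply, ← El.i_del0Z c g.1]
    have e1 : (dual' A).ρ (loc q g.1) (y.1 g.2) =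
        dmap E.i ((dual' B).ρ (loc q g.1) (Ed.sec (y.1 g.2))) := by
      rw [dmap_eqv E.i E.i_eqv]
      exact congrArg ((dual' A).ρ (loc q g.1)) (Ed.pr_sec _).symm
    exact (congrArg (fun t => evM A (a.1 g.1) t) e1).symm

theorem exists_factor_line {V W L : Type} [AddCommGroup V] [Module (ZMod p) V] [AddCommGroup W]
    [Module (ZMod p) W] [AddCommGroup L] [Module (ZMod p) L] (f : V →ₗ[ZMod p] W)
    (l : V →ₗ[ZMod p] L) (h : LinearMap.ker f ≤ LinearMap.ker l) :
    ∃ l' : W →ₗ[ZMod p] L, l' ∘ₗ f = l := by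
  obtain ⟨l', hl'⟩ := LinearMap.exists_extend
    ((LinearMap.ker f).liftQ l h ∘ₗ f.quotKerEquivRange.symm.toLinearMap)
  refine ⟨l', LinearMap.ext fun v => ?_⟩
  have e := LinearMap.congr_fun hl' ⟨f v, LinearMap.mem_range_self f v⟩
  simp only [LinearMap.comp_apply, Submodule.subtype_apply, LinearEquiv.coe_coe] at e
  rw [LinearMap.comp_apply, e, LinearMap.quotKerEquivRange_symm_apply_image f v (LinearMap.mem_range_self f v)]
  rfl

theorem Nondeg.ext_mid (E : SES (MonoidHom.id GQ) A B C) (hA : Nondeg q A) (hA' : Nondeg q (dual' A)) (hC : Nondeg q C)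
    (hC' : Nondeg q (dual' C)) (aA : IsAdm (MonoidHom.id GQ) A) (aC : IsAdm (MonoidHom.id GQ) C) :
    Nondeg q B := by
  set El := locSES q E
  set Ed := locSES q E.dual
  haveI := hA.fin1
  haveI := hA.fin2
  haveI := hC.fin1
  haveI := hC.fin2
  refine ⟨finite_mid _ _ El.exact_h1, finite_mid _ _ El.exact_h2, fun aB => ?_, ?_⟩
  · refine (injective_iff_map_eq_zero _).2 fun x hx => ?_
    have hpr0 : pair11 q aC (lpush1 E.pr E.pr_eqv q x) = 0 := LinearMap.ext fun y => by
      rw [pair11_adjoint E.pr E.pr_eqv aB aC, hx]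
      rfl
    have hpr : lpush1 E.pr E.pr_eqv q x = 0 :=
      (injective_iff_map_eq_zero _).1 (hC.inj11 aC) _ hpr0
    obtain ⟨a, rfl⟩ : x ∈ LinearMap.range (h1push (loc q) El.i El.i_eqv) := by
      rw [El.exact_h1]; exact hpr
    have hker : LinearMap.ker Ed.del1 ≤ LinearMap.ker (pair11 q aA a) := fun y hy => by
      rw [Ed.ker_del1] at hy
      obtain ⟨w, rfl⟩ := hy
      rw [LinearMap.mem_ker]
      exact (pair11_adjoint E.i E.i_eqv aA aB a w).symm.trans (LinearMap.congr_fun hx w)
    obtain ⟨L, hL⟩ := exists_factor_line Ed.del1 _ hker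
    obtain ⟨φ, hφ⟩ := (hC'.bij02 (isAdm_dual aC)).1.2 L
    obtain ⟨s, hs, h1, h2⟩ := ddual_retract aC
    let c : lH0 q C := ⟨s φ.1, fun g => by
      show C.ρ (loc q g) (s φ.1) = s φ.1
      rw [← hs]
      exact congrArg s (φ.2 g)⟩
    have hc : ∀ y, pair11 q aA a y + pair11 q aA (El.del0 c) y = 0 := fun y => by
      have e := pair02_del1' E aA c φ (h2 φ.1).symm y
      rw [hφ, ← LinearMap.comp_apply, hL] at e
      exact e
    have hac : a = -(El.del0 c) := (hA.inj11 aA) (LinearMap.ext fun y => by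
      rw [map_neg, LinearMap.neg_apply]
      exact eq_neg_of_add_eq_zero_left (hc y))
    have h0 : El.del0 c ∈ LinearMap.ker (h1push (loc q) El.i El.i_eqv) :=
      El.range_del0 ▸ LinearMap.mem_range_self _ c
    rw [hac, map_neg, LinearMap.mem_ker.1 h0, neg_zero]
  · refine (injective_iff_map_eq_zero _).2 fun c hc => ?_
    have hc0 : ∀ n, pair02 q B n c = 0 := fun n => LinearMap.congr_fun hc n
    have hpr0 : (pair02 q C).flip (lpush2 E.pr E.pr_eqv q c) = 0 := LinearMap.ext fun n => by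
      rw [LinearMap.flip_apply, ← pair02_adjoint E.pr E.pr_eqv, hc0]
      rfl
    have hpr : lpush2 E.pr E.pr_eqv q c = 0 :=
      (injective_iff_map_eq_zero _).1 hC.inj02 _ hpr0
    obtain ⟨a, rfl⟩ : c ∈ LinearMap.range (h2push (loc q) El.i El.i_eqv) := by
      rw [El.exact_h2]; exact hpr
    have hker : LinearMap.ker Ed.del0 ≤ LinearMap.ker ((pair02 q A).flip a) := fun n hn => by
      obtain ⟨ν, hν, he⟩ := (Ed.ker_del0 n).1 hn
      have e := pair02_adjoint E.i E.i_eqv (q := q) ⟨ν, hν⟩ a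
      rw [LinearMap.mem_ker, LinearMap.flip_apply]
      refine Eq.trans ?_ (e.trans (hc0 _))
      congr 2
      exact Subtype.ext he.symm
    obtain ⟨L, hL⟩ := exists_factor_line Ed.del0 _ hker
    obtain ⟨z, hz⟩ := (hC.bij11 hC' aC).1.2 L
    have hac : a = El.del1 z := hA.inj02 (LinearMap.ext fun n => by
      rw [LinearMap.flip_apply, LinearMap.flip_apply, pair02_del1 E aC, hz]
      exact (LinearMap.congr_fun hL n).symm)
    have h0 : El.del1 z ∈ LinearMap.ker (h2push (loc q) El.i El.i_eqv) :=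
      El.range_del1 ▸ LinearMap.mem_range_self _ z
    rw [hac, LinearMap.mem_ker.1 h0]

end Ext

theorem nondeg_all (hM : IsAdm (MonoidHom.id GQ) M) : Nondeg q M ∧ Nondeg q (dual' M) := by
  refine adm_induction (fun M => Nondeg q M ∧ Nondeg q (dual' M)) ?_ ?_ ?_ ?_ M hM
  · intro M _ hsub
    haveI : Subsingleton (dual' M) :=
      ⟨fun f g => LinearMap.ext fun m => by rw [Subsingleton.elim m 0, map_zero, map_zero]⟩
    exact ⟨.of_subsingleton M, .of_subsingleton _⟩
  · intro H hH hω
    exact nondeg_perm hH hω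
  · intro A B C E aA aC hA hC
    exact ⟨Nondeg.ext_mid E hA.1 hA.2 hC.1 hC.2 aA aC,
      Nondeg.ext_mid E.dual hC.2 (hC.1.ddual aC) hA.2 (hA.1.ddual aA) (isAdm_dual aC)
        (isAdm_dual aA)⟩
  · intro A B i s aA aB hi hs hsi hB
    exact ⟨hB.1.retract i s hi hs hsi aB, hB.2.retract (dmap s) (dmap i) (dmap_eqv s hs)
      (dmap_eqv i hi) (fun f => LinearMap.ext fun a => congrArg f (hsi a)) (isAdm_dual aB)⟩

theorem pair11_bijective' (hM : IsAdm (MonoidHom.id GQ) M) :
    Function.Bijective (pair11 q hM) ∧ Function.Bijective (pair11 q hM).flip :=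
  (nondeg_all hM).1.bij11 (nondeg_all hM).2 hM

theorem pair02_bijective' (hM : IsAdm (MonoidHom.id GQ) M) :
    Function.Bijective (pair02 q M) ∧ Function.Bijective (pair02 q M).flip :=
  (nondeg_all hM).1.bij02 hM

theorem lH2_surjective' (hM : IsAdm (MonoidHom.id GQ) M) (hN : IsAdm (MonoidHom.id GQ) N)
    (φ : M →ₗ[ZMod p] N) (hφ : ∀ g m, φ (M.ρ g m) = N.ρ g (φ m)) (hs : Function.Surjective φ) :
    Function.Surjective (lpush2 φ hφ q) := by
  haveI := (nondeg_all (q := q) hM).1.fin2
  haveI := (nondeg_all (q := q) hN).1.fin2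
  intro c
  have hlin : ∃ d, ∀ n : lH0 q (dual' N), pair02 q N n c = pair02 q N n (lpush2 φ hφ q d) := by
    let t : lH0 q (dual' N) →ₗ[ZMod p] lH0 q (dual' M) :=
      LinearMap.codRestrict _ (dmap φ ∘ₗ (lH0 q (dual' N)).subtype) fun n g => by
        show (dual' M).ρ (loc q g) (dmap φ n.1) = dmap φ n.1
        rw [← dmap_eqv φ hφ]; exact congrArg (dmap φ) (n.2 g)
    have ht : LinearMap.ker t ≤ LinearMap.ker ((pair02 q N).flip c) := fun n hn => by
      have e : dmap φ n.1 = 0 := congrArg Subtype.val (LinearMap.mem_ker.1 hn)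
      have e' : n = 0 := Subtype.ext (LinearMap.dualMap_injective_of_surjective hs
        (e.trans (map_zero φ.dualMap).symm))
      rw [e']; exact zero_mem _
    obtain ⟨L, hL⟩ := exists_factor_line t _ ht
    obtain ⟨d, hd⟩ := (pair02_bijective' (q := q) hM).2.2 L
    refine ⟨d, fun n => ?_⟩
    rw [← pair02_adjoint φ hφ n d]
    exact ((LinearMap.congr_fun hd (t n)).trans (LinearMap.congr_fun hL n)).symm
  obtain ⟨d, hd⟩ := hlin
  exact ⟨d, ((pair02_bijective' hN).2.1 (LinearMap.ext fun n => hd n)).symm⟩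

end FLTAgent.PT.Loc
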