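import Fermat.Agent.PT.Local.Units

/-!
Parcel A: the norm index of a cyclic extension of degree `p` above the roots of unity of order `p`.
-/

set_option autoImplicit false
set_option linter.style.haveILetI false
set_option linter.unusedSectionVars false

noncomputable section

open Finset

namespace FLTAgent.PT.Loc

variable {q : Nat.Primes}

/-- the index of the subgroup generated by the units and a set of values -/
theorem relIndex_sup_U0 {U : Subgroup (Gam q)} (X : Subgroup (Cq q)ˣ) (hX : X ≤ Km U) {π : Cq q}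
    (hπK : π ∈ KF U) (hπ0 : 0 < ‖π‖) (hπ1 : ‖π‖ < 1)
    (hπ : ∀ x ∈ KF U, x ≠ 0 → ∃ k : ℤ, ‖x‖ = ‖π‖ ^ k) {e : ℕ}
    (hdvd : ∀ x ∈ X, ∃ k : ℤ, ‖(x : Cq q)‖ = ‖π‖ ^ ((e : ℤ) * k))
    (hgen : ∃ x ∈ X, ‖(x : Cq q)‖ = ‖π‖ ^ (e : ℤ)) :
    (X ⊔ U0 U).relIndex (Km U) = e := by
  have hπ' : π ≠ 0 := norm_pos_iff.1 hπ0
  have hinjz : Function.Injective fun k : ℤ => ‖π‖ ^ k := zpow_right_injective₀ hπ0 hπ1.ne
  choose v hv using fun x : Km U => hπ _ x.2 (x : (Cq q)ˣ).ne_zero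
  let w : Km U →* Multiplicative (ZMod e) :=
    { toFun := fun x => Multiplicative.ofAdd ((v x : ℤ) : ZMod e)
      map_one' := by
        rw [show v 1 = 0 from hinjz (by
          show ‖π‖ ^ v 1 = ‖π‖ ^ (0 : ℤ)
          rw [← hv, zpow_zero]; exact norm_one)]
        simp
      map_mul' := fun x y => by
        rw [show v (x * y) = v x + v y from hinjz (by
          show ‖π‖ ^ v (x * y) = ‖π‖ ^ (v x + v y)
          rw [← hv, zpow_add₀ hπ0.ne', ← hv, ← hv]; exact norm_mul _ _)]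
        simp }
  have hsur : Function.Surjective w := fun z => by
    obtain ⟨k, hk⟩ := ZMod.intCast_surjective (Multiplicative.toAdd z)
    refine ⟨⟨(Units.mk0 π hπ') ^ k, zpow_mem (show Units.mk0 π hπ' ∈ Km U from hπK) k⟩, ?_⟩
    show Multiplicative.ofAdd _ = z
    rw [show v _ = k from hinjz ((hv _).symm.trans (by simp)), hk]
    rfl
  have hker : w.ker = (X ⊔ U0 U).subgroupOf (Km U) := by
    ext x
    rw [MonoidHom.mem_ker, Subgroup.mem_subgroupOf]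
    constructor
    · intro hx
      obtain ⟨m, hm⟩ := (ZMod.intCast_zmod_eq_zero_iff_dvd (v x) e).1
        (Multiplicative.ofAdd.injective hx)
      obtain ⟨g, hg, hgn⟩ := hgen
      rw [← mul_inv_cancel_left (g ^ m) (x : (Cq q)ˣ)]
      refine mul_mem (Subgroup.mem_sup_left (zpow_mem hg m))
        (Subgroup.mem_sup_right ⟨mul_mem (inv_mem (zpow_mem (hX hg) m)) x.2, ?_⟩)
      rw [Units.val_mul, Units.val_inv_eq_inv_val, Units.val_zpow_eq_zpow_val, norm_mul, norm_inv,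
        norm_zpow, hgn, hv x, hm, ← zpow_mul, inv_mul_cancel₀ (zpow_ne_zero _ hπ0.ne')]
    · intro hx
      obtain ⟨y, hy, u, hu, he⟩ := Subgroup.mem_sup.1 hx
      obtain ⟨k, hk⟩ := hdvd y hy
      have hvx : v x = (e : ℤ) * k := hinjz (by
        show ‖π‖ ^ v x = ‖π‖ ^ ((e : ℤ) * k)
        rw [← hv, ← hk, ← he, Units.val_mul, norm_mul, hu.2, mul_one])
      show Multiplicative.ofAdd _ = 1
      rw [hvx]
      simp
  show ((X ⊔ U0 U).subgroupOf (Km U)).index = e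
  rw [← hker, Subgroup.index_ker, MonoidHom.range_eq_top.2 hsur, Subgroup.card_top,
    Nat.card_congr Multiplicative.toAdd, Nat.card_zmod]

/-- a cyclic step of degree `p` with the roots of unity below -/
structure Cyc (q : Nat.Primes) (p : ℕ) where
  U : Subgroup (Gam q)
  U' : Subgroup (Gam q)
  isOpen : OpenU q U'
  le : U' ≤ U
  σ : Gam q
  σ_mem : σ ∈ U
  σ_notMem : σ ∉ U'
  σ_pow : σ ^ p ∈ U'
  normal : ∀ u ∈ U, ∀ v ∈ U', u * v * u⁻¹ ∈ U'
  gen : ∀ u ∈ U, ∃ i : ℕ, (σ ^ i)⁻¹ * u ∈ U'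
  ζ : Cq q
  hζ : IsPrimitiveRoot ζ p
  fix_ζ : ∀ u ∈ U, toAut q u ζ = ζ

namespace Cyc

variable {p : ℕ} [Fact p.Prime] (C : Cyc q p)

theorem openU : OpenU q C.U := C.isOpen.imp fun _ h => ⟨h.1, h.2.trans C.le⟩

theorem ζ_mem : C.ζ ∈ KF C.U := mem_KF.2 C.fix_ζ

/-- the powers of the generator -/
def sg (i : ℕ) : Cq q ≃ₐ[Qq q] Cq q := toAut q (C.σ ^ i)

theorem sg_add (i j : ℕ) (x : Cq q) : C.sg (i + j) x = C.sg i (C.sg j x) := by
  rw [sg, pow_add, toAut_mul]; rfl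

theorem sg_zero (x : Cq q) : C.sg 0 x = x := by rw [sg, pow_zero, map_one]; rfl

theorem sg_mem {x : Cq q} (hx : x ∈ KF C.U') (i : ℕ) : C.sg i x ∈ KF C.U' := by
  refine mem_KF.2 fun v hv => ?_
  have h := C.normal ((C.σ ^ i)⁻¹) (inv_mem (pow_mem C.σ_mem i)) v hv
  rw [inv_inv] at h
  rw [sg, ← toAut_mul, show v * C.σ ^ i = C.σ ^ i * ((C.σ ^ i)⁻¹ * v * C.σ ^ i) by group, toAut_mul,
    mem_KF.1 hx _ h]

theorem sg_p {x : Cq q} (hx : x ∈ KF C.U') : C.sg p x = x := mem_KF.1 hx _ C.σ_pow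

theorem mem_base {x : Cq q} (hx : x ∈ KF C.U') (h : C.sg 1 x = x) : x ∈ KF C.U := by
  refine mem_KF.2 fun u hu => ?_
  obtain ⟨i, hi⟩ := C.gen u hu
  rw [show u = C.σ ^ i * ((C.σ ^ i)⁻¹ * u) by group, toAut_mul, mem_KF.1 hx _ hi]
  show C.sg i x = x
  clear hi
  induction i with
  | zero => exact C.sg_zero x
  | succ n ihn => rw [C.sg_add n 1, h, ihn]

theorem sg_base {x : Cq q} (hx : x ∈ KF C.U) (i : ℕ) : C.sg i x = x :=
  mem_KF.1 hx _ (pow_mem C.σ_mem i)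

theorem eq_zero_of_pow_mem {k : ℕ} (hk : k < p) (h : C.σ ^ k ∈ C.U') : k = 0 := by
  by_contra h0
  have hcop : Nat.Coprime k p := Nat.Coprime.symm
    ((Fact.out : p.Prime).coprime_iff_not_dvd.2 fun hd =>
      absurd (Nat.le_of_dvd (Nat.pos_of_ne_zero h0) hd) (not_le.2 hk))
  obtain ⟨a, b, hab⟩ := Int.isCoprime_iff_nat_coprime.2 (show Nat.Coprime (k : ℤ).natAbs (p : ℤ).natAbs by simpa using hcop)
  apply C.σ_notMem
  have e : C.σ = (C.σ ^ k) ^ a * (C.σ ^ p) ^ b := by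
    rw [← zpow_natCast, ← zpow_natCast, ← zpow_mul, ← zpow_mul, ← zpow_add, mul_comm (k : ℤ),
      mul_comm (p : ℤ), hab, zpow_one]
  rw [e]
  exact mul_mem (zpow_mem h a) (zpow_mem C.σ_pow b)

/-- the partial products -/
def part (x : Cq q) (i : ℕ) : Cq q := ∏ j ∈ range i, C.sg j x

theorem part_succ (x : Cq q) (i : ℕ) : C.part x (i + 1) = x * C.sg 1 (C.part x i) := by
  rw [part, prod_range_succ', C.sg_zero, mul_comm, part, map_prod]
  exact congrArg _ (prod_congr rfl fun j _ => by rw [← C.sg_add, Nat.add_comm])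

/-- the resolvent -/
theorem sg_resolvent {x : Cq q} (hx : x ∈ KF C.U') (hN : C.part x p = 1) {θ : Cq q}
    (hθ : θ ∈ KF C.U') :
    x * C.sg 1 (∑ i ∈ range p, C.part x i * C.sg i θ) = ∑ i ∈ range p, C.part x i * C.sg i θ := by
  rw [map_sum, mul_sum]
  have key : ∀ i, x * C.sg 1 (C.part x i * C.sg i θ) = C.part x (i + 1) * C.sg (i + 1) θ := fun i => by
    rw [map_mul, ← mul_assoc, ← C.part_succ, ← C.sg_add, Nat.add_comm 1]
  simp only [key]
  have h0 := sum_range_succ' (fun i => C.part x i * C.sg i θ) p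
  rw [sum_range_succ, hN, C.sg_p hθ, one_mul, show C.part x 0 * C.sg 0 θ = θ by
    rw [C.sg_zero, part, range_zero, prod_empty, one_mul]] at h0
  exact (add_right_cancel h0).symm

theorem hilbert90 {x : Cq q} (hx : x ∈ KF C.U') (hN : C.part x p = 1) :
    ∃ y ∈ KF C.U', y ≠ 0 ∧ C.sg 1 y = x * y := by
  have hx0 : x ≠ 0 := fun h => by
    rw [part, prod_eq_zero (mem_range.2 (Fact.out : p.Prime).pos)] at hN
    · exact zero_ne_one hN
    · rw [C.sg_zero, h]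
  let χ : Fin p → (KF C.U' →* Cq q) := fun i =>
    ((C.sg i : Cq q →ₐ[Qq q] Cq q).comp (KF C.U').val : KF C.U' →* Cq q)
  have hinj : Function.Injective χ := by
    intro i j h
    rcases le_total (i : ℕ) j with hle | hle
    · refine Fin.ext (le_antisymm hle (Nat.le_of_sub_eq_zero (C.eq_zero_of_pow_mem
        (lt_of_le_of_lt (Nat.sub_le _ _) j.2) (mem_of_fix_KF C.isOpen fun z hz => ?_))))
      have h' : C.sg i z = C.sg j z := DFunLike.congr_fun h ⟨z, hz⟩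
      refine (C.sg i).injective ?_
      show C.sg i (C.sg ((j : ℕ) - i) z) = C.sg i z
      rw [← C.sg_add, Nat.add_sub_cancel' hle, h']
    · refine Fin.ext (le_antisymm (Nat.le_of_sub_eq_zero (C.eq_zero_of_pow_mem
        (lt_of_le_of_lt (Nat.sub_le _ _) i.2) (mem_of_fix_KF C.isOpen fun z hz => ?_))) hle)
      have h' : C.sg i z = C.sg j z := DFunLike.congr_fun h ⟨z, hz⟩
      refine (C.sg j).injective ?_
      show C.sg j (C.sg ((i : ℕ) - j) z) = C.sg j z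
      rw [← C.sg_add, Nat.add_sub_cancel' hle, h']
  obtain ⟨θ, hθ⟩ : ∃ θ : KF C.U', ∑ i : Fin p, C.part x i * χ i θ ≠ 0 := by
    by_contra! hall
    have hli := (linearIndependent_monoidHom (KF C.U') (Cq q)).comp χ hinj
    have h0 := Fintype.linearIndependent_iff.1 hli (fun i => C.part x i) (funext fun θ => by
      simpa [Finset.sum_apply] using hall θ) ⟨0, (Fact.out : p.Prime).pos⟩
    simp [part] at h0
  replace hθ : ∑ i : Fin p, C.part x i * C.sg i (θ : Cq q) ≠ 0 := hθ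
  rw [Fin.sum_univ_eq_sum_range (fun i => C.part x i * C.sg i (θ : Cq q)) p] at hθ
  have hS : ∑ i ∈ range p, C.part x i * C.sg i (θ : Cq q) ∈ KF C.U' :=
    sum_mem fun i _ => mul_mem (prod_mem fun j _ => C.sg_mem hx j) (C.sg_mem θ.2 i)
  have h := C.sg_resolvent hx hN θ.2
  generalize ∑ i ∈ range p, C.part x i * C.sg i (θ : Cq q) = S at hS hθ h
  refine ⟨S⁻¹, inv_mem hS, inv_ne_zero hθ, ?_⟩
  rw [map_inv₀]
  conv_rhs => rw [← h]
  rw [mul_inv, ← mul_assoc, mul_inv_cancel₀ hx0, one_mul]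

/-- a Kummer generator -/
theorem exists_kummer : ∃ α ∈ KF C.U', α ≠ 0 ∧ ∀ i, C.sg i α = C.ζ ^ i * α := by
  have hN : C.part C.ζ p = 1 := by
    rw [part, prod_congr rfl fun j _ => C.sg_base C.ζ_mem j, prod_const, card_range,
      C.hζ.pow_eq_one]
  obtain ⟨y, hy, hy0, h⟩ := C.hilbert90 (KF_anti C.le C.ζ_mem) hN
  refine ⟨y, hy, hy0, fun i => ?_⟩
  induction i with
  | zero => rw [C.sg_zero, pow_zero, one_mul]
  | succ i ih =>
    rw [Nat.add_comm i 1, C.sg_add, ih, map_mul, map_pow, C.sg_base C.ζ_mem, h]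
    ring

/-- the chosen Kummer generator -/
def α : Cq q := C.exists_kummer.choose

theorem α_mem : C.α ∈ KF C.U' := C.exists_kummer.choose_spec.1

theorem α_ne : C.α ≠ 0 := C.exists_kummer.choose_spec.2.1

theorem sg_α (i : ℕ) : C.sg i C.α = C.ζ ^ i * C.α := C.exists_kummer.choose_spec.2.2 i

theorem ζ_ne : C.ζ ≠ 0 := C.hζ.ne_zero (Fact.out : p.Prime).ne_zero

/-- powers of `ζ` indexed modulo `p` -/
def zp (k : ZMod p) : Cq q := C.ζ ^ k.val

theorem zp_natCast (n : ℕ) : C.zp (n : ZMod p) = C.ζ ^ n := by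
  rw [zp, ZMod.val_natCast, ← pow_eq_pow_mod n C.hζ.pow_eq_one]

theorem zp_add (a b : ZMod p) : C.zp (a + b) = C.zp a * C.zp b := by
  rw [zp, zp, zp, ← pow_add, ZMod.val_add, ← pow_eq_pow_mod _ C.hζ.pow_eq_one]

theorem zp_zero : C.zp 0 = 1 := by rw [zp, ZMod.val_zero, pow_zero]

theorem zp_mem (k : ZMod p) : C.zp k ∈ KF C.U := pow_mem C.ζ_mem _

theorem norm_zp (k : ZMod p) : ‖C.zp k‖ = 1 := by
  rw [zp, norm_pow, show ‖C.ζ‖ = 1 from (pow_eq_one_iff_of_nonneg (norm_nonneg _)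
    (Fact.out : p.Prime).ne_zero).1 (by rw [← norm_pow, C.hζ.pow_eq_one, norm_one]), one_pow]

theorem sum_zp {k : ZMod p} (hk : k ≠ 0) : ∑ j : ZMod p, C.zp (k * j) = 0 := by
  haveI : NeZero p := ⟨(Fact.out : p.Prime).ne_zero⟩
  have h : ∑ j : ZMod p, C.zp (k * j) = C.zp k * ∑ j : ZMod p, C.zp (k * j) := by
    rw [mul_sum]
    conv_lhs => rw [← Equiv.sum_comp (Equiv.addRight (1 : ZMod p)) (fun j => C.zp (k * j))]
    exact sum_congr rfl fun j _ => by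
      rw [Equiv.coe_addRight, mul_add, mul_one, C.zp_add, mul_comm]
  have h1 : C.zp k ≠ 1 := fun he =>
    C.hζ.pow_ne_one_of_pos_of_lt (fun h0 => hk ((ZMod.val_eq_zero k).1 h0)) (ZMod.val_lt k) he
  by_contra hne
  exact h1 (mul_right_cancel₀ hne (by rw [one_mul]; exact h.symm))

theorem sum_zp_ite (k : ZMod p) : ∑ j : ZMod p, C.zp (k * j) = if k = 0 then (p : Cq q) else 0 := by
  haveI : NeZero p := ⟨(Fact.out : p.Prime).ne_zero⟩
  split_ifs with h
  · simp [h, C.zp_zero]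
  · exact C.sum_zp h

/-- powers of the Kummer generator -/
def αp (j : ZMod p) : Cq q := C.α ^ j.val

theorem sg_αp (i j : ZMod p) : C.sg i.val (C.αp j) = C.zp (i * j) * C.αp j := by
  rw [αp, map_pow, C.sg_α, mul_pow, ← pow_mul, ← C.zp_natCast, Nat.cast_mul,
    ZMod.natCast_zmod_val, ZMod.natCast_zmod_val]

/-- the normal generator -/
def θ : Cq q := ∑ j : ZMod p, C.αp j

/-- its conjugates -/
def t (i : ZMod p) : Cq q := C.sg i.val C.θ

theorem t_eq (i : ZMod p) : C.t i = ∑ j : ZMod p, C.zp (i * j) * C.αp j := by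
  rw [t, θ, map_sum]
  exact sum_congr rfl fun j _ => C.sg_αp i j

theorem θ_mem : C.θ ∈ KF C.U' := sum_mem fun _ _ => pow_mem C.α_mem _

theorem t_mem (i : ZMod p) : C.t i ∈ KF C.U' := C.sg_mem C.θ_mem _

theorem sg_natCast_eq {x : Cq q} (hx : x ∈ KF C.U') (n : ℕ) :
    C.sg (n : ZMod p).val x = C.sg n x := by
  conv_rhs => rw [← Nat.mod_add_div n p]
  rw [ZMod.val_natCast]
  generalize n / p = k
  induction k with
  | zero => simp
  | succ k ih => rw [Nat.mul_succ, ← Nat.add_assoc, C.sg_add, C.sg_p hx, ih]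

theorem sg_one_t (i : ZMod p) : C.sg 1 (C.t i) = C.t (i + 1) := by
  rw [t, ← C.sg_add, Nat.add_comm, ← C.sg_natCast_eq C.θ_mem (i.val + 1)]
  simp [t]

/-- the trace -/
def tr (x : Cq q) : Cq q := ∑ i : ZMod p, C.sg i.val x

theorem sg_one_sg {x : Cq q} (hx : x ∈ KF C.U') (i : ZMod p) :
    C.sg 1 (C.sg i.val x) = C.sg (i + 1).val x := by
  rw [← C.sg_add, Nat.add_comm, ← C.sg_natCast_eq hx (i.val + 1)]
  simp

theorem tr_mem_base {x : Cq q} (hx : x ∈ KF C.U') : C.tr x ∈ KF C.U := by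
  refine C.mem_base (sum_mem fun i _ => C.sg_mem hx _) ?_
  rw [tr, map_sum]
  simp only [C.sg_one_sg hx]
  exact Equiv.sum_comp (Equiv.addRight (1 : ZMod p)) (fun i => C.sg i.val x)

theorem tr_base_mul {a x : Cq q} (ha : a ∈ KF C.U) : C.tr (a * x) = a * C.tr x := by
  rw [tr, tr, mul_sum]
  exact sum_congr rfl fun i _ => by rw [map_mul, C.sg_base ha]

theorem tr_t (i : ZMod p) : C.tr (C.t i) = p := by
  haveI : NeZero p := ⟨(Fact.out : p.Prime).ne_zero⟩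
  have h : ∀ k : ZMod p, C.sg k.val (C.t i) = C.t (k + i) := fun k => by
    rw [t, ← C.sg_add, ← C.sg_natCast_eq C.θ_mem (k.val + i.val), Nat.cast_add,
      ZMod.natCast_zmod_val, ZMod.natCast_zmod_val]
    rfl
  rw [tr, sum_congr rfl fun k _ => h k]
  simp only [C.t_eq]
  rw [sum_comm, sum_eq_single (0 : ZMod p)]
  · simp [C.zp_zero, αp]
  · intro j _ hj
    simp only [add_mul, C.zp_add]
    simp only [mul_assoc]
    rw [← sum_mul, show ∑ k : ZMod p, C.zp (k * j) = 0 by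
      simpa [mul_comm] using C.sum_zp hj, zero_mul]
  · exact fun h0 => absurd (mem_univ _) h0

/-- the coordinate along `α ^ j` -/
def cj (x : Cq q) (j : ZMod p) : Cq q := (p : Cq q)⁻¹ * C.tr (x * (C.αp j)⁻¹)

theorem αp_ne (j : ZMod p) : C.αp j ≠ 0 := pow_ne_zero _ C.α_ne

theorem pne : (p : Cq q) ≠ 0 := Nat.cast_ne_zero.2 (Fact.out : p.Prime).ne_zero

theorem cj_mem {x : Cq q} (hx : x ∈ KF C.U') (j : ZMod p) : C.cj x j ∈ KF C.U :=
  mul_mem (inv_mem (_root_.natCast_mem _ _))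
    (C.tr_mem_base (mul_mem hx (inv_mem (pow_mem C.α_mem _))))

theorem sum_cj (x : Cq q) : ∑ j : ZMod p, C.cj x j * C.αp j = x := by
  simp only [cj, tr, map_mul, map_inv₀, C.sg_αp, sum_mul, mul_sum]
  rw [sum_comm, sum_eq_single (0 : ZMod p)]
  · simp only [zero_mul, C.zp_zero, ZMod.val_zero, C.sg_zero, one_mul]
    rw [sum_congr rfl fun j _ => show (p : Cq q)⁻¹ * (x * (C.αp j)⁻¹) * C.αp j = (p : Cq q)⁻¹ * x by
      field_simp [C.αp_ne j], sum_const, card_univ, ZMod.card, nsmul_eq_mul, ← mul_assoc,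
      mul_inv_cancel₀ pne, one_mul]
  · intro i _ hi
    have hj : ∀ j : ZMod p, (p : Cq q)⁻¹ * (C.sg i.val x * (C.zp (i * j) * C.αp j)⁻¹) * C.αp j =
        (p : Cq q)⁻¹ * C.sg i.val x * C.zp (-i * j) := fun j => by
      have e : C.zp (-i * j) = (C.zp (i * j))⁻¹ := eq_inv_of_mul_eq_one_left (by
        rw [← C.zp_add, ← add_mul, neg_add_cancel, zero_mul, C.zp_zero])
      rw [e, mul_inv]
      field_simp [C.αp_ne j]
    rw [sum_congr rfl fun j _ => hj j, ← mul_sum, C.sum_zp (neg_ne_zero.2 hi), mul_zero]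
  · exact fun h0 => absurd (mem_univ _) h0

/-- the coordinates along the conjugates of `θ` -/
def ai (x : Cq q) (i : ZMod p) : Cq q := (p : Cq q)⁻¹ * ∑ j : ZMod p, C.zp (-i * j) * C.cj x j

theorem ai_mem {x : Cq q} (hx : x ∈ KF C.U') (i : ZMod p) : C.ai x i ∈ KF C.U :=
  mul_mem (inv_mem (_root_.natCast_mem _ _))
    (sum_mem fun j _ => mul_mem (C.zp_mem _) (C.cj_mem hx j))

theorem sum_ai (x : Cq q) : ∑ i : ZMod p, C.ai x i * C.t i = x := by
  conv_rhs => rw [← C.sum_cj x]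
  simp only [C.t_eq, mul_sum]
  rw [sum_comm]
  refine sum_congr rfl fun j _ => ?_
  simp only [ai, mul_sum, sum_mul]
  rw [sum_comm, sum_eq_single j]
  · have hj : ∀ i : ZMod p, (p : Cq q)⁻¹ * (C.zp (-i * j) * C.cj x j) * (C.zp (i * j) * C.αp j) =
        (p : Cq q)⁻¹ * (C.cj x j * C.αp j) * C.zp 0 := fun i => by
      rw [show (0 : ZMod p) = -i * j + i * j by ring, C.zp_add]; ring
    rw [sum_congr rfl fun i _ => hj i, sum_const, card_univ, ZMod.card, C.zp_zero, nsmul_eq_mul,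
      mul_one, ← mul_assoc, mul_inv_cancel₀ pne, one_mul]
  · intro k _ hk
    have hj : ∀ i : ZMod p, (p : Cq q)⁻¹ * (C.zp (-i * k) * C.cj x k) * (C.zp (i * j) * C.αp j) =
        (p : Cq q)⁻¹ * (C.cj x k * C.αp j) * C.zp ((j - k) * i) := fun i => by
      rw [show (j - k) * i = -i * k + i * j by ring, C.zp_add]; ring
    rw [sum_congr rfl fun i _ => hj i, ← mul_sum, C.sum_zp (sub_ne_zero.2 hk.symm), mul_zero]
  · exact fun h0 => absurd (mem_univ _) h0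

/-- the conjugates of `θ` are independent -/
theorem coeff_eq_zero {a : ZMod p → Cq q} (ha : ∀ i, a i ∈ KF C.U)
    (h : ∑ i : ZMod p, a i * C.t i = 0) : ∀ i, a i = 0 := by
  set b : ZMod p → Cq q := fun j => ∑ i : ZMod p, a i * C.zp (i * j) with hb
  have hb0 : ∀ k, b k = 0 := by
    intro k
    have h1 : ∑ j : ZMod p, b j * C.αp j = 0 := by
      rw [← h]
      simp only [C.t_eq, mul_sum, hb, sum_mul]
      rw [sum_comm]
      exact sum_congr rfl fun i _ => sum_congr rfl fun j _ => by ring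
    have h2 := congrArg (fun z => C.tr (z * (C.αp k)⁻¹)) h1
    simp only [zero_mul, tr, map_zero, sum_const_zero, sum_mul, map_sum] at h2
    rw [sum_comm, sum_eq_single k] at h2
    · have h3 : ∀ i : ZMod p, C.sg i.val (b k * C.αp k * (C.αp k)⁻¹) = b k := fun i => by
        rw [mul_inv_cancel_right₀ (C.αp_ne k)]
        exact C.sg_base (sum_mem fun l _ => mul_mem (ha l) (C.zp_mem _)) _
      rw [sum_congr rfl fun i _ => h3 i, sum_const, card_univ, ZMod.card, nsmul_eq_mul,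
        mul_eq_zero, or_iff_right pne] at h2
      exact h2
    · intro j _ hj
      have h3 : ∀ i : ZMod p, C.sg i.val (b j * C.αp j * (C.αp k)⁻¹) =
          b j * C.αp j * (C.αp k)⁻¹ * C.zp ((j - k) * i) := fun i => by
        have e : (C.zp (i * k))⁻¹ = C.zp (-(i * k)) :=
          (eq_inv_of_mul_eq_one_left (by rw [← C.zp_add, neg_add_cancel, C.zp_zero])).symm
        rw [map_mul, map_mul, map_inv₀, C.sg_αp, C.sg_αp,
          C.sg_base (sum_mem fun l _ => mul_mem (ha l) (C.zp_mem _)), mul_inv, e,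
          show (j - k) * i = i * j + -(i * k) by ring, C.zp_add]
        ring
      rw [sum_congr rfl fun i _ => h3 i, ← mul_sum, C.sum_zp (sub_ne_zero.2 hj), mul_zero]
    · exact fun h0 => absurd (mem_univ _) h0
  intro i
  have h3 : ∑ j : ZMod p, b j * C.zp (-i * j) = p * a i := by
    simp only [hb, sum_mul]
    rw [sum_comm, sum_eq_single i]
    · have e : ∀ j : ZMod p, a i * C.zp (i * j) * C.zp (-i * j) = a i := fun j => by
        rw [mul_assoc, ← C.zp_add, ← add_mul, add_neg_cancel, zero_mul, C.zp_zero, mul_one]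
      rw [sum_congr rfl fun j _ => e j, sum_const, card_univ, ZMod.card, nsmul_eq_mul]
    · intro l _ hl
      have e : ∀ j : ZMod p, a l * C.zp (l * j) * C.zp (-i * j) = a l * C.zp ((l - i) * j) :=
        fun j => by rw [mul_assoc, ← C.zp_add, ← add_mul, ← sub_eq_add_neg]
      rw [sum_congr rfl fun j _ => e j, ← mul_sum, C.sum_zp (sub_ne_zero.2 hl), mul_zero]
    · exact fun h0 => absurd (mem_univ _) h0
  simp only [hb0, zero_mul, sum_const_zero] at h3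
  exact (mul_eq_zero.1 h3.symm).resolve_left pne

/-- the lattices -/
def lat (ρ : ℝ) (hρ : 0 ≤ ρ) : AddSubgroup (Cq q) where
  carrier := {x | x ∈ KF C.U' ∧ ∃ a : ZMod p → Cq q, (∀ i, a i ∈ KF C.U ∧ ‖a i‖ ≤ ρ) ∧
    x = ∑ i : ZMod p, a i * C.t i}
  zero_mem' := ⟨zero_mem (KF C.U'), 0, fun _ => ⟨zero_mem (KF C.U), by simpa using hρ⟩, by simp⟩
  add_mem' := by
    rintro x y ⟨hx, a, ha, rfl⟩ ⟨hy, b, hb, rfl⟩
    exact ⟨add_mem hx hy, a + b, fun i => ⟨add_mem (ha i).1 (hb i).1,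
      (IsUltrametricDist.norm_add_le_max _ _).trans (max_le (ha i).2 (hb i).2)⟩, by
      simp [add_mul, sum_add_distrib]⟩
  neg_mem' := by
    rintro x ⟨hx, a, ha, rfl⟩
    exact ⟨neg_mem hx, -a, fun i => ⟨neg_mem (ha i).1, by rw [Pi.neg_apply, norm_neg]; exact (ha i).2⟩,
      by simp [sum_neg_distrib]⟩

theorem norm_sum_le {ι : Type*} (s : Finset ι) (f : ι → Cq q) {R : ℝ} (hR : 0 ≤ R)
    (h : ∀ i ∈ s, ‖f i‖ ≤ R) : ‖∑ i ∈ s, f i‖ ≤ R :=
  IsUltrametricDist.norm_sum_le_of_forall_le_of_nonneg hR h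

theorem norm_sg (i : ℕ) (x : Cq q) : ‖C.sg i x‖ = ‖x‖ := norm_toAut q _ x

theorem norm_t (i : ZMod p) : ‖C.t i‖ = ‖C.θ‖ := C.norm_sg _ _

/-- the bound on the inverse powers of `α` -/
def A₀ : ℝ := max 1 ‖C.α⁻¹‖ ^ p

theorem A₀_pos : 0 < C.A₀ := pow_pos (lt_of_lt_of_le one_pos (le_max_left _ _)) _

theorem norm_le_of_mem_lat {ρ : ℝ} {hρ : 0 ≤ ρ} {x : Cq q} (hx : x ∈ C.lat ρ hρ) :
    ‖x‖ ≤ ρ * ‖C.θ‖ := by
  obtain ⟨-, a, ha, rfl⟩ := hx
  refine norm_sum_le _ _ (mul_nonneg hρ (norm_nonneg _)) fun i _ => ?_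
  rw [norm_mul, C.norm_t]
  exact mul_le_mul_of_nonneg_right (ha i).2 (norm_nonneg _)

/-- small elements lie in the lattices -/
theorem mem_lat_of_norm {x : Cq q} (hx : x ∈ KF C.U') {ρ : ℝ} {hρ : 0 ≤ ρ}
    (h : ‖x‖ * C.A₀ / ‖(p : Cq q)‖ ^ 2 ≤ ρ) : x ∈ C.lat ρ hρ := by
  refine ⟨hx, C.ai x, fun i => ⟨C.ai_mem hx i, le_trans ?_ h⟩, (C.sum_ai x).symm⟩
  have hnn : 0 ≤ ‖x‖ * C.A₀ / ‖(p : Cq q)‖ := div_nonneg (mul_nonneg (norm_nonneg _) C.A₀_pos.le) (norm_nonneg _)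
  have hc : ∀ j, ‖C.cj x j‖ ≤ ‖x‖ * C.A₀ / ‖(p : Cq q)‖ := fun j => by
    rw [cj, norm_mul, norm_inv, div_eq_inv_mul]
    refine mul_le_mul_of_nonneg_left (norm_sum_le _ _ (mul_nonneg (norm_nonneg _) C.A₀_pos.le)
      fun i _ => ?_) (inv_nonneg.2 (norm_nonneg _))
    rw [C.norm_sg, norm_mul, αp, ← inv_pow, norm_pow]
    refine mul_le_mul_of_nonneg_left ?_ (norm_nonneg _)
    exact (pow_le_pow_left₀ (norm_nonneg _) (le_max_right _ _) _).trans
      (pow_le_pow_right₀ (le_max_left _ _) (ZMod.val_lt j).le)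
  rw [ai, norm_mul, norm_inv, pow_two, ← div_div, div_eq_inv_mul]
  refine (mul_le_mul_of_nonneg_left (norm_sum_le _ _ hnn fun j _ => ?_)
    (inv_nonneg.2 (norm_nonneg _))).trans_eq (by rw [← div_eq_inv_mul])
  rw [norm_mul, C.norm_zp, one_mul]
  exact hc j

theorem sg_lat {ρ : ℝ} {hρ : 0 ≤ ρ} {x : Cq q} (hx : x ∈ C.lat ρ hρ) (n : ℕ) :
    C.sg n x ∈ C.lat ρ hρ := by
  induction n with
  | zero => rwa [C.sg_zero]
  | succ n ih =>
    obtain ⟨hm, a, ha, e⟩ := ih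
    rw [Nat.add_comm n 1, C.sg_add, e, map_sum]
    refine ⟨sum_mem fun i _ => C.sg_mem (mul_mem (KF_anti C.le (ha i).1) (C.t_mem i)) 1,
      fun i => a (i - 1), fun i => ha _, ?_⟩
    conv_rhs => rw [← Equiv.sum_comp (Equiv.addRight (1 : ZMod p))]
    exact sum_congr rfl fun i _ => by
      rw [map_mul, C.sg_base (ha i).1, C.sg_one_t]; simp

theorem exists_tr_eq {ρ : ℝ} {hρ : 0 ≤ ρ} {m : Cq q} (hm : m ∈ C.lat ρ hρ)
    (hfix : C.sg 1 m = m) : ∃ w ∈ C.lat ρ hρ, C.tr w = m := by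
  classical
  obtain ⟨hmL, a, ha, rfl⟩ := hm
  have h : ∀ i, a (i - 1) = a i := fun i => sub_eq_zero.1 (C.coeff_eq_zero
    (a := fun i => a (i - 1) - a i) (fun i => sub_mem (ha _).1 (ha _).1) (by
      simp only [sub_mul, sum_sub_distrib, sub_eq_zero]
      conv_rhs => rw [← hfix, map_sum]
      conv_lhs => rw [← Equiv.sum_comp (Equiv.addRight (1 : ZMod p))]
      exact sum_congr rfl fun i _ => by
        rw [map_mul, C.sg_base (ha i).1, C.sg_one_t]; simp) i)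
  have hc : ∀ i, a i = a 0 := fun i => by
    rw [← ZMod.natCast_zmod_val i]
    induction i.val with
    | zero => simp
    | succ n ih => rw [← ih, ← h ((n + 1 : ℕ) : ZMod p)]; simp
  refine ⟨a 0 * C.θ, ⟨mul_mem (KF_anti C.le (ha 0).1) C.θ_mem, Pi.single 0 (a 0), fun i => ?_, ?_⟩, ?_⟩
  · rcases eq_or_ne i 0 with rfl | hi
    · rw [Pi.single_eq_same]; exact ha 0
    · rw [Pi.single_eq_of_ne hi]; exact ⟨zero_mem _, by simpa using hρ⟩
  · rw [sum_eq_single (0 : ZMod p) (fun i _ hi => by simp [hi]) (fun h0 => absurd (mem_univ _) h0)]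
    simp [t, C.sg_zero]
  · rw [C.tr_base_mul (ha 0).1, tr, mul_sum]
    exact sum_congr rfl fun i _ => by rw [hc i]; rfl

theorem exists_sub_eq {ρ : ℝ} {hρ : 0 ≤ ρ} {m : Cq q} (hm : m ∈ C.lat ρ hρ)
    (htr : C.tr m = 0) : ∃ w ∈ C.lat ρ hρ, C.sg 1 w - w = m := by
  classical
  obtain ⟨hmL, a, ha, rfl⟩ := hm
  have hs : ∑ i : ZMod p, a i = 0 := by
    have h2 : C.tr (∑ i : ZMod p, a i * C.t i) = ∑ i : ZMod p, a i * p := by
      simp only [tr, map_sum]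
      rw [sum_comm]
      exact sum_congr rfl fun i _ => by
        rw [← C.tr_t i, ← C.tr_base_mul (ha i).1]; rfl
    rw [htr, ← sum_mul] at h2
    exact (mul_eq_zero.1 h2.symm).resolve_right pne
  let b : ZMod p → Cq q := fun i => -∑ l ∈ range i.val, a ((l + 1 : ℕ) : ZMod p)
  have hb : ∀ i, b i ∈ KF C.U ∧ ‖b i‖ ≤ ρ := fun i =>
    ⟨neg_mem (sum_mem fun l _ => (ha _).1), by
      rw [norm_neg]; exact norm_sum_le _ _ hρ fun l _ => (ha _).2⟩
  have hba : ∀ i, b (i - 1) - b i = a i := by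
    intro i
    rcases eq_or_ne i 0 with rfl | hi
    · obtain ⟨n, hn⟩ : ∃ n, p = n + 1 := ⟨p - 1, by have := (Fact.out : p.Prime).pos; omega⟩
      subst hn
      have hv : ((0 : ZMod (n + 1)) - 1).val = n := by rw [zero_sub, ZMod.val_neg_one]
      simp only [b, hv, ZMod.val_zero, range_zero, sum_empty, neg_zero, sub_zero]
      have hall : ∑ l ∈ range (n + 1), a ((l : ℕ) : ZMod (n + 1)) = 0 := by
        rw [← hs]
        refine sum_bij (fun l _ => ((l : ℕ) : ZMod (n + 1))) (fun _ _ => mem_univ _)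
          (fun l hl l' hl' he => ?_) (fun i _ => ⟨i.val, mem_range.2 (ZMod.val_lt i),
            ZMod.natCast_zmod_val i⟩) fun _ _ => rfl
        have := congrArg ZMod.val he
        rwa [ZMod.val_cast_of_lt (mem_range.1 hl), ZMod.val_cast_of_lt (mem_range.1 hl')] at this
      rw [sum_range_succ', Nat.cast_zero] at hall
      exact neg_eq_of_add_eq_zero_right hall
    · have hv : i.val = (i - 1).val + 1 := by
        have h0 : 0 < i.val := Nat.pos_of_ne_zero fun h => hi ((ZMod.val_eq_zero i).1 h)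
        have h1 : ((i.val - 1 : ℕ) : ZMod p) = i - 1 := by
          rw [Nat.cast_sub h0, ZMod.natCast_zmod_val, Nat.cast_one]
        rw [← h1, ZMod.val_cast_of_lt (lt_of_le_of_lt (Nat.sub_le _ _) (ZMod.val_lt i))]
        omega
      simp only [b]
      rw [show ∑ l ∈ range i.val, a ((l + 1 : ℕ) : ZMod p) =
        ∑ l ∈ range ((i - 1).val + 1), a ((l + 1 : ℕ) : ZMod p) by rw [hv], sum_range_succ,
        show (((i - 1).val + 1 : ℕ) : ZMod p) = i by simp]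
      ring
  refine ⟨∑ i : ZMod p, b i * C.t i, ⟨sum_mem fun i _ => mul_mem (KF_anti C.le (hb i).1) (C.t_mem i),
    b, hb, rfl⟩, ?_⟩
  rw [map_sum]
  conv_rhs => rw [sum_congr rfl fun i _ => by rw [← hba i, sub_mul]]
  rw [sum_sub_distrib]
  congr 1
  conv_rhs => rw [← Equiv.sum_comp (Equiv.addRight (1 : ZMod p))]
  exact sum_congr rfl fun i _ => by
    rw [map_mul, C.sg_base (hb i).1, C.sg_one_t]; simp

end Cyc

/-- a uniformiser of the base with its properties -/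
theorem exists_unif_ne {U : Subgroup (Gam q)} (hU : OpenU q U) :
    ∃ π : (Cq q)ˣ, (π : Cq q) ∈ KF U ∧ ‖(π : Cq q)‖ < 1 ∧
      ∀ x ∈ KF U, x ≠ 0 → ∃ k : ℤ, ‖x‖ = ‖(π : Cq q)‖ ^ k := by
  obtain ⟨π, h1, h0, h2, h3⟩ := exists_uniformiser hU
  exact ⟨Units.mk0 π (norm_pos_iff.1 h0), h1, h2, h3⟩

namespace Cyc

variable {p : ℕ} [Fact p.Prime] (C : Cyc q p)

/-- the contraction -/
def c₀ : ℝ := ‖((exists_unif_ne C.openU).choose : Cq q)‖

theorem c₀_pos : 0 < C.c₀ := norm_pos_iff.2 (exists_unif_ne C.openU).choose.ne_zero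

theorem c₀_lt : C.c₀ < 1 := (exists_unif_ne C.openU).choose_spec.2.1

/-- the radius -/
def ρ₀ : ℝ := min (C.c₀ * ‖(p : Cq q)‖ ^ 2 / ((‖C.θ‖ + 1) ^ 2 * C.A₀)) (C.c₀ / (‖C.θ‖ + 1))

theorem ρ₀_pos : 0 < C.ρ₀ := by
  refine lt_min (div_pos (mul_pos C.c₀_pos (pow_pos norm_p_pos 2)) ?_)
    (div_pos C.c₀_pos (by positivity))
  exact mul_pos (by positivity) C.A₀_pos

/-- the filtration -/
def M (k : ℕ) : AddSubgroup (Cq q) :=
  C.lat (C.ρ₀ * C.c₀ ^ k) (mul_nonneg C.ρ₀_pos.le (pow_nonneg C.c₀_pos.le k))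

theorem M_anti {j k : ℕ} (h : j ≤ k) : C.M k ≤ C.M j := by
  rintro x ⟨hx, a, ha, e⟩
  exact ⟨hx, a, fun i => ⟨(ha i).1, (ha i).2.trans (mul_le_mul_of_nonneg_left
    (pow_le_pow_of_le_one C.c₀_pos.le C.c₀_lt.le h) C.ρ₀_pos.le)⟩, e⟩

theorem norm_M {k : ℕ} {x : Cq q} (hx : x ∈ C.M k) : ‖x‖ ≤ C.c₀ ^ (k + 1) := by
  refine (C.norm_le_of_mem_lat hx).trans ?_
  have h : C.ρ₀ * ‖C.θ‖ ≤ C.c₀ := by
    refine (mul_le_mul_of_nonneg_right (min_le_right _ _) (norm_nonneg _)).trans ?_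
    rw [div_mul_eq_mul_div, div_le_iff₀ (by positivity)]
    nlinarith [C.c₀_pos]
  calc C.ρ₀ * C.c₀ ^ k * ‖C.θ‖ = C.c₀ ^ k * (C.ρ₀ * ‖C.θ‖) := by ring
    _ ≤ C.c₀ ^ k * C.c₀ := mul_le_mul_of_nonneg_left h (pow_nonneg C.c₀_pos.le k)
    _ = _ := by rw [pow_succ]

theorem M_mem {k : ℕ} {x : Cq q} (hx : x ∈ C.M k) : x ∈ KF C.U' := hx.1

theorem M_mul {j k : ℕ} {x y : Cq q} (hx : x ∈ C.M j) (hy : y ∈ C.M k) :
    x * y ∈ C.M (j + k + 1) := by
  refine C.mem_lat_of_norm (mul_mem hx.1 hy.1) ?_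
  have h1 := C.norm_le_of_mem_lat hx
  have h2 := C.norm_le_of_mem_lat hy
  have h3 : C.ρ₀ * (‖C.θ‖ + 1) ^ 2 * C.A₀ ≤ C.c₀ * ‖(p : Cq q)‖ ^ 2 := by
    have h := min_le_left (C.c₀ * ‖(p : Cq q)‖ ^ 2 / ((‖C.θ‖ + 1) ^ 2 * C.A₀)) (C.c₀ / (‖C.θ‖ + 1))
    rw [le_div_iff₀ (mul_pos (by positivity) C.A₀_pos)] at h
    rw [mul_assoc]
    exact h
  rw [norm_mul, div_le_iff₀ (pow_pos norm_p_pos 2)]
  have hc := pow_nonneg C.c₀_pos.le (j + k)
  have hρ := C.ρ₀_pos.le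
  calc ‖x‖ * ‖y‖ * C.A₀
      ≤ (C.ρ₀ * C.c₀ ^ j * ‖C.θ‖) * (C.ρ₀ * C.c₀ ^ k * ‖C.θ‖) * C.A₀ := by
        refine mul_le_mul_of_nonneg_right (mul_le_mul h1 h2 (norm_nonneg _) ?_) C.A₀_pos.le
        exact mul_nonneg (mul_nonneg hρ (pow_nonneg C.c₀_pos.le j)) (norm_nonneg _)
    _ = C.ρ₀ * C.c₀ ^ (j + k) * (C.ρ₀ * ‖C.θ‖ ^ 2 * C.A₀) := by ring
    _ ≤ C.ρ₀ * C.c₀ ^ (j + k) * (C.c₀ * ‖(p : Cq q)‖ ^ 2) := by
        refine mul_le_mul_of_nonneg_left (le_trans ?_ h3) (mul_nonneg hρ hc)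
        refine mul_le_mul_of_nonneg_right (mul_le_mul_of_nonneg_left ?_ hρ) C.A₀_pos.le
        exact pow_le_pow_left₀ (norm_nonneg _) (le_add_of_nonneg_right zero_le_one) 2
    _ = C.ρ₀ * C.c₀ ^ (j + k + 1) * ‖(p : Cq q)‖ ^ 2 := by ring

theorem M_near {k : ℕ} {x : Cq q} (hx : x ∈ C.M k) : ‖x‖ < 1 :=
  lt_of_le_of_lt (C.norm_M hx) (pow_lt_one₀ C.c₀_pos.le C.c₀_lt (Nat.succ_ne_zero k))

theorem exists_M_of_norm : ∀ k : ℕ, ∃ δ > (0 : ℝ), ∀ x ∈ KF C.U', ‖x‖ ≤ δ → x ∈ C.M k := fun k => by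
  refine ⟨C.ρ₀ * C.c₀ ^ k * ‖(p : Cq q)‖ ^ 2 / C.A₀, div_pos (mul_pos (mul_pos C.ρ₀_pos
    (pow_pos C.c₀_pos k)) (pow_pos norm_p_pos 2)) C.A₀_pos, fun x hx h => C.mem_lat_of_norm hx ?_⟩
  rw [div_le_iff₀ (pow_pos norm_p_pos 2)]
  rwa [le_div_iff₀ C.A₀_pos] at h

/-- the inverse of an element of `1 + M 0` lies in it -/
theorem inv_one_add_mem {x : Cq q} (hx : x ∈ C.M 0) : (1 + x)⁻¹ - 1 ∈ C.M 0 := by
  have hne : ‖1 + x‖ = 1 := norm_eq_one_of_near (by simpa using C.M_near hx)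
  have h0 : (1 : Cq q) + x ≠ 0 := norm_ne_zero_iff.1 (by rw [hne]; exact one_ne_zero)
  obtain ⟨δ, hδ, hM⟩ := C.exists_M_of_norm 0
  -- an inverse modulo `M k`
  have happ : ∀ k, ∃ y ∈ C.M 0, (1 + x) * (1 + y) - 1 ∈ C.M k := by
    intro k
    induction k with
    | zero =>
      exact ⟨0, zero_mem _, by simpa using hx⟩
    | succ k ih =>
      obtain ⟨y, hy, hk⟩ := ih
      set m := (1 + x) * (1 + y) - 1 with hm
      refine ⟨y - m - y * m, sub_mem (sub_mem hy (C.M_anti (Nat.zero_le k) hk))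
        (C.M_anti (Nat.zero_le _) (C.M_mul hy hk)), ?_⟩
      have e : (1 + x) * (1 + (y - m - y * m)) - 1 = -(m * m) := by
        rw [hm]; ring
      rw [e]
      exact neg_mem (C.M_anti (by omega) (C.M_mul hk hk))
  obtain ⟨k, hk⟩ := exists_pow_lt_of_lt_one hδ C.c₀_lt
  obtain ⟨y, hy, hyk⟩ := happ k
  have e : (1 + x)⁻¹ - 1 = y + -((1 + x)⁻¹ * ((1 + x) * (1 + y) - 1)) := by
    rw [mul_sub, inv_mul_cancel_left₀ h0]; ring
  rw [e]
  refine add_mem hy (neg_mem (hM _ ?_ ?_))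
  · exact mul_mem (inv_mem (add_mem (one_mem _) hx.1)) (C.M_mem hyk)
  · rw [norm_mul, norm_inv, hne, inv_one, one_mul]
    exact (C.norm_M hyk).trans ((pow_le_pow_of_le_one C.c₀_pos.le C.c₀_lt.le (Nat.le_succ k)).trans hk.le)

/-- `1 + M 0` -/
def B : Subgroup (Cq q)ˣ where
  carrier := {x | (x : Cq q) - 1 ∈ C.M 0}
  one_mem' := by
    show ((1 : (Cq q)ˣ) : Cq q) - 1 ∈ C.M 0
    simp
  mul_mem' {a b} ha hb := by
    show (a : Cq q) * b - 1 ∈ C.M 0
    rw [show (a : Cq q) * b - 1 =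
      ((a : Cq q) - 1) + ((b : Cq q) - 1) + ((a : Cq q) - 1) * ((b : Cq q) - 1) by ring]
    exact add_mem (add_mem ha hb) (C.M_anti (Nat.zero_le _) (C.M_mul ha hb))
  inv_mem' {a} ha := by
    show ((a⁻¹ : (Cq q)ˣ) : Cq q) - 1 ∈ C.M 0
    rw [Units.val_inv_eq_inv_val, show (a : Cq q) = 1 + ((a : Cq q) - 1) by ring]
    exact C.inv_one_add_mem ha

/-- the generator on units -/
def S (i : ℕ) : (Cq q)ˣ →* (Cq q)ˣ := Units.map (C.sg i : Cq q →* Cq q)

/-- `x ↦ σ x / x` -/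
def D : (Cq q)ˣ →* (Cq q)ˣ := C.S 1 / MonoidHom.id _

/-- the norm -/
def Nm : (Cq q)ˣ →* (Cq q)ˣ := ∏ i ∈ range p, C.S i

theorem D_apply (x : (Cq q)ˣ) : ((C.D x : (Cq q)ˣ) : Cq q) = C.sg 1 x / x := by
  simp [D, S, div_eq_mul_inv]

theorem Nm_apply (x : (Cq q)ˣ) : ((C.Nm x : (Cq q)ˣ) : Cq q) = C.part x p := by
  simp only [Nm, part, MonoidHom.finsetProd_apply, Units.coe_prod]
  rfl

theorem norm_Nm (x : (Cq q)ˣ) : ‖((C.Nm x : (Cq q)ˣ) : Cq q)‖ = ‖(x : Cq q)‖ ^ p := by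
  rw [C.Nm_apply, part, norm_prod, prod_congr rfl fun i _ => C.norm_sg i _, prod_const, card_range]

theorem part_eq_pow {x : Cq q} (hx : x ∈ KF C.U) : C.part x p = x ^ p := by
  rw [part, prod_congr rfl fun i _ => C.sg_base hx i, prod_const, card_range]

theorem mem_ker_D {x : (Cq q)ˣ} : x ∈ C.D.ker ↔ C.sg 1 (x : Cq q) = x := by
  rw [MonoidHom.mem_ker, Units.ext_iff, C.D_apply, Units.val_one, div_eq_one_iff_eq x.ne_zero]

theorem Nm_mem_base {x : (Cq q)ˣ} (hx : (x : Cq q) ∈ KF C.U') :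
    ((C.Nm x : (Cq q)ˣ) : Cq q) ∈ KF C.U := by
  rw [C.Nm_apply]
  refine C.mem_base (prod_mem fun j _ => C.sg_mem hx j) ?_
  have h := C.part_succ (x : Cq q) p
  rw [part, prod_range_succ, C.sg_p hx, mul_comm] at h
  exact (mul_left_cancel₀ x.ne_zero h).symm

theorem Nm_D {x : (Cq q)ˣ} (hx : (x : Cq q) ∈ KF C.U') : C.Nm (C.D x) = 1 := by
  refine Units.ext ?_
  rw [C.Nm_apply, C.D_apply, Units.val_one, part]
  have h1 : ∏ i ∈ range p, C.sg i (C.sg 1 (x : Cq q)) = ∏ i ∈ range p, C.sg i (x : Cq q) := by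
    have hN := C.Nm_mem_base hx
    rw [C.Nm_apply, part] at hN
    conv_rhs => rw [← C.sg_base hN 1, map_prod]
    exact prod_congr rfl fun i _ => by rw [← C.sg_add, ← C.sg_add, Nat.add_comm]
  simp only [map_div₀, prod_div_distrib, h1]
  exact div_self (prod_ne_zero_iff.2 fun i _ => by simp)

theorem B_le : C.B ≤ U0 C.U' := fun x hx =>
  ⟨by
    show (x : Cq q) ∈ KF C.U'
    have := add_mem (C.M_mem hx) (one_mem (KF C.U'))
    rwa [sub_add_cancel] at this,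
   norm_eq_one_of_near (C.M_near hx)⟩

theorem relIndex_B_ne_zero : C.B.relIndex (U0 C.U') ≠ 0 := by
  obtain ⟨δ, hδ, hM⟩ := C.exists_M_of_norm 0
  have hδ' : 0 < min δ (1 / 2) := lt_min hδ (by norm_num)
  have hδ1 : min δ (1 / 2) < (1 : ℝ) := (min_le_right _ _).trans_lt (by norm_num)
  have hle : ballM C.U' (min δ (1 / 2)) hδ'.le hδ1 ≤ C.B := fun x hx =>
    hM _ (sub_mem hx.1 (one_mem _)) (hx.2.trans (min_le_left _ _))
  exact fun h => relIndex_ballM_ne_zero C.isOpen hδ' hδ1 (Subgroup.relIndex_eq_zero_of_le_left hle h)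

/-- products modulo the next step -/
theorem prod_one_add {k : ℕ} (w : ℕ → Cq q) (hw : ∀ i, w i ∈ C.M k) (n : ℕ) :
    ∏ i ∈ range n, (1 + w i) - 1 - ∑ i ∈ range n, w i ∈ C.M (k + 1) := by
  induction n with
  | zero => simp
  | succ n ih =>
    rw [prod_range_succ, sum_range_succ]
    set P := ∏ i ∈ range n, (1 + w i)
    set s := ∑ i ∈ range n, w i
    rw [show P * (1 + w n) - 1 - (s + w n) = (P - 1 - s) + ((P - 1 - s) + s) * w n by ring]
    refine add_mem ih (C.M_anti (by omega) (C.M_mul (j := k) (add_mem (C.M_anti (Nat.le_succ k) ih) ?_) (hw n)))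
    exact sum_mem fun i _ => hw i

theorem div_sub_one_mem {k : ℕ} {y z : Cq q} (hz : z - 1 ∈ C.M 0) (h : y - z ∈ C.M k) :
    y / z - 1 ∈ C.M k := by
  have hz0 : z ≠ 0 := norm_ne_zero_iff.1 (by
    rw [norm_eq_one_of_near (C.M_near hz)]; exact one_ne_zero)
  have hi := C.inv_one_add_mem hz
  rw [add_sub_cancel] at hi
  rw [div_sub_one hz0, div_eq_mul_inv,
    show (y - z) * z⁻¹ = (y - z) + (y - z) * (z⁻¹ - 1) by ring]
  exact add_mem h (C.M_anti (by omega) (C.M_mul h hi))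

theorem tr_eq_sum_range (x : Cq q) : C.tr x = ∑ i ∈ range p, C.sg i x := by
  refine (sum_bij (fun l _ => ((l : ℕ) : ZMod p)) (fun _ _ => mem_univ _)
    (fun l hl l' hl' he => ?_) (fun i _ => ⟨i.val, mem_range.2 (ZMod.val_lt i),
      ZMod.natCast_zmod_val i⟩) fun l hl => ?_).symm
  · have := congrArg ZMod.val he
    rwa [ZMod.val_cast_of_lt (mem_range.1 hl), ZMod.val_cast_of_lt (mem_range.1 hl')] at this
  · rw [ZMod.val_cast_of_lt (mem_range.1 hl)]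

/-- fixed elements of `1 + M k` are norms modulo the next step -/
theorem step_fix {k : ℕ} {y : (Cq q)ˣ} (hy : (y : Cq q) - 1 ∈ C.M k)
    (hfix : C.sg 1 (y : Cq q) = y) :
    ∃ b ∈ C.B, ((y / C.Nm b : (Cq q)ˣ) : Cq q) - 1 ∈ C.M (k + 1) := by
  obtain ⟨w, hw, htr⟩ := C.exists_tr_eq hy (by rw [map_sub, map_one, hfix])
  have hne : (1 : Cq q) + w ≠ 0 := norm_ne_zero_iff.1 (by
    rw [norm_eq_one_of_near (show ‖1 + w - 1‖ < 1 by simpa using C.M_near (k := k) hw)]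
    exact one_ne_zero)
  have hb : Units.mk0 (1 + w) hne ∈ C.B := by
    show (1 + w) - 1 ∈ C.M 0
    rw [add_sub_cancel_left]
    exact C.M_anti (Nat.zero_le k) hw
  refine ⟨_, hb, ?_⟩
  rw [Units.val_div_eq_div_val, C.Nm_apply, part, Units.val_mk0]
  simp only [map_add, map_one]
  have h := C.prod_one_add (fun i => C.sg i w) (fun i => C.sg_lat hw i) p
  rw [← C.tr_eq_sum_range, htr] at h
  refine C.div_sub_one_mem ?_ ?_
  · rw [show ∏ i ∈ range p, (1 + C.sg i w) - 1 =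
      (∏ i ∈ range p, (1 + C.sg i w) - 1 - ((y : Cq q) - 1)) + ((y : Cq q) - 1) by ring]
    exact add_mem (C.M_anti (Nat.zero_le _) h) (C.M_anti (Nat.zero_le _) hy)
  · rw [show (y : Cq q) - ∏ i ∈ range p, (1 + C.sg i w) =
      -(∏ i ∈ range p, (1 + C.sg i w) - 1 - ((y : Cq q) - 1)) by ring]
    exact neg_mem h

/-- elements of norm one of `1 + M k` are of the form `σ b / b` modulo the next step -/
theorem step_ker {k : ℕ} {y : (Cq q)ˣ} (hy : (y : Cq q) - 1 ∈ C.M k) (hN : C.Nm y = 1) :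
    ∃ b ∈ C.B, ((y / C.D b : (Cq q)ˣ) : Cq q) - 1 ∈ C.M (k + 1) := by
  set m := (y : Cq q) - 1 with hm
  have htr : C.tr m ∈ C.M (k + 1) := by
    have h := C.prod_one_add (fun i => C.sg i m) (fun i => C.sg_lat hy i) p
    have e : ∏ i ∈ range p, (1 + C.sg i m) = 1 := by
      have h' := congrArg Units.val hN
      rw [C.Nm_apply, Units.val_one, part] at h'
      exact (prod_congr rfl fun i _ => by rw [hm, map_sub, map_one, add_sub_cancel]).trans h' 
    rw [e, sub_self, zero_sub, ← C.tr_eq_sum_range] at h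
    exact neg_mem_iff.1 h
  obtain ⟨w', hw', htr'⟩ := C.exists_tr_eq htr (by
    have hb := C.tr_mem_base (C.M_mem hy)
    exact C.sg_base hb 1)
  obtain ⟨w, hw, hwm⟩ := C.exists_sub_eq (m := m - w')
    (sub_mem hy (C.M_anti (Nat.le_succ k) hw')) (by
      rw [C.tr_eq_sum_range]
      simp only [map_sub, sum_sub_distrib]
      rw [← C.tr_eq_sum_range, ← C.tr_eq_sum_range, htr', sub_self])
  have hne : (1 : Cq q) + w ≠ 0 := norm_ne_zero_iff.1 (by
    rw [norm_eq_one_of_near (show ‖1 + w - 1‖ < 1 by simpa using C.M_near (k := k) hw)]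
    exact one_ne_zero)
  have hb : Units.mk0 (1 + w) hne ∈ C.B := by
    show (1 + w) - 1 ∈ C.M 0
    rw [add_sub_cancel_left]
    exact C.M_anti (Nat.zero_le k) hw
  refine ⟨_, hb, ?_⟩
  have hi := C.inv_one_add_mem (C.M_anti (Nat.zero_le k) hw)
  have hd : C.sg 1 (1 + w) / (1 + w) - 1 - (m - w') =
      (m - w') * ((1 + w)⁻¹ - 1) := by
    rw [← hwm, map_add, map_one]
    field_simp
    ring
  have hd1 : C.sg 1 (1 + w) / (1 + w) - 1 - (m - w') ∈ C.M (k + 1) := by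
    rw [hd]
    exact C.M_anti (by omega) (C.M_mul (sub_mem hy (C.M_anti (Nat.le_succ k) hw')) hi)
  rw [Units.val_div_eq_div_val, C.D_apply, Units.val_mk0]
  refine C.div_sub_one_mem ?_ ?_
  · rw [show C.sg 1 (1 + w) / (1 + w) - 1 =
      (C.sg 1 (1 + w) / (1 + w) - 1 - (m - w')) + (m - w') by ring]
    exact add_mem (C.M_anti (Nat.zero_le _) hd1)
      (C.M_anti (Nat.zero_le _) (sub_mem hy (C.M_anti (Nat.le_succ k) hw')))
  · rw [show (y : Cq q) - C.sg 1 (1 + w) / (1 + w) =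
      -(C.sg 1 (1 + w) / (1 + w) - 1 - (m - w')) + w' by rw [hm]; ring]
    exact add_mem (neg_mem hd1) hw'

theorem Nm_mem_B {b : (Cq q)ˣ} (hb : b ∈ C.B) : C.Nm b ∈ C.B := by
  simp only [Nm, MonoidHom.finsetProd_apply]
  refine prod_mem fun i _ => ?_
  show C.sg i (b : Cq q) - 1 ∈ C.M 0
  rw [← map_one (C.sg i), ← map_sub]
  exact C.sg_lat hb i

theorem D_mem_B {b : (Cq q)ˣ} (hb : b ∈ C.B) : C.D b ∈ C.B := by
  refine div_mem (H := C.B) ?_ hb
  show C.sg 1 (b : Cq q) - 1 ∈ C.M 0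
  rw [← map_one (C.sg 1), ← map_sub]
  exact C.sg_lat hb 1

theorem map_Nm_B : C.B.map C.Nm = C.D.ker ⊓ C.B := by
  refine le_antisymm ?_ ?_
  · rintro _ ⟨b, hb, rfl⟩
    exact ⟨C.mem_ker_D.2 (C.sg_base (C.Nm_mem_base (C.B_le hb).1) 1), C.Nm_mem_B hb⟩
  · rintro y ⟨hy, hyB⟩
    have happ : ∀ k, ∃ b ∈ C.B, ((y / C.Nm b : (Cq q)ˣ) : Cq q) - 1 ∈ C.M k := by
      intro k
      induction k with
      | zero => exact ⟨1, one_mem _, by rw [map_one, div_one]; exact hyB⟩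
      | succ k ih =>
        obtain ⟨b, hb, hk⟩ := ih
        obtain ⟨b', hb', hk'⟩ := C.step_fix hk (C.mem_ker_D.1 (div_mem hy
          (C.mem_ker_D.2 (C.sg_base (C.Nm_mem_base (C.B_le hb).1) 1))))
        exact ⟨b * b', mul_mem hb hb', by rw [map_mul, ← div_div]; exact hk'⟩
    obtain ⟨δ, hδ, hM⟩ := C.exists_M_of_norm 0
    obtain ⟨r, hr, hrp⟩ := exists_between (lt_min hδ (norm_p_pos (q := q) (p := p)))
    obtain ⟨k, hk⟩ := exists_pow_lt_of_lt_one (mul_pos (norm_p_pos (q := q) (p := p)) hr) C.c₀_lt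
    obtain ⟨b, hb, hbk⟩ := happ k
    set e := y / C.Nm b
    have heK : (e : Cq q) ∈ KF C.U := by
      refine C.mem_base ?_ (C.mem_ker_D.1 (div_mem hy
        (C.mem_ker_D.2 (C.sg_base (C.Nm_mem_base (C.B_le hb).1) 1))))
      have := add_mem (C.M_mem hbk) (one_mem (KF C.U'))
      rwa [sub_add_cancel] at this
    have hrp' : r < ‖(p : Cq q)‖ := lt_of_lt_of_le hrp (min_le_right _ _)
    have hmem : e ∈ ballM C.U (‖(p : Cq q)‖ * r) (mul_nonneg (norm_nonneg _) hr.le)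
        (mul_norm_p_lt_one hr.le hrp') :=
      ⟨heK, (C.norm_M hbk).trans ((pow_le_pow_of_le_one C.c₀_pos.le C.c₀_lt.le (Nat.le_succ k)).trans
        hk.le)⟩
    rw [← map_pow_ballM C.openU hr.le hrp'] at hmem
    obtain ⟨x, hx, hxe⟩ := hmem
    refine ⟨b * x, mul_mem hb (hM _ (sub_mem (KF_anti C.le hx.1) (one_mem _))
      (hx.2.trans (hrp.le.trans (min_le_left _ _)))), ?_⟩
    rw [map_mul]
    have : C.Nm x = e := by
      refine Units.ext ?_
      rw [C.Nm_apply, C.part_eq_pow hx.1, ← hxe]; rfl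
    rw [this]
    exact mul_div_cancel _ _

theorem map_D_B : C.B.map C.D = C.Nm.ker ⊓ C.B := by
  refine le_antisymm ?_ ?_
  · rintro _ ⟨b, hb, rfl⟩
    exact ⟨C.Nm_D (C.B_le hb).1, C.D_mem_B hb⟩
  · rintro y ⟨hy, hyB⟩
    have happ : ∀ k, ∃ b ∈ C.B, ((y / C.D b : (Cq q)ˣ) : Cq q) - 1 ∈ C.M k := by
      intro k
      induction k with
      | zero => exact ⟨1, one_mem _, by rw [map_one, div_one]; exact hyB⟩
      | succ k ih =>
        obtain ⟨b, hb, hk⟩ := ih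
        obtain ⟨b', hb', hk'⟩ := C.step_ker hk (by
          rw [map_div, show C.Nm y = 1 from hy, C.Nm_D (C.B_le hb).1, div_one])
        exact ⟨b * b', mul_mem hb hb', by rw [map_mul, ← div_div]; exact hk'⟩
    obtain ⟨δ, hδ, hM⟩ := C.exists_M_of_norm 0
    have hpos : 0 < min (δ * ‖(p : Cq q)‖) ‖(p : Cq q)‖ := lt_min (mul_pos hδ norm_p_pos) norm_p_pos
    obtain ⟨k, hk⟩ := exists_pow_lt_of_lt_one hpos C.c₀_lt
    obtain ⟨b, hb, hbk⟩ := happ k
    set e := y / C.D b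
    have heN : C.part (e : Cq q) p = 1 := by
      rw [← C.Nm_apply, map_div, show C.Nm y = 1 from hy, C.Nm_D (C.B_le hb).1, div_one,
        Units.val_one]
    have heL : (e : Cq q) ∈ KF C.U' := by
      have := add_mem (C.M_mem hbk) (one_mem (KF C.U'))
      rwa [sub_add_cancel] at this
    have he1 : ‖(e : Cq q) - 1‖ ≤ C.c₀ ^ k :=
      (C.norm_M hbk).trans (pow_le_pow_of_le_one C.c₀_pos.le C.c₀_lt.le (Nat.le_succ k))
    set z := ∑ i ∈ range p, C.part (e : Cq q) i * C.sg i (1 : Cq q) with hz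
    have hpart : ∀ i, ‖C.part (e : Cq q) i - 1‖ ≤ C.c₀ ^ k ∧ ‖C.part (e : Cq q) i‖ ≤ 1 := by
      intro i
      induction i with
      | zero => simp [part, pow_nonneg C.c₀_pos.le]
      | succ i ih =>
        have he : ‖(e : Cq q)‖ ≤ 1 := (norm_eq_one_of_near (C.M_near hbk)).le
        have hs : ‖C.sg i (e : Cq q) - 1‖ ≤ C.c₀ ^ k := by
          rw [← map_one (C.sg i), ← map_sub, C.norm_sg]; exact he1
        constructor
        · rw [part, prod_range_succ, ← part, show C.part (e : Cq q) i * C.sg i (e : Cq q) - 1 =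
            C.part (e : Cq q) i * (C.sg i (e : Cq q) - 1) + (C.part (e : Cq q) i - 1) by ring]
          refine (IsUltrametricDist.norm_add_le_max _ _).trans (max_le ?_ ih.1)
          rw [norm_mul]
          exact (mul_le_of_le_one_left (norm_nonneg _) ih.2).trans hs
        · rw [part, prod_range_succ, ← part, norm_mul, C.norm_sg]
          exact mul_le_one₀ ih.2 (norm_nonneg _) he
    have hzp : ‖z - p‖ ≤ C.c₀ ^ k := by
      rw [show z - (p : Cq q) = ∑ i ∈ range p, (C.part (e : Cq q) i - 1) by simp [hz, sum_sub_distrib]]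
      exact norm_sum_le _ _ (pow_nonneg C.c₀_pos.le k) fun i _ => (hpart i).1
    have hlt : ‖z - p‖ < ‖(p : Cq q)‖ := lt_of_le_of_lt hzp (lt_of_lt_of_le hk (min_le_right _ _))
    have hzn : ‖z‖ = ‖(p : Cq q)‖ := by
      rw [show z = (z - p) + p by ring, IsUltrametricDist.norm_add_eq_max_of_norm_ne_norm hlt.ne,
        max_eq_right hlt.le]
    have hz0 : z ≠ 0 := norm_ne_zero_iff.1 (by rw [hzn]; exact norm_p_pos.ne')
    have hx0 : (p : Cq q) / z ≠ 0 := div_ne_zero pne hz0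
    have hres := C.sg_resolvent heL heN (one_mem (KF C.U'))
    rw [← hz] at hres
    have hzL : z ∈ KF C.U' := sum_mem fun i _ =>
      mul_mem (prod_mem fun j _ => C.sg_mem heL j) (C.sg_mem (one_mem _) i)
    refine ⟨b * Units.mk0 _ hx0, mul_mem hb (hM _ (sub_mem (div_mem (_root_.natCast_mem _ _) hzL)
      (one_mem _)) ?_), ?_⟩
    · rw [Units.val_mk0, div_sub_one hz0, norm_div, norm_sub_rev, hzn, div_le_iff₀ norm_p_pos]
      exact hzp.trans (hk.le.trans (min_le_left _ _))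
    · rw [map_mul]
      have : C.D (Units.mk0 _ hx0) = e := by
        refine Units.ext ?_
        rw [C.D_apply, Units.val_mk0, map_div₀, map_natCast]
        have hs0 : C.sg 1 z ≠ 0 := by simpa using hz0
        rw [div_div_div_cancel_left' _ _ pne, div_eq_iff hs0]
        exact hres.symm
      rw [this]
      exact mul_div_cancel _ _

/-- the norm index is `p` -/
theorem relIndex_norm : ((Km C.U').map C.Nm).relIndex (Km C.U) = p := by
  have hp := (Fact.out : p.Prime)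
  set A := U0 C.U'
  have hS : ∀ {x : (Cq q)ˣ}, x ∈ A → ∀ i, C.S i x ∈ A := fun {x} hx i =>
    ⟨C.sg_mem hx.1 i, (C.norm_sg i _).trans hx.2⟩
  have hNA : A.map C.Nm ≤ C.D.ker ⊓ A := by
    rintro _ ⟨x, hx, rfl⟩
    refine ⟨C.mem_ker_D.2 (C.sg_base (C.Nm_mem_base hx.1) 1), ?_⟩
    simp only [Nm, MonoidHom.finsetProd_apply]
    exact prod_mem fun i _ => hS hx i
  have hDA : A.map C.D ≤ C.Nm.ker ⊓ A := by
    rintro _ ⟨x, hx, rfl⟩
    exact ⟨C.Nm_D hx.1, div_mem (H := A) (hS hx 1) hx⟩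
  have hQ := tate_index_eq C.Nm C.D C.B_le hNA hDA C.map_Nm_B C.map_D_B C.relIndex_B_ne_zero
  have hkerD : C.D.ker ⊓ A = U0 C.U := by
    ext x
    exact ⟨fun h => ⟨C.mem_base h.2.1 (C.mem_ker_D.1 h.1), h.2.2⟩,
      fun h => ⟨C.mem_ker_D.2 (C.sg_base h.1 1), KF_anti C.le h.1, h.2⟩⟩
  have hkerD' : C.D.ker ⊓ Km C.U' = Km C.U := by
    ext x
    exact ⟨fun h => C.mem_base h.2 (C.mem_ker_D.1 h.1),
      fun h => ⟨C.mem_ker_D.2 (C.sg_base h 1), KF_anti C.le h⟩⟩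
  -- the ramification index
  obtain ⟨πK, hπKm, hπK1, hπK⟩ := exists_unif_ne C.openU
  obtain ⟨πL, hπLm, hπL1, hπL⟩ := exists_unif_ne C.isOpen
  have hπK0 : 0 < ‖(πK : Cq q)‖ := norm_pos_iff.2 πK.ne_zero
  have hπL0 : 0 < ‖(πL : Cq q)‖ := norm_pos_iff.2 πL.ne_zero
  have hinjL : Function.Injective fun k : ℤ => ‖(πL : Cq q)‖ ^ k :=
    zpow_right_injective₀ hπL0 hπL1.ne
  obtain ⟨n, hn⟩ := hπL _ (KF_anti C.le hπKm) πK.ne_zero
  have hn0 : 0 < n := by
    by_contra h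
    push Not at h
    have : 1 ≤ ‖(πL : Cq q)‖ ^ n := one_le_zpow_of_nonpos₀ hπL0 hπL1.le h
    linarith
  obtain ⟨e, rfl⟩ : ∃ e : ℕ, n = e := ⟨n.toNat, (Int.toNat_of_nonneg hn0.le).symm⟩
  obtain ⟨m, hm⟩ := hπK _ (C.Nm_mem_base hπLm) (C.Nm πL).ne_zero
  rw [C.norm_Nm, hn, ← zpow_mul, ← zpow_natCast] at hm
  have hem : (p : ℤ) = (e : ℤ) * m := hinjL hm
  have hm0 : 0 < m := by
    rcases le_or_gt m 0 with h | h
    · have h' : (p : ℤ) ≤ 0 := hem ▸ mul_nonpos_of_nonneg_of_nonpos hn0.le h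
      exact absurd h' (not_le.2 (by exact_mod_cast hp.pos))
    · exact h
  obtain ⟨m', rfl⟩ : ∃ m' : ℕ, m = m' := ⟨m.toNat, (Int.toNat_of_nonneg hm0.le).symm⟩
  -- the index on the units is the ramification index
  have h90 : C.Nm.ker ⊓ A = (Km C.U').map C.D := by
    refine le_antisymm (fun x hx => ?_) ?_
    · obtain ⟨y, hy, hy0, h⟩ := C.hilbert90 hx.2.1 (by
        rw [← C.Nm_apply, show C.Nm x = 1 from hx.1, Units.val_one])
      refine ⟨Units.mk0 y hy0, hy, Units.ext ?_⟩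
      rw [C.D_apply, Units.val_mk0, h, mul_div_assoc, div_self hy0, mul_one]
    · rintro _ ⟨y, hy, rfl⟩
      exact ⟨C.Nm_D hy, div_mem (H := Km C.U') (C.sg_mem hy 1) hy, by
        rw [C.D_apply, norm_div, C.norm_sg, div_self (norm_ne_zero_iff.2 y.ne_zero)]⟩
  have hsup : (Km C.U ⊔ A).map C.D = A.map C.D := by
    rw [Subgroup.map_sup, sup_eq_right]
    rintro _ ⟨x, hx, rfl⟩
    rw [show C.D x = 1 from C.mem_ker_D.2 (C.sg_base hx 1)]
    exact one_mem _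
  have he : (A.map C.D).relIndex ((Km C.U').map C.D) = e := by
    have h := relIndex_eq_map_mul_ker C.D (B := Km C.U ⊔ A) (A := Km C.U')
      (sup_le (fun x hx => KF_anti C.le hx) U0_le_Km)
    rw [hsup, hkerD', Subgroup.relIndex_eq_one.2 le_sup_left, mul_one] at h
    rw [← h]
    refine relIndex_sup_U0 (Km C.U) (fun x hx => KF_anti C.le hx) hπLm hπL0 hπL1 hπL (fun x hx => ?_)
      ⟨πK, hπKm, hn⟩
    obtain ⟨k, hk⟩ := hπK _ hx x.ne_zero
    exact ⟨k, by rw [hk, hn, zpow_mul]⟩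
  rw [h90] at hQ
  rw [he, hkerD] at hQ
  -- the two parts of the index
  set X := (Km C.U').map C.Nm
  have hX : X ≤ Km C.U := by rintro _ ⟨x, hx, rfl⟩; exact C.Nm_mem_base hx
  have hfirst : (X ⊔ U0 C.U).relIndex (Km C.U) = m' := by
    refine relIndex_sup_U0 X hX hπKm hπK0 hπK1 hπK ?_ ⟨C.Nm πL, ⟨πL, hπLm, rfl⟩, ?_⟩
    · rintro _ ⟨x, hx, rfl⟩
      obtain ⟨k, hk⟩ := hπL _ hx x.ne_zero
      refine ⟨k, ?_⟩
      rw [C.norm_Nm, hk, hn, ← zpow_natCast, ← zpow_mul, ← zpow_mul]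
      congr 1
      rw [hem]; ring
    · rw [C.norm_Nm, hn, ← zpow_natCast, ← zpow_mul, hem]
  have hint : U0 C.U ⊓ X = A.map C.Nm := by
    refine le_antisymm ?_ (le_inf (hkerD ▸ hNA) (Subgroup.map_mono U0_le_Km))
    rintro _ ⟨hu, y, hy, rfl⟩
    refine ⟨y, ⟨hy, (pow_eq_one_iff_of_nonneg (norm_nonneg _) hp.ne_zero).1 ?_⟩, rfl⟩
    rw [← C.norm_Nm]; exact hu.2
  rw [← Subgroup.relIndex_mul_relIndex X (X ⊔ U0 C.U) _ le_sup_left (sup_le hX U0_le_Km), hfirst,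
    Subgroup.relIndex_sup_left, ← Subgroup.inf_relIndex_left, hint, ← hQ]
  exact_mod_cast hem.symm

end Cyc

end FLTAgent.PT.Loc
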