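import Fermat.Agent.PT.Local.Duality

/-!
Parcel C: the unramified classes, their orthogonality, and the Euler characteristic away from `p`.
-/

set_option autoImplicit false
set_option linter.style.haveILetI false
set_option linter.unusedSectionVars false

noncomputable section

open CategoryTheory groupCohomology

namespace FLTAgent.PT.Loc

variable {p : ℕ} [Fact p.Prime] {q : Nat.Primes} {M N A B C : Rep.{0} (ZMod p) GQ}

/-- a lift of Frobenius generates modulo inertia at every level, and has unbounded order there -/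
theorem exists_frob_lift (q : Nat.Primes) : ∃ σ : Gam q,
    (∀ F : IntermediateField ℚ (AlgebraicClosure ℚ), FiniteDimensional ℚ F →
      ∀ g : Gam q, ∃ i : ℕ, (σ ^ i)⁻¹ * g ∈ inert q ⊔ lev (loc q) F) ∧
    ∀ N : ℕ, 0 < N → ∃ F : IntermediateField ℚ (AlgebraicClosure ℚ), FiniteDimensional ℚ F ∧
      ∀ i : ℕ, σ ^ i ∈ inert q ⊔ lev (loc q) F → N ∣ i := by
  classical
  haveI : Fact (q : ℕ).Prime := ⟨q.2⟩
  haveI := FLTAgent.Common.isAlgebraic_qbar
  haveI := FLTAgent.Common.isGalois_qbar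
  have hA := lies_place q
  obtain ⟨φ, hφ⟩ := exists_frobenius_place q.2 hA
  have hrange := (range_loc' q).ge
  obtain ⟨σ, hσ⟩ := hrange hφ.mem_decompositionSubgroup
  refine ⟨σ, fun F hF g => ?_, fun N hN => ?_⟩
  · haveI := hF
    let E := IntermediateField.normalClosure ℚ F (AlgebraicClosure ℚ)
    haveI : FiniteDimensional ℚ E := normalClosure.is_finiteDimensional ℚ _ _
    haveI : Normal ℚ E := normalClosure.normal ℚ F _
    haveI : IsGalois ℚ E := {}
    obtain ⟨i, ρ, hρI, hρE⟩ :=
      exists_pow_frob_inertia q.2 hA hφ (loc_mem_decomposition g) E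
    obtain ⟨s, hs⟩ := hrange (Subgroup.map_subtype_le _ hρI)
    refine ⟨i, ?_⟩
    rw [← mul_inv_cancel_left s ((σ ^ i)⁻¹ * g)]
    refine Subgroup.mul_mem_sup (show loc q s ∈ _ from hs ▸ hρI) ?_
    rw [Subgroup.mem_comap, IntermediateField.mem_fixingSubgroup_iff]
    intro x hx
    rw [map_mul, map_inv, map_mul, map_inv, map_pow, hs, hσ, AlgEquiv.mul_apply,
      ← hρE x (F.le_normalClosure hx)]
    exact ρ.symm_apply_apply x
  · set m := (q : ℕ) ^ N - 1 with hm
    have h1q : 1 < (q : ℕ) ^ N := Nat.one_lt_pow hN.ne' q.2.one_lt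
    have hm0 : 0 < m := by omega
    haveI : NeZero m := ⟨hm0.ne'⟩
    have hqm : ¬ (q : ℕ) ∣ m := fun hd => by
      have h1 : (q : ℕ) ∣ m + 1 := by
        rw [hm, Nat.sub_add_cancel h1q.le]; exact dvd_pow_self _ hN.ne'
      exact q.2.not_dvd_one ((Nat.dvd_add_right hd).mp h1)
    obtain ⟨ζ, hζ⟩ := HasEnoughRootsOfUnity.exists_primitiveRoot (AlgebraicClosure ℚ) m
    refine ⟨IntermediateField.adjoin ℚ ({ζ} : Set (AlgebraicClosure ℚ)),
      IntermediateField.adjoin.finiteDimensional (Algebra.IsIntegral.isIntegral ζ), fun i hi => ?_⟩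
    let S : Subgroup (Gam q) :=
      (MulAction.stabilizer GQ (ζ : AlgebraicClosure ℚ)).comap (loc q)
    have hle : inert q ⊔ lev (loc q) (IntermediateField.adjoin ℚ ({ζ} : Set (AlgebraicClosure ℚ))) ≤ S :=
      sup_le (fun s hs => by
        show loc q s ζ = ζ
        rw [Attach.cyc_spec _ hζ.pow_eq_one, Attach.cyc_inertia q.2 hqm hA hs]
        rcases Nat.lt_or_ge 1 m with h | h
        · haveI : Fact (1 < m) := ⟨h⟩
          rw [ZMod.val_one, pow_one]
        · obtain h1 : m = 1 := le_antisymm h hm0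
          obtain rfl : ζ = 1 := by
            have := hζ.pow_eq_one
            rwa [h1, pow_one] at this
          rw [one_pow])
      fun s hs => (IntermediateField.mem_fixingSubgroup_iff _ _).mp hs ζ
        (IntermediateField.mem_adjoin_simple_self ℚ ζ)
    have hφζ : ∀ j : ℕ, (φ ^ j) ζ = ζ ^ (q : ℕ) ^ j := by
      intro j
      induction j with
      | zero => simp
      | succ j ih =>
        rw [pow_succ' φ, AlgEquiv.mul_apply, ih, map_pow, Attach.cyc_spec φ hζ.pow_eq_one,
          Attach.cyc_frobenius q.2 hqm hA hφ, ZMod.val_natCast, ← pow_eq_pow_mod _ hζ.pow_eq_one,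
          ← pow_mul, ← pow_succ']
    have h1 : loc q (σ ^ i) ζ = ζ := hle hi
    rw [map_pow, hσ, hφζ] at h1
    have h2 : ζ ^ ((q : ℕ) ^ i - 1) = 1 := by
      refine mul_right_cancel₀ (hζ.ne_zero hm0.ne') ?_
      rw [← pow_succ, Nat.sub_add_cancel (Nat.one_le_pow _ _ q.2.pos), h1, one_mul]
    have h3 := (hζ.pow_eq_one_iff_dvd _).mp h2
    have h4 := Nat.pow_sub_one_gcd_pow_sub_one (q : ℕ) N i
    rw [← hm, Nat.gcd_eq_left h3, hm] at h4
    have h5 : (q : ℕ) ^ N = (q : ℕ) ^ Nat.gcd N i := by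
      have := Nat.one_le_pow (Nat.gcd N i) _ q.2.pos
      omega
    exact Nat.pow_right_injective q.2.two_le h5 ▸ Nat.gcd_dvd_right N i

section Unr

/-- the invariants of inertia -/
def fixI (q : Nat.Primes) (M : Rep.{0} (ZMod p) GQ) : Submodule (ZMod p) M where
  carrier := {m | ∀ s ∈ inert q, M.ρ (loc q s) m = m}
  add_mem' ha hb s hs := by rw [map_add, ha s hs, hb s hs]
  zero_mem' s hs := map_zero _
  smul_mem' c m hm s hs := by rw [map_smul, hm s hs]

/-- the cocycles vanishing on inertia -/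
def Zu (q : Nat.Primes) (M : Rep.{0} (ZMod p) GQ) :
    Submodule (ZMod p) (Z1 (loc q) (Rep.res (loc q) M)) where
  carrier := {z | ∀ s ∈ inert q, z.1 s = 0}
  add_mem' := fun ha hb s hs => by
    simp only [Submodule.coe_add, Pi.add_apply, ha s hs, hb s hs, add_zero]
  zero_mem' := fun _ _ => rfl
  smul_mem' := fun c _ ha s hs => by
    simp only [SetLike.val_smul, Pi.smul_apply, ha s hs, smul_zero]

theorem unr1_eq_map : unr1 q M = (Zu q M).map (h1mk (loc q) (Rep.res (loc q) M)) := rfl

theorem cocy_mul (z : Z1 (loc q) (Rep.res (loc q) M)) (g h : Gam q) :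
    (z.1 (g * h) : M) = M.ρ (loc q g) (z.1 h) + z.1 g :=
  (mem_cocycles₁_iff z.1).1 z.2.1 g h

theorem cocy_one (z : Z1 (loc q) (Rep.res (loc q) M)) : (z.1 1 : M) = 0 := by
  have h := cocy_mul z 1 1
  rw [mul_one, map_one, map_one, Module.End.one_apply] at h
  exact (add_eq_left.1 h.symm)

theorem Zu_mul {z : Z1 (loc q) (Rep.res (loc q) M)} (hz : z ∈ Zu q M) (g : Gam q) {s : Gam q}
    (hs : s ∈ inert q) : z.1 (g * s) = z.1 g := by
  show (z.1 (g * s) : M) = z.1 g
  rw [cocy_mul, show (z.1 s : M) = 0 from hz s hs, map_zero, zero_add]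

theorem Zu_fixI {z : Z1 (loc q) (Rep.res (loc q) M)} (hz : z ∈ Zu q M) (g : Gam q) :
    (z.1 g : M) ∈ fixI q M := by
  intro s hs
  haveI := inert_normal q
  have h1 : s * g = g * (g⁻¹ * s * g) := by group
  have hs' : g⁻¹ * s * g ∈ inert q := by
    simpa using (inert_normal q).conj_mem s hs g⁻¹
  have h2 : (z.1 (s * g) : M) = z.1 g := by
    rw [h1]; exact Zu_mul hz g hs'
  rw [cocy_mul, show (z.1 s : M) = 0 from hz s hs, add_zero] at h2
  exact h2

/-- the coboundaries coming from the invariants of inertia -/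
def dI (hM : IsAdm (MonoidHom.id GQ) M) : fixI q M →ₗ[ZMod p] Zu q M where
  toFun m := ⟨⟨fun g => M.ρ (loc q g) m.1 - m.1,
      (mem_cocycles₁_iff (A := Rep.res (loc q) M) _).2 fun g h => by
        show M.ρ (loc q (g * h)) m.1 - m.1 =
          M.ρ (loc q g) (M.ρ (loc q h) m.1 - m.1) + (M.ρ (loc q g) m.1 - m.1)
        rw [map_mul, map_mul, Module.End.mul_apply, map_sub]
        abel,
      by
        have h := IsAdm.level_d0 (hM.res (loc q)) m.1
        refine IsLevelConstant₁.comp h id⟩,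
    fun s hs => by
      show M.ρ (loc q s) m.1 - m.1 = 0
      rw [m.2 s hs, sub_self]⟩
  map_add' m m' := Subtype.ext (Subtype.ext (funext fun g => by
    show M.ρ (loc q g) (m.1 + m'.1) - (m.1 + m'.1) =
      (M.ρ (loc q g) m.1 - m.1) + (M.ρ (loc q g) m'.1 - m'.1)
    rw [map_add]; abel))
  map_smul' c m := Subtype.ext (Subtype.ext (funext fun g => by
    show M.ρ (loc q g) (c • m.1) - c • m.1 = c • (M.ρ (loc q g) m.1 - m.1)
    rw [map_smul, smul_sub]))

/-- unramified cocycles are the invariants of inertia -/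
theorem exists_ev_bijective (hM : IsAdm (MonoidHom.id GQ) M) :
    ∃ e : Zu q M →ₗ[ZMod p] fixI q M, Function.Bijective e := by
  classical
  haveI := inert_normal q
  obtain ⟨σ, hgen, hord⟩ := exists_frob_lift q
  let e : Zu q M →ₗ[ZMod p] fixI q M :=
    { toFun := fun z => ⟨z.1.1 σ, Zu_fixI z.2 σ⟩
      map_add' := fun z w => rfl
      map_smul' := fun c z => rfl }
  refine ⟨e, (injective_iff_map_eq_zero e).2 fun z hz => ?_, fun m => ?_⟩
  · obtain ⟨F, hF, hzF⟩ := z.1.2.2
    let K : Subgroup (Gam q) :=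
      { carrier := {g | (z.1.1 g : M) = 0}
        one_mem' := cocy_one z.1
        mul_mem' := fun {a b} ha hb => by
          show (z.1.1 (a * b) : M) = 0
          rw [cocy_mul, show (z.1.1 b : M) = 0 from hb, show (z.1.1 a : M) = 0 from ha, map_zero,
            add_zero]
        inv_mem' := fun {a} ha => by
          have h := cocy_mul z.1 a⁻¹ a
          rw [inv_mul_cancel, cocy_one, show (z.1.1 a : M) = 0 from ha, map_zero, zero_add] at h
          exact h.symm }
    have hK : inert q ⊔ lev (loc q) F ≤ K := sup_le (fun s hs => z.2 s hs) fun s hs => by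
      show (z.1.1 s : M) = 0
      have h := hzF 1 s hs
      rw [one_mul] at h
      rw [h, cocy_one]
    refine Subtype.ext (Subtype.ext (funext fun g => ?_))
    obtain ⟨i, hi⟩ := hgen F hF g
    have hg : g ∈ K := by
      rw [← mul_inv_cancel_left (σ ^ i) g]
      exact mul_mem (pow_mem (show σ ∈ K from congrArg Subtype.val hz) i) (hK hi)
    exact hg
  · obtain ⟨F₀, hF₀, hρ⟩ := hM.level
    haveI := hF₀
    obtain ⟨F, hF, hFle, hFn⟩ := exists_normal_lev (loc q) F₀
    haveI := hF
    haveI := hFn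
    haveI := finiteIndex_lev (r := loc q) F
    set n := (lev (loc q) F).index with hn
    have hn0 : n ≠ 0 := Subgroup.FiniteIndex.index_ne_zero
    obtain ⟨Z, hZ, hZord⟩ := hord (n * p)
      (Nat.mul_pos (Nat.pos_of_ne_zero hn0) (Fact.out : p.Prime).pos)
    haveI := hZ
    obtain ⟨E, hE, hEle, hEn⟩ := exists_normal_lev (loc q) (F ⊔ Z)
    haveI := hE
    haveI := hEn
    set U := inert q ⊔ lev (loc q) E with hU
    have hZ' : ∀ i, σ ^ i ∈ U → n * p ∣ i := fun i hi =>
      hZord i ((sup_le_sup_left (hEle.trans (lev_anti le_sup_right)) _) hi)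
    have htrivF : ∀ l ∈ lev (loc q) F, M.ρ (loc q l) = 1 := fun l hl => hρ _ (hFle hl)
    have hUm : ∀ u ∈ U, M.ρ (loc q u) m.1 = m.1 := fun u hu => by
      obtain ⟨s, hs, l, hl, rfl⟩ := Subgroup.mem_sup_of_normal_right.1 hu
      rw [map_mul, map_mul, htrivF l (lev_anti le_sup_left (hEle hl)), mul_one, m.2 s hs]
    set a : ℕ → M := fun j => M.ρ (loc q (σ ^ j)) m.1 with ha
    set β : ℕ → M := fun i => ∑ j ∈ Finset.range i, a j with hβ
    have haper : ∀ j, a (j + n) = a j := fun j => by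
      show M.ρ (loc q (σ ^ (j + n))) m.1 = M.ρ (loc q (σ ^ j)) m.1
      rw [pow_add, map_mul, map_mul, htrivF _ (Subgroup.pow_index_mem _ σ), mul_one]
    have hp : ∀ x : M, p • x = 0 := fun x => by
      rw [← Nat.cast_smul_eq_nsmul (ZMod p), ZMod.natCast_self, zero_smul]
    have hnp : ∀ i, β (i + n * p) = β i := fun i => by
      simp only [hβ]
      rw [Finset.sum_range_add, show (∑ x ∈ Finset.range (n * p), a (i + x)) = 0 by
        rw [sum_range_mul_of_periodic (fun j => by rw [← add_assoc]; exact haper _), hp], add_zero]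
    have key : ∀ i k, β (i + n * p * k) = β i := fun i k => by
      induction k with
      | zero => simp
      | succ k ih => rw [show i + n * p * (k + 1) = i + n * p * k + n * p by ring, hnp, ih]
    choose e₀ he₀ using hgen E hE
    have hexp : ∀ g i, (σ ^ i)⁻¹ * g ∈ U → β (e₀ g) = β i := fun g i hi => by
      have h1 : (σ ^ i)⁻¹ * σ ^ e₀ g ∈ U := by
        have h2 := mul_mem hi (inv_mem (he₀ g))
        rwa [show (σ ^ i)⁻¹ * g * ((σ ^ e₀ g)⁻¹ * g)⁻¹ = (σ ^ i)⁻¹ * σ ^ e₀ g by group] at h2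
      rcases le_total i (e₀ g) with h | h
      · rw [show e₀ g = i + (e₀ g - i) by omega, pow_add, inv_mul_cancel_left] at h1
        obtain ⟨k, hk⟩ := hZ' _ h1
        rw [show e₀ g = i + n * p * k by omega, key]
      · have h3 := inv_mem h1
        rw [mul_inv_rev, inv_inv, show i = e₀ g + (i - e₀ g) by omega, pow_add,
          inv_mul_cancel_left] at h3
        obtain ⟨k, hk⟩ := hZ' _ h3
        rw [show i = e₀ g + n * p * k by omega, key]
    have hcomp : ∀ i k, β (i + k) = M.ρ (loc q (σ ^ i)) (β k) + β i := fun i k => by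
      simp only [hβ]
      rw [Finset.sum_range_add, map_sum, add_comm]
      refine congrArg (· + _) (Finset.sum_congr rfl fun j _ => ?_)
      show M.ρ (loc q (σ ^ (i + j))) m.1 = M.ρ (loc q (σ ^ i)) (M.ρ (loc q (σ ^ j)) m.1)
      rw [pow_add, map_mul, map_mul]
      rfl
    have hUβ : ∀ u ∈ U, ∀ k, M.ρ (loc q u) (β k) = β k := fun u hu k => by
      simp only [hβ]
      rw [map_sum]
      refine Finset.sum_congr rfl fun j _ => ?_
      show M.ρ (loc q u) (M.ρ (loc q (σ ^ j)) m.1) = M.ρ (loc q (σ ^ j)) m.1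
      rw [← Module.End.mul_apply, ← map_mul, ← map_mul,
        show u * σ ^ j = σ ^ j * ((σ ^ j)⁻¹ * u * σ ^ j) by group, map_mul, map_mul,
        Module.End.mul_apply, hUm _ (by
          simpa using Subgroup.Normal.conj_mem
            (inferInstanceAs (inert q ⊔ lev (loc q) E).Normal) u hu (σ ^ j)⁻¹)]
    have hconst : ∀ g u, u ∈ U → β (e₀ (g * u)) = β (e₀ g) := fun g u hu =>
      hexp (g * u) (e₀ g) (by rw [← mul_assoc]; exact mul_mem (he₀ g) hu)
    have hz : (fun g => β (e₀ g)) ∈ Z1 (loc q) (Rep.res (loc q) M) := by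
      refine ⟨(mem_cocycles₁_iff (A := Rep.res (loc q) M) _).2 fun g h => ?_,
        E, hE, fun g s hs => hconst g s (Subgroup.mem_sup_right hs)⟩
      show β (e₀ (g * h)) = M.ρ (loc q g) (β (e₀ h)) + β (e₀ g)
      have hgh : (σ ^ (e₀ g + e₀ h))⁻¹ * (g * h) ∈ U := by
        have h1 := mul_mem (Subgroup.Normal.conj_mem
          (inferInstanceAs (inert q ⊔ lev (loc q) E).Normal) _ (he₀ g) (σ ^ e₀ h)⁻¹) (he₀ h)
        rwa [show (σ ^ e₀ h)⁻¹ * ((σ ^ e₀ g)⁻¹ * g) * (σ ^ e₀ h)⁻¹⁻¹ * ((σ ^ e₀ h)⁻¹ * h) =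
          (σ ^ (e₀ g + e₀ h))⁻¹ * (g * h) by rw [pow_add]; group] at h1
      rw [hexp (g * h) (e₀ g + e₀ h) hgh, hcomp]
      congr 1
      conv_rhs => rw [show g = σ ^ e₀ g * ((σ ^ e₀ g)⁻¹ * g) by group, map_mul, map_mul,
        Module.End.mul_apply, hUβ _ (he₀ g)]
    have h10 : β (e₀ 1) = 0 := by
      rw [hexp 1 0 (by rw [pow_zero, inv_one, one_mul]; exact one_mem U)]
      rfl
    refine ⟨⟨⟨_, hz⟩, fun s hs => ?_⟩, Subtype.ext ?_⟩
    · show β (e₀ s) = 0
      have := hconst 1 s (Subgroup.mem_sup_left hs)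
      rwa [one_mul, h10] at this
    · show β (e₀ σ) = m.1
      rw [hexp σ 1 (by rw [pow_one, inv_mul_cancel]; exact one_mem U)]
      simp only [hβ, ha, Finset.sum_range_one, pow_zero, map_one]
      rfl

theorem finrank_unr1' (hM : IsAdm (MonoidHom.id GQ) M) :
    Module.finrank (ZMod p) (unr1 q M) = Module.finrank (ZMod p) (lH0 q M) := by
  haveI := hM.finite
  haveI : Module.Finite (ZMod p) (fixI q M) := inferInstance
  obtain ⟨e, he⟩ := exists_ev_bijective (q := q) hM
  haveI : Module.Finite (ZMod p) (Zu q M) :=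
    Module.Finite.equiv (LinearEquiv.ofBijective e he).symm
  set f := (h1mk (loc q) (Rep.res (loc q) M)) ∘ₗ (Zu q M).subtype
  have hrange : LinearMap.range f = unr1 q M := by
    rw [unr1_eq_map, LinearMap.range_comp, Submodule.range_subtype]
  have hker : LinearMap.ker f = LinearMap.range (dI (q := q) hM) := by
    refine le_antisymm (fun z hz => ?_) ?_
    · rw [LinearMap.mem_ker] at hz
      obtain ⟨m, hm⟩ := (h1mk_eq_zero_iff _ _).1 hz
      have hmI : m ∈ fixI q M := fun s hs => by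
        have h : M.ρ (loc q s) m - m = (0 : M) := (hm s).trans (z.2 s hs)
        exact sub_eq_zero.1 h
      exact ⟨⟨m, hmI⟩, Subtype.ext (Subtype.ext (funext fun g => hm g))⟩
    · rintro _ ⟨m, rfl⟩
      exact LinearMap.mem_ker.2 ((h1mk_eq_zero_iff _ _).2 ⟨m.1, fun g => rfl⟩)
  have h0 : (LinearMap.ker (dI (q := q) hM)).map (fixI q M).subtype = lH0 q M := by
    refine le_antisymm ?_ fun m hm => ?_
    · rintro _ ⟨m, hm, rfl⟩ g
      exact sub_eq_zero.1 (congrFun (congrArg (fun z : Zu q M => z.1.1) (LinearMap.mem_ker.1 hm)) g)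
    · refine ⟨⟨m, fun s _ => hm s⟩, LinearMap.mem_ker.2 (Subtype.ext (Subtype.ext (funext fun g => ?_))), rfl⟩
      exact sub_eq_zero.2 (hm g)
  have h1 := LinearMap.finrank_range_add_finrank_ker f
  have h2 := LinearMap.finrank_range_add_finrank_ker (dI (q := q) hM)
  rw [hrange, hker, (LinearEquiv.ofBijective e he).finrank_eq] at h1
  rw [← (Submodule.equivMapOfInjective _ (fixI q M).injective_subtype _).finrank_eq.trans
    (congrArg (fun S : Submodule (ZMod p) M => Module.finrank (ZMod p) S) h0)]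
  exact Nat.add_right_cancel (h1.trans (h2.symm.trans (add_comm _ _)))

end Unr

section Orth

theorem om_inert (hq : (q : ℕ) ≠ p) {s : Gam q} (hs : s ∈ inert q) : om p s = 1 := by
  haveI : NeZero p := ⟨(Fact.out : p.Prime).ne_zero⟩
  haveI : Fact (1 < p) := ⟨(Fact.out : p.Prime).one_lt⟩
  haveI : Fact (q : ℕ).Prime := ⟨q.2⟩
  have h : ExtCitation.cycloChar p (loc q s) = 1 := Units.ext (by
    rw [Units.val_one]
    exact ((modularCyclotomicCharacter.unique (AlgebraicClosure ℚ)
      (g := ((loc q s : GQ) : AlgebraicClosure ℚ ≃+* AlgebraicClosure ℚ))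
      (ExtCitation.card_rootsOfUnity_eq_self p) (c := 1) fun t ht => by
        show loc q s (t : AlgebraicClosure ℚ) = _
        rw [Attach.cyc_spec _ ((mem_rootsOfUnity' p t).1 ht),
          Attach.cyc_inertia q.2 (fun h => hq ((Nat.prime_dvd_prime_iff_eq q.2 Fact.out).1 h))
            (lies_place q) hs])).symm)
  rw [om, h, Units.val_one]

theorem pair11_unr (hq : (q : ℕ) ≠ p) (hM : IsAdm (MonoidHom.id GQ) M) {x : lH1 q M}
    (hx : x ∈ unr1 q M) {y : lH1 q (dual' M)} (hy : y ∈ unr1 q (dual' M)) :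
    pair11 q hM x y = 0 := by
  obtain ⟨z, hz, rfl⟩ := hx
  obtain ⟨w, hw, rfl⟩ := hy
  have hu : IsUnrAt q (mu p) := fun s hs => LinearMap.ext fun a => by
    show ((mu p).ρ (loc q s) a : ZMod p) = a
    rw [mu_apply, om_inert hq hs, one_mul]
  have hc : ∀ g g' s s', s ∈ inert q → s' ∈ inert q →
      cup11 (A := Rep.res (loc q) M) (B := Rep.res (loc q) (dual' M))
        (C := Rep.res (loc q) (mu p)) (evM M) z.1 w.1 (g * s, g' * s') =
      cup11 (A := Rep.res (loc q) M) (B := Rep.res (loc q) (dual' M))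
        (C := Rep.res (loc q) (mu p)) (evM M) z.1 w.1 (g, g') := by
    intro g g' s s' hs hs'
    show evM M (z.1 (g * s)) ((dual' M).ρ (loc q (g * s)) (w.1 (g' * s'))) =
      evM M (z.1 g) ((dual' M).ρ (loc q g) (w.1 g'))
    rw [Zu_mul hz g hs, Zu_mul hw g' hs', map_mul, map_mul, Module.End.mul_apply,
      Zu_fixI hw g' s hs]
  obtain ⟨b, hb, -, hbd⟩ := exists_unr_trivialisation (isAdm_mu p) hu
    ⟨_, cup11_mem (loc q) (φ := evM M) (fun g => evM_eqv M (loc q g)) ((isAdm_dual hM).res _) z w⟩ hc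
  show h2mk (loc q) (Rep.res (loc q) (mu p)) _ = 0
  exact (continuousH2π_eq_zero_iff _ _ _).2 ((mem_levelCoboundaries₂_iff _ _ _).2 ⟨b, hb, hbd⟩)

variable {V W L : Type} [AddCommGroup V] [Module (ZMod p) V] [AddCommGroup W] [Module (ZMod p) W]
  [AddCommGroup L] [Module (ZMod p) L] [Module.Finite (ZMod p) V] [Module.Finite (ZMod p) W]

/-- the annihilator of a subspace -/
theorem finrank_ann (hL : Module.finrank (ZMod p) L = 1) {f : V →ₗ[ZMod p] W →ₗ[ZMod p] L}
    (hf : Function.Surjective f) (Y : Submodule (ZMod p) W) :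
    Module.finrank (ZMod p) (LinearMap.ker (LinearMap.lcomp (ZMod p) L Y.subtype ∘ₗ f)) +
      Module.finrank (ZMod p) Y = Module.finrank (ZMod p) V := by
  haveI := finite_hom_line (W := Y) hL
  have hs : Function.Surjective (LinearMap.lcomp (ZMod p) L Y.subtype ∘ₗ f) := fun l => by
    obtain ⟨l', hl'⟩ := LinearMap.exists_extend l
    obtain ⟨v, hv⟩ := hf l'
    exact ⟨v, LinearMap.ext fun y => by
      show f v y.1 = l y
      rw [hv, ← hl']
      rfl⟩
  have h := LinearMap.finrank_range_add_finrank_ker (LinearMap.lcomp (ZMod p) L Y.subtype ∘ₗ f)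
  rw [LinearMap.range_eq_top.2 hs, finrank_top, finrank_hom_line (W := Y) hL] at h
  omega

theorem ann_iff (hL : Module.finrank (ZMod p) L = 1) {f : V →ₗ[ZMod p] W →ₗ[ZMod p] L}
    (hf : Function.Surjective f) (X : Submodule (ZMod p) V) (Y : Submodule (ZMod p) W)
    (horth : ∀ x ∈ X, ∀ y ∈ Y, f x y = 0)
    (hdim : Module.finrank (ZMod p) X + Module.finrank (ZMod p) Y = Module.finrank (ZMod p) V)
    (v : V) : v ∈ X ↔ ∀ y ∈ Y, f v y = 0 := by
  have he : X = LinearMap.ker (LinearMap.lcomp (ZMod p) L Y.subtype ∘ₗ f) :=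
    Submodule.eq_of_le_of_finrank_eq (fun x hx => LinearMap.ext fun y => horth x hx y.1 y.2)
      (by have := finrank_ann hL hf Y; omega)
  rw [he, LinearMap.mem_ker]
  exact ⟨fun h y hy => LinearMap.congr_fun h ⟨y, hy⟩, fun h => LinearMap.ext fun y => h y.1 y.2⟩

end Orth

section Euler

/-- `h⁰ + h²` -/
def h02 (q : Nat.Primes) (M : Rep.{0} (ZMod p) GQ) : ℕ :=
  Module.finrank (ZMod p) (lH0 q M) + Module.finrank (ZMod p) (lH2 q M)

theorem finrank_lH0_dual (hM : IsAdm (MonoidHom.id GQ) M) :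
    Module.finrank (ZMod p) (lH0 q (dual' M)) = Module.finrank (ZMod p) (lH2 q M) := by
  haveI := (nondeg_all (q := q) hM).1.fin2
  haveI := finite_lH0 (q := q) (isAdm_dual hM)
  rw [(LinearEquiv.ofBijective _ (pair02_bijective' (q := q) hM).1).finrank_eq,
    finrank_hom_line (finrank_lH2 (p := p) (q := q))]

theorem h02_le (hq : (q : ℕ) ≠ p) (hM : IsAdm (MonoidHom.id GQ) M) :
    h02 q M ≤ Module.finrank (ZMod p) (lH1 q M) := by
  haveI := (nondeg_all (q := q) hM).1.fin1
  haveI := (nondeg_all (q := q) hM).2.fin1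
  have h := finrank_ann (V := lH1 q M) (W := lH1 q (dual' M)) (L := lH2 q (mu p))
    (finrank_lH2 (p := p) (q := q)) (pair11_bijective' hM).1.2 (unr1 q (dual' M))
  have hle : unr1 q M ≤ LinearMap.ker
      (LinearMap.lcomp (ZMod p) (lH2 q (mu p)) (unr1 q (dual' M)).subtype ∘ₗ pair11 q hM) :=
    fun x hx => LinearMap.ext fun y => pair11_unr hq hM hx y.2
  have h' := Submodule.finrank_mono hle
  rw [finrank_unr1' hM] at h'
  rw [finrank_unr1' (isAdm_dual hM), finrank_lH0_dual hM] at h
  rw [h02]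
  omega

theorem euler_add (E : SES (MonoidHom.id GQ) A B C) (aA : IsAdm (MonoidHom.id GQ) A)
    (aC : IsAdm (MonoidHom.id GQ) C) :
    h02 q B + Module.finrank (ZMod p) (lH1 q A) + Module.finrank (ZMod p) (lH1 q C) =
      h02 q A + h02 q C + Module.finrank (ZMod p) (lH1 q B) := by
  set El := locSES q E
  haveI := (nondeg_all (q := q) aA).1.fin1
  haveI := (nondeg_all (q := q) aA).1.fin2
  haveI := (nondeg_all (q := q) aC).1.fin1
  haveI := (nondeg_all (q := q) aC).1.fin2
  haveI := (nondeg_all (q := q) E.adm).1.fin1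
  haveI := (nondeg_all (q := q) E.adm).1.fin2
  haveI := finite_lH0 (q := q) aA
  haveI := finite_lH0 (q := q) aC
  haveI := finite_lH0 (q := q) E.adm
  let i0 : lH0 q A →ₗ[ZMod p] lH0 q B :=
    LinearMap.codRestrict _ (E.i ∘ₗ (lH0 q A).subtype) fun a g => by
      show B.ρ (loc q g) (E.i a.1) = E.i a.1
      rw [← E.i_eqv]
      exact congrArg E.i (a.2 g)
  let p0 : lH0 q B →ₗ[ZMod p] lH0 q C :=
    LinearMap.codRestrict _ (E.pr ∘ₗ (lH0 q B).subtype) fun b g => by
      show C.ρ (loc q g) (E.pr b.1) = E.pr b.1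
      rw [← E.pr_eqv]
      exact congrArg E.pr (b.2 g)
  have x0 : LinearMap.ker i0 = ⊥ :=
    LinearMap.ker_eq_bot.2 fun a b h => Subtype.ext (E.inj (congrArg Subtype.val h))
  have x1 : LinearMap.range i0 = LinearMap.ker p0 := by
    refine le_antisymm ?_ fun b hb => ?_
    · rintro _ ⟨a, rfl⟩
      exact LinearMap.mem_ker.2 (Subtype.ext ((E.exact _).2 ⟨a.1, rfl⟩))
    · obtain ⟨a, ha⟩ := (E.exact b.1).1 (congrArg Subtype.val (LinearMap.mem_ker.1 hb))
      refine ⟨⟨a, fun g => E.inj ?_⟩, Subtype.ext ha⟩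
      show E.i (A.ρ (loc q g) a) = E.i a
      rw [E.i_eqv, ha]
      exact b.2 g
  have x2 : LinearMap.range p0 = LinearMap.ker El.del0 := by
    refine le_antisymm ?_ fun c hc => ?_
    · rintro _ ⟨b, rfl⟩
      exact LinearMap.mem_ker.2 ((El.ker_del0 _).2 ⟨b.1, b.2, rfl⟩)
    · obtain ⟨b, hb, he⟩ := (El.ker_del0 c).1 (LinearMap.mem_ker.1 hc)
      exact ⟨⟨b, hb⟩, Subtype.ext he⟩
  have x8 : LinearMap.range (h2push (loc q) El.pr El.pr_eqv) = ⊤ :=
    LinearMap.range_eq_top.2 (lH2_surjective' E.adm aC E.pr E.pr_eqv E.surj)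
  have e1 := LinearMap.finrank_range_add_finrank_ker i0
  have e2 := LinearMap.finrank_range_add_finrank_ker p0
  have e3 := LinearMap.finrank_range_add_finrank_ker El.del0
  have e4 := LinearMap.finrank_range_add_finrank_ker (h1push (loc q) El.i El.i_eqv)
  have e5 := LinearMap.finrank_range_add_finrank_ker (h1push (loc q) El.pr El.pr_eqv)
  have e6 := LinearMap.finrank_range_add_finrank_ker El.del1
  have e7 := LinearMap.finrank_range_add_finrank_ker (h2push (loc q) El.i El.i_eqv)
  have e8 := LinearMap.finrank_range_add_finrank_ker (h2push (loc q) El.pr El.pr_eqv)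
  rw [x0, finrank_bot] at e1
  rw [← x1] at e2
  rw [← x2] at e3
  rw [← El.range_del0] at e4
  rw [← El.exact_h1] at e5
  rw [El.ker_del1] at e6
  rw [← El.range_del1] at e7
  rw [← El.exact_h2, x8, finrank_top] at e8
  simp only [h02, lH0, lH1, lH2] at *
  omega

theorem euler_away' (hq : (q : ℕ) ≠ p) (hM : IsAdm (MonoidHom.id GQ) M) :
    Module.finrank (ZMod p) (lH1 q M) = h02 q M := by
  refine adm_induction (fun M => Module.finrank (ZMod p) (lH1 q M) = h02 q M) ?_ ?_ ?_ ?_ M hM
  · intro M aM hsub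
    haveI : Subsingleton (Z1 (loc q) (Rep.res (loc q) M)) :=
      ⟨fun a b => Subtype.ext (funext fun _ => Subsingleton.elim (α := M) _ _)⟩
    haveI : Subsingleton (levelCocycles₂ (loc q) (Rep.res (loc q) M)) :=
      ⟨fun a b => Subtype.ext (funext fun _ => Subsingleton.elim (α := M) _ _)⟩
    haveI : Subsingleton (lH1 q M) := (Submodule.mkQ_surjective _).subsingleton
    haveI : Subsingleton (lH2 q M) := (Submodule.mkQ_surjective _).subsingleton
    rw [h02, Module.finrank_zero_of_subsingleton, Module.finrank_zero_of_subsingleton,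
      Module.finrank_zero_of_subsingleton]
  · intro H hH hω
    haveI := hH.finite_quotient
    set P := ind H (one p)
    let u : dual' P →ₗ[ZMod p] P := untwistMu hω ∘ₗ permDual H
    have hu : ∀ g f, u ((dual' P).ρ g f) = P.ρ g (u f) := fun g f => by
      show untwistMu hω (permDual H _) = _
      rw [permDual_eqv, untwistMu_eqv]
      rfl
    have hub : Function.Bijective u := (Function.bijective_iff_has_inverse.2
      ⟨twistMu hω, twist_untwist hω, untwist_twist hω⟩).comp permDual_bijective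
    let e := LinearEquiv.ofBijective u hub
    have hmap : (lH0 q (dual' P)).map (e : dual' P →ₗ[ZMod p] P) = lH0 q P := by
      refine le_antisymm ?_ fun w hw => ?_
      · rintro _ ⟨f, hf, rfl⟩ g
        show P.ρ (loc q g) (u f) = u f
        rw [← hu]
        exact congrArg u (hf g)
      · refine ⟨e.symm w, fun g => e.injective ?_, e.apply_symm_apply w⟩
        show u ((dual' P).ρ (loc q g) (e.symm w)) = e (e.symm w)
        rw [hu, e.apply_symm_apply]
        show P.ρ (loc q g) (e (e.symm w)) = w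
        rw [e.apply_symm_apply]
        exact hw g
    have h0 : Module.finrank (ZMod p) (lH0 q P) = Nat.card (repsQ q H) := by
      rw [← finrank_lH0_dual_perm (p := p) hH hω, ← hmap,
        ← (e.submoduleMap (lH0 q (dual' P))).finrank_eq]
    rw [h02, h0, finrank_lH2_perm hH hω, finrank_lH1_perm' hH hω, if_neg hq, card_repsQ]
    omega
  · intro A B C E aA aC hA hC
    have := euler_add (q := q) E aA aC
    omega
  · intro A B i s aA aB hi hs hsi hB
    let Kρ : Representation (ZMod p) GQ (LinearMap.ker s) :=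
      { toFun := fun g => (B.ρ g).restrict fun b hb => by
          rw [LinearMap.mem_ker] at hb ⊢
          rw [hs, hb, map_zero]
        map_one' := LinearMap.ext fun b => Subtype.ext (by
          show B.ρ 1 b.1 = b.1
          rw [map_one]; rfl)
        map_mul' := fun g h => LinearMap.ext fun b => Subtype.ext (by
          show B.ρ (g * h) b.1 = B.ρ g (B.ρ h b.1)
          rw [map_mul]; rfl) }
    let K : Rep.{0} (ZMod p) GQ := Rep.of Kρ
    let pr : B →ₗ[ZMod p] K := LinearMap.codRestrict (LinearMap.ker s) (LinearMap.id - i ∘ₗ s)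
      fun b => by
        rw [LinearMap.mem_ker]
        show s (b - i (s b)) = 0
        rw [map_sub, hsi, sub_self]
    have hpr : ∀ g b, pr (B.ρ g b) = K.ρ g (pr b) := fun g b => Subtype.ext (by
      show B.ρ g b - i (s (B.ρ g b)) = B.ρ g (b - i (s b))
      rw [hs, hi, map_sub])
    let E : SES (MonoidHom.id GQ) A B K :=
      { i := i
        pr := pr
        i_eqv := hi
        pr_eqv := hpr
        inj := Function.LeftInverse.injective hsi
        surj := fun b => ⟨b.1, Subtype.ext (by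
          show b.1 - i (s b.1) = b.1
          rw [LinearMap.mem_ker.1 b.2, map_zero, sub_zero])⟩
        exact := fun b => ⟨fun h => ⟨s b, (sub_eq_zero.1 (congrArg Subtype.val h)).symm⟩, by
          rintro ⟨a, rfl⟩
          exact Subtype.ext (by
            show i a - i (s (i a)) = 0
            rw [hsi, sub_self])⟩
        adm := aB }
    have aK : IsAdm (MonoidHom.id GQ) K := E.adm_right
    have h1 := euler_add (q := q) E aA aK
    have h2 := h02_le hq aA
    have h3 := h02_le hq aK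
    omega

theorem unr1_orth' (hq : (q : ℕ) ≠ p) (hM : IsAdm (MonoidHom.id GQ) M) :
    (∀ x : lH1 q M, x ∈ unr1 q M ↔ ∀ y ∈ unr1 q (dual' M), pair11 q hM x y = 0) ∧
      ∀ y : lH1 q (dual' M), y ∈ unr1 q (dual' M) ↔ ∀ x ∈ unr1 q M, pair11 q hM x y = 0 := by
  haveI := (nondeg_all (q := q) hM).1.fin1
  haveI := (nondeg_all (q := q) hM).2.fin1
  have hb := pair11_bijective' (q := q) hM
  have hd : Module.finrank (ZMod p) (unr1 q M) + Module.finrank (ZMod p) (unr1 q (dual' M)) =
      Module.finrank (ZMod p) (lH1 q M) := by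
    rw [finrank_unr1' hM, finrank_unr1' (isAdm_dual hM), finrank_lH0_dual hM, euler_away' hq hM,
      h02]
  have heq : Module.finrank (ZMod p) (lH1 q (dual' M)) = Module.finrank (ZMod p) (lH1 q M) := by
    rw [(LinearEquiv.ofBijective _ hb.2).finrank_eq,
      finrank_hom_line (W := lH1 q M) (finrank_lH2 (p := p) (q := q))]
  refine ⟨fun x => ann_iff (V := lH1 q M) (W := lH1 q (dual' M)) (L := lH2 q (mu p))
    (finrank_lH2 (p := p) (q := q)) hb.1.2 _ _ (fun x hx y hy => pair11_unr hq hM hx hy) hd x,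
    fun y => ?_⟩
  refine ann_iff (V := lH1 q (dual' M)) (W := lH1 q M) (L := lH2 q (mu p))
    (finrank_lH2 (p := p) (q := q)) hb.2.2 _ _ (fun y hy x hx => pair11_unr hq hM hx hy) ?_ y
  omega

end Euler

end FLTAgent.PT.Loc
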