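import Fermat.Agent.PT.ToolAPI
import Fermat.Agent.PT.Dual.Basic

/-!
Parcel C: formal properties of the cup products and of the maps induced on cohomology.
-/

set_option autoImplicit false
set_option linter.style.haveILetI false
set_option linter.unusedSectionVars false

noncomputable section

open CategoryTheory groupCohomology

namespace FLTAgent.PT.Loc

variable {p : ℕ} [Fact p.Prime] {G : Type} [Group G] {r : G →* GQ} {A B C : Rep.{0} (ZMod p) G}

theorem h1push_h1push (f : A →ₗ[ZMod p] B) (g : B →ₗ[ZMod p] C)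
    (hf : ∀ x a, f (A.ρ x a) = B.ρ x (f a)) (hg : ∀ x b, g (B.ρ x b) = C.ρ x (g b))
    (h : A →ₗ[ZMod p] C) (hh : ∀ x a, h (A.ρ x a) = C.ρ x (h a)) (he : ∀ a, g (f a) = h a)
    (x : cH1 r A) : h1push r g hg (h1push r f hf x) = h1push r h hh x := by
  obtain ⟨z, rfl⟩ := Submodule.mkQ_surjective _ x
  show h1push r g hg (h1push r f hf (h1mk r A z)) = h1push r h hh (h1mk r A z)
  rw [h1map_mk, h1map_mk, h1map_mk]
  exact congrArg (h1mk r C) (Subtype.ext (funext fun _ => he _))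

theorem h2push_h2push (f : A →ₗ[ZMod p] B) (g : B →ₗ[ZMod p] C)
    (hf : ∀ x a, f (A.ρ x a) = B.ρ x (f a)) (hg : ∀ x b, g (B.ρ x b) = C.ρ x (g b))
    (h : A →ₗ[ZMod p] C) (hh : ∀ x a, h (A.ρ x a) = C.ρ x (h a)) (he : ∀ a, g (f a) = h a)
    (x : cH2 r A) : h2push r g hg (h2push r f hf x) = h2push r h hh x := by
  obtain ⟨z, rfl⟩ := Submodule.mkQ_surjective _ x
  show h2push r g hg (h2push r f hf (h2mk r A z)) = h2push r h hh (h2mk r A z)
  rw [continuousH2Map_continuousH2π, continuousH2Map_continuousH2π, continuousH2Map_continuousH2π]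
  exact congrArg (h2mk r C) (Subtype.ext (funext fun _ => he _))

theorem h1push_smul (f : A →ₗ[ZMod p] A) (hf : ∀ x a, f (A.ρ x a) = A.ρ x (f a)) (c : ZMod p)
    (he : ∀ a, f a = c • a) (x : cH1 r A) : h1push r f hf x = c • x := by
  obtain ⟨z, rfl⟩ := Submodule.mkQ_surjective _ x
  show h1push r f hf (h1mk r A z) = c • h1mk r A z
  rw [h1map_mk, ← map_smul]
  exact congrArg (h1mk r A) (Subtype.ext (funext fun _ => he _))

theorem h2push_smul (f : A →ₗ[ZMod p] A) (hf : ∀ x a, f (A.ρ x a) = A.ρ x (f a)) (c : ZMod p)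
    (he : ∀ a, f a = c • a) (x : cH2 r A) : h2push r f hf x = c • x := by
  obtain ⟨z, rfl⟩ := Submodule.mkQ_surjective _ x
  show h2push r f hf (h2mk r A z) = c • h2mk r A z
  rw [continuousH2Map_continuousH2π, ← map_smul]
  exact congrArg (h2mk r A) (Subtype.ext (funext fun _ => he _))

/-- an equivariant isomorphism gives bijections -/
theorem h1push_bijective (f : A →ₗ[ZMod p] B) (g : B →ₗ[ZMod p] A)
    (hf : ∀ x a, f (A.ρ x a) = B.ρ x (f a)) (hg : ∀ x b, g (B.ρ x b) = A.ρ x (g b))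
    (h1 : ∀ a, g (f a) = a) (h2 : ∀ b, f (g b) = b) : Function.Bijective (h1push r f hf) := by
  refine Function.bijective_iff_has_inverse.2 ⟨h1push r g hg, fun x => ?_, fun x => ?_⟩
  · rw [h1push_h1push f g hf hg LinearMap.id (fun _ _ => rfl) h1,
      h1push_smul LinearMap.id (fun _ _ => rfl) 1 (fun a => (one_smul _ a).symm), one_smul]
  · rw [h1push_h1push g f hg hf LinearMap.id (fun _ _ => rfl) h2,
      h1push_smul LinearMap.id (fun _ _ => rfl) 1 (fun a => (one_smul _ a).symm), one_smul]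

theorem h2push_bijective (f : A →ₗ[ZMod p] B) (g : B →ₗ[ZMod p] A)
    (hf : ∀ x a, f (A.ρ x a) = B.ρ x (f a)) (hg : ∀ x b, g (B.ρ x b) = A.ρ x (g b))
    (h1 : ∀ a, g (f a) = a) (h2 : ∀ b, f (g b) = b) : Function.Bijective (h2push r f hf) := by
  refine Function.bijective_iff_has_inverse.2 ⟨h2push r g hg, fun x => ?_, fun x => ?_⟩
  · rw [h2push_h2push f g hf hg LinearMap.id (fun _ _ => rfl) h1,
      h2push_smul LinearMap.id (fun _ _ => rfl) 1 (fun a => (one_smul _ a).symm), one_smul]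
  · rw [h2push_h2push g f hg hf LinearMap.id (fun _ _ => rfl) h2,
      h2push_smul LinearMap.id (fun _ _ => rfl) 1 (fun a => (one_smul _ a).symm), one_smul]

section Cup

variable {φ : A →ₗ[ZMod p] B →ₗ[ZMod p] C} (hφ : IsEqv φ)

/-- antisymmetry -/
theorem cupH_flip (hA : IsAdm r A) (hB : IsAdm r B) (φ' : B →ₗ[ZMod p] A →ₗ[ZMod p] C)
    (hφ' : IsEqv φ') (h : ∀ a b, φ' b a = φ a b) (x : cH1 r A) (y : cH1 r B) :
    cupH r φ hφ hB x y + cupH r φ' hφ' hA y x = 0 := by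
  obtain ⟨z, rfl⟩ := Submodule.mkQ_surjective _ x
  obtain ⟨w, rfl⟩ := Submodule.mkQ_surjective _ y
  change cupH r φ hφ hB (h1mk r A z) (h1mk r B w) + cupH r φ' hφ' hA (h1mk r B w) (h1mk r A z) = 0
  rw [cupH_mk, cupH_mk, ← map_add]
  refine (continuousH2π_eq_zero_iff r C _).2 ((mem_levelCoboundaries₂_iff r C _).2
    ⟨fun g => -φ (z.1 g) (w.1 g), ?_, ?_⟩)
  · obtain ⟨F, hF, hz⟩ := z.2.2
    obtain ⟨F', hF', hw⟩ := w.2.2
    haveI := hF; haveI := hF'
    exact ⟨F ⊔ F', inferInstance, fun g s hs => by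
      show -φ (z.1 (g * s)) (w.1 (g * s)) = -φ (z.1 g) (w.1 g)
      rw [hz g s (IntermediateField.fixingSubgroup_antitone le_sup_left hs),
        hw g s (IntermediateField.fixingSubgroup_antitone le_sup_right hs)]⟩
  have hz := (mem_cocycles₁_def _).1 z.2.1
  have hw := (mem_cocycles₁_def _).1 w.2.1
  funext ⟨g, k⟩
  have e1 : z.1 (g * k) = A.ρ g (z.1 k) + z.1 g := by
    linear_combination (norm := module) -(hz g k)
  have e2 : w.1 (g * k) = B.ρ g (w.1 k) + w.1 g := by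
    linear_combination (norm := module) -(hw g k)
  rw [d₁₂_hom_apply]
  show C.ρ g (-φ (z.1 k) (w.1 k)) - -φ (z.1 (g * k)) (w.1 (g * k)) + -φ (z.1 g) (w.1 g) =
    φ (z.1 g) (B.ρ g (w.1 k)) + φ' (w.1 g) (A.ρ g (z.1 k))
  rw [h, map_neg, ← hφ, e1, e2]
  simp only [map_add, LinearMap.add_apply]
  abel

/-- the projection formula -/
theorem cupH_proj {A' B' C' : Rep.{0} (ZMod p) G} {φ' : A' →ₗ[ZMod p] B' →ₗ[ZMod p] C'}
    (hφ' : IsEqv φ') (hB : IsAdm r B) (hB' : IsAdm r B')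
    (a : A →ₗ[ZMod p] A') (ha : ∀ g x, a (A.ρ g x) = A'.ρ g (a x))
    (b : B' →ₗ[ZMod p] B) (hb : ∀ g x, b (B'.ρ g x) = B.ρ g (b x))
    (c : C' →ₗ[ZMod p] C) (hc : ∀ g x, c (C'.ρ g x) = C.ρ g (c x))
    (h : ∀ x y, c (φ' (a x) y) = φ x (b y)) (x : cH1 r A) (y : cH1 r B') :
    h2push r c hc (cupH r φ' hφ' hB' (h1push r a ha x) y) =
      cupH r φ hφ hB x (h1push r b hb y) := by
  obtain ⟨u, rfl⟩ := Submodule.mkQ_surjective _ x
  obtain ⟨v, rfl⟩ := Submodule.mkQ_surjective _ y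
  show h2push r c hc (cupH r φ' hφ' hB' (h1push r a ha (h1mk r A u)) (h1mk r B' v)) =
    cupH r φ hφ hB (h1mk r A u) (h1push r b hb (h1mk r B' v))
  rw [h1map_mk, h1map_mk, cupH_mk, cupH_mk, continuousH2Map_continuousH2π]
  congr 1
  refine Subtype.ext (funext fun g => ?_)
  show c (φ' (a (u.1 g.1)) (B'.ρ g.1 (v.1 g.2))) = φ (u.1 g.1) (B.ρ g.1 (b (v.1 g.2)))
  rw [h, hb]

/-- the projection formula in degrees 0 and 2 -/
theorem cupH02_proj {A' B' C' : Rep.{0} (ZMod p) G} {φ' : A' →ₗ[ZMod p] B' →ₗ[ZMod p] C'}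
    (hφ' : IsEqv φ')
    (a : A →ₗ[ZMod p] A') (ha : ∀ g x, a (A.ρ g x) = A'.ρ g (a x))
    (b : B' →ₗ[ZMod p] B) (hb : ∀ g x, b (B'.ρ g x) = B.ρ g (b x))
    (c : C' →ₗ[ZMod p] C) (hc : ∀ g x, c (C'.ρ g x) = C.ρ g (c x))
    (h : ∀ x y, c (φ' (a x) y) = φ x (b y)) (m : cH0 A) (y : cH2 r B') :
    h2push r c hc (cupH02 r φ' hφ' ⟨a m.1, fun g => by rw [← ha, m.2 g]⟩ y) =
      cupH02 r φ hφ m (h2push r b hb y) := by
  obtain ⟨v, rfl⟩ := Submodule.mkQ_surjective _ y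
  show h2push r c hc (h2mk r C' ⟨cup02 φ' (a m.1) v.1, _⟩) = h2mk r C ⟨cup02 φ m.1 (b ∘ v.1), _⟩
  rw [continuousH2Map_continuousH2π]
  congr 1
  exact Subtype.ext (funext fun g => h _ _)

end Cup

end FLTAgent.PT.Loc
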