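import Mathlib

/-!
Parcel A: index arithmetic in commutative groups; the Herbrand quotient of two endomorphisms does
not change on a subgroup of finite index.
-/

set_option autoImplicit false

namespace FLTAgent.PT.Loc

variable {G : Type*} [CommGroup G] {A B : Subgroup G}

/-- the index of a subgroup through an endomorphism -/
@[to_additive]
theorem relIndex_eq_map_mul_ker (f : G →* G) (h : B ≤ A) :
    B.relIndex A = (B.map f).relIndex (A.map f) * B.relIndex (f.ker ⊓ A) := by
  have h1 : (B.map f).relIndex (A.map f) = (B ⊔ f.ker ⊓ A).relIndex A := by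
    rw [Subgroup.relIndex_map_map, ← show A ⊔ (B ⊔ f.ker) = A ⊔ f.ker by
      rw [← sup_assoc, sup_eq_left.2 h], Subgroup.relIndex_sup_right,
      ← Subgroup.inf_relIndex_right, sup_inf_assoc_of_le f.ker h]
  rw [h1, ← Subgroup.relIndex_sup_left (K := B) (H := f.ker ⊓ A), mul_comm,
    Subgroup.relIndex_mul_relIndex _ _ _ le_sup_left (sup_le h inf_le_right)]

/-- `(A : f A) = (B : f B) · #(ker f ∩ A)` when `f` is injective on `B` -/
@[to_additive addRelIndex_map_of_injOn]
theorem relIndex_map_of_injOn (f : G →* G) (h : B ≤ A) (hfA : A.map f ≤ A) (hfB : B.map f ≤ B)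
    (hinj : f.ker ⊓ B = ⊥) (hfin : B.relIndex A ≠ 0) :
    (A.map f).relIndex A = (B.map f).relIndex B * Nat.card (f.ker ⊓ A : Subgroup G) := by
  have hk : B.relIndex (f.ker ⊓ A) = Nat.card (f.ker ⊓ A : Subgroup G) := by
    rw [← Subgroup.inf_relIndex_right B (f.ker ⊓ A), ← inf_assoc, inf_comm B, hinj, bot_inf_eq,
      Subgroup.relIndex_bot_left]
  have h1 := relIndex_eq_map_mul_ker f h
  rw [hk] at h1
  have h2 := Subgroup.relIndex_mul_relIndex (B.map f) B A hfB h
  have h3 := Subgroup.relIndex_mul_relIndex (B.map f) (A.map f) A (Subgroup.map_mono h) hfA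
  have hne : (B.map f).relIndex (A.map f) ≠ 0 := fun h0 => hfin (by rw [h1, h0, zero_mul])
  refine mul_left_cancel₀ hne ?_
  rw [h3, ← h2, h1]
  ring

/-- two endomorphisms killing each other: the two Tate indices agree as soon as they are one on a
subgroup of finite index -/
theorem tate_index_eq (f g : G →* G) (h : B ≤ A) (hfA : A.map f ≤ g.ker ⊓ A)
    (hgA : A.map g ≤ f.ker ⊓ A) (hfB : B.map f = g.ker ⊓ B) (hgB : B.map g = f.ker ⊓ B)
    (hfin : B.relIndex A ≠ 0) :
    (A.map g).relIndex (f.ker ⊓ A) = (A.map f).relIndex (g.ker ⊓ A) := by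
  have key : ∀ f g : G →* G, A.map g ≤ f.ker ⊓ A → B.map g = f.ker ⊓ B →
      (B.map g).relIndex (A.map g) * (A.map g).relIndex (f.ker ⊓ A) = B.relIndex (f.ker ⊓ A) := by
    intro f g hgA hgB
    rw [Subgroup.relIndex_mul_relIndex _ _ _ (Subgroup.map_mono h) hgA, hgB,
      ← Subgroup.inf_relIndex_right B (f.ker ⊓ A)]
    congr 1
    rw [← inf_assoc, inf_comm B, inf_assoc, inf_eq_left.2 h]
  have hf := relIndex_eq_map_mul_ker f h
  have hg := relIndex_eq_map_mul_ker g h
  have kf := key f g hgA hgB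
  have kg := key g f hfA hfB
  have hne : (B.map f).relIndex (A.map f) * (B.map g).relIndex (A.map g) ≠ 0 :=
    mul_ne_zero (fun h0 => hfin (by rw [hf, h0, zero_mul]))
      (fun h0 => hfin (by rw [hg, h0, zero_mul]))
  refine mul_left_cancel₀ hne ?_
  rw [mul_assoc, kf, ← hf, mul_comm ((B.map f).relIndex (A.map f)), mul_assoc, kg, ← hg]

end FLTAgent.PT.Loc
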