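import Fermat.Agent.PT.Local.Dense
import Fermat.Agent.PT.Local.Index

/-!
Parcel A: the fixed fields of the open subgroups of the local Galois group.
-/

set_option autoImplicit false
set_option linter.style.haveILetI false

noncomputable section

open IntermediateField

namespace FLTAgent.PT.Loc

variable {q : Nat.Primes} {U : Subgroup (Gam q)}

/-- open for the levels of `Gam q` -/
abbrev OpenU (q : Nat.Primes) (U : Subgroup (Gam q)) : Prop :=
  ∃ F : IntermediateField ℚ (AlgebraicClosure ℚ), FiniteDimensional ℚ F ∧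
    F.fixingSubgroup.comap (loc q) ≤ U

/-- the fixed field -/
def KF (U : Subgroup (Gam q)) : IntermediateField (Qq q) (Cq q) :=
  fixedField (U.map (toAut q).toMonoidHom)

theorem mem_KF {x : Cq q} : x ∈ KF U ↔ ∀ u ∈ U, toAut q u x = x := by
  rw [KF, mem_fixedField_iff]
  exact ⟨fun h u hu => h _ ⟨u, hu, rfl⟩, fun h _ ⟨u, hu, e⟩ => e ▸ h u hu⟩

theorem KF_anti {V : Subgroup (Gam q)} (h : V ≤ U) : KF U ≤ KF V := fun _ hx =>
  mem_KF.2 fun u hu => mem_KF.1 hx u (h hu)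

theorem toAut_mul (g h : Gam q) (x : Cq q) : toAut q (g * h) x = toAut q g (toAut q h x) := by
  rw [map_mul]; rfl

theorem toAut_inv_apply (g : Gam q) (x : Cq q) : toAut q g⁻¹ (toAut q g x) = x := by
  rw [← toAut_mul, inv_mul_cancel, map_one]; rfl

instance isGalois_Cq : IsGalois (Qq q) (Cq q) := ⟨⟩

theorem KF_top : KF (⊤ : Subgroup (Gam q)) = ⊥ := by
  rw [KF, ← InfiniteGalois.fixedField_fixingSubgroup (⊥ : IntermediateField (Qq q) (Cq q)),
    fixingSubgroup_bot]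
  congr 1
  exact Subgroup.map_top_of_surjective _ (toAut q).surjective

/-- the field of a level -/
theorem fixer_adjoin_le (F : IntermediateField ℚ (AlgebraicClosure ℚ)) {g : Gam q}
    (hg : toAut q g ∈ (adjoin (Qq q) (iota q '' (F : Set (AlgebraicClosure ℚ)))).fixingSubgroup) :
    loc q g ∈ F.fixingSubgroup := by
  rw [IntermediateField.mem_fixingSubgroup_iff] at hg ⊢
  intro x hx
  refine (iota q).toRingHom.injective ?_
  show iota q _ = iota q x
  rw [iota_loc]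
  exact hg _ (subset_adjoin _ _ ⟨x, hx, rfl⟩)

theorem finiteDim_adjoin_iota (F : IntermediateField ℚ (AlgebraicClosure ℚ))
    [FiniteDimensional ℚ F] :
    FiniteDimensional (Qq q) (adjoin (Qq q) (iota q '' (F : Set (AlgebraicClosure ℚ)))) := by
  classical
  let b := Module.finBasis ℚ F
  let T : Set (Cq q) := Set.range fun i => iota q (b i : AlgebraicClosure ℚ)
  have hT : T.Finite := Set.finite_range _
  haveI := hT.to_subtype
  haveI : FiniteDimensional (Qq q) (adjoin (Qq q) T) :=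
    finiteDimensional_adjoin fun x _ => Algebra.IsIntegral.isIntegral x
  suffices h : adjoin (Qq q) (iota q '' (F : Set (AlgebraicClosure ℚ))) ≤ adjoin (Qq q) T from
    Module.Finite.of_injective (inclusion h).toLinearMap (inclusion_injective h)
  rw [adjoin_le_iff]
  rintro _ ⟨x, hx, rfl⟩
  have h := congrArg (fun t : F => iota q (t : AlgebraicClosure ℚ)) (b.sum_repr ⟨x, hx⟩)
  simp only [AddSubmonoidClass.coe_finsetSum, SetLike.val_smul, map_sum] at h
  rw [SetLike.mem_coe, ← h]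
  refine sum_mem fun i _ => ?_
  rw [Rat.smul_def, map_mul, map_ratCast]
  exact mul_mem (SubfieldClass.ratCast_mem _ _) (subset_adjoin _ _ ⟨i, rfl⟩)

theorem finiteDim_KF (hU : OpenU q U) : FiniteDimensional (Qq q) (KF U) := by
  obtain ⟨F, hF, hle⟩ := hU
  haveI := hF
  haveI := finiteDim_adjoin_iota (q := q) F
  have h : KF U ≤ adjoin (Qq q) (iota q '' (F : Set (AlgebraicClosure ℚ))) := by
    conv_rhs => rw [← InfiniteGalois.fixedField_fixingSubgroup (adjoin (Qq q) _)]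
    intro x hx
    rw [mem_fixedField_iff]
    intro τ hτ
    obtain ⟨g, rfl⟩ := (toAut q).surjective τ
    exact mem_KF.1 hx g (hle (fixer_adjoin_le F hτ))
  exact Module.Finite.of_injective (inclusion h).toLinearMap (inclusion_injective h)

/-- the Galois correspondence -/
theorem mem_of_fix_KF (hU : OpenU q U) {g : Gam q} (hg : ∀ x ∈ KF U, toAut q g x = x) : g ∈ U := by
  obtain ⟨F, hF, hle⟩ := hU
  haveI := hF
  haveI := finiteDim_adjoin_iota (q := q) F
  have ho : IsOpen ((U.map (toAut q).toMonoidHom : Subgroup _) : Set (Cq q ≃ₐ[Qq q] Cq q)) := by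
    refine Subgroup.isOpen_mono ?_
      (fixingSubgroup_isOpen (adjoin (Qq q) (iota q '' (F : Set (AlgebraicClosure ℚ)))))
    intro τ hτ
    obtain ⟨u, rfl⟩ := (toAut q).surjective τ
    exact ⟨u, hle (fixer_adjoin_le F hτ), rfl⟩
  have h : toAut q g ∈ (fixedField (U.map (toAut q).toMonoidHom)).fixingSubgroup :=
    (IntermediateField.mem_fixingSubgroup_iff _ _).2 hg
  rw [InfiniteGalois.fixingSubgroup_fixedField ⟨_, Subgroup.isClosed_of_isOpen _ ho⟩] at h
  obtain ⟨u, hu, he⟩ := h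
  rwa [← (toAut q).injective he]

/-- the embedding of the fixed field at a coset -/
def embU (x : Gam q ⧸ U) : KF U →ₐ[Qq q] Cq q :=
  Quotient.liftOn' x (fun a => (toAut q a).toAlgHom.comp (KF U).val) fun a b hab =>
    AlgHom.ext fun y => by
      rw [QuotientGroup.leftRel_apply] at hab
      show toAut q a (y : Cq q) = toAut q b (y : Cq q)
      conv_lhs => rw [← mem_KF.1 y.2 _ hab]
      rw [← toAut_mul, mul_inv_cancel_left]

theorem embU_bijective (hU : OpenU q U) :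
    Function.Bijective (embU : Gam q ⧸ U → (KF U →ₐ[Qq q] Cq q)) := by
  refine ⟨fun x y h => ?_, fun f => ?_⟩
  · induction x using QuotientGroup.induction_on with
    | H a =>
      induction y using QuotientGroup.induction_on with
      | H b =>
        rw [QuotientGroup.eq]
        refine mem_of_fix_KF hU fun z hz => ?_
        have h1 : toAut q a z = toAut q b z := DFunLike.congr_fun h ⟨z, hz⟩
        rw [toAut_mul, ← h1, toAut_inv_apply]
  · have hg : ∀ y : KF U, f.liftNormal (Cq q) (y : Cq q) = f y := fun y =>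
      f.liftNormal_commutes (Cq q) y
    obtain ⟨g, he⟩ := (toAut q).surjective
      (AlgEquiv.ofBijective _ (Algebra.IsAlgebraic.algHom_bijective (f.liftNormal (Cq q))))
    refine ⟨(g : Gam q ⧸ U), AlgHom.ext fun y => ?_⟩
    show toAut q g (y : Cq q) = f y
    rw [he]
    exact hg y

theorem finrank_KF (hU : OpenU q U) : Module.finrank (Qq q) (KF U) = U.index := by
  haveI := finiteDim_KF hU
  rw [Subgroup.index_eq_card, Nat.card_congr (Equiv.ofBijective _ (embU_bijective hU)),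
    Nat.card_eq_fintype_card, AlgHom.card]

theorem index_ne_zero (hU : OpenU q U) : U.index ≠ 0 := by
  haveI := finiteDim_KF hU
  rw [← finrank_KF hU]
  exact Module.finrank_pos.ne'

/-- the bounded parts of the fixed fields are compact -/
theorem isCompact_KF (hU : OpenU q U) (R : ℝ) :
    IsCompact {x : Cq q | x ∈ KF U ∧ ‖x‖ ≤ R} := by
  haveI : FiniteDimensional (Qq q) (KF U).toSubalgebra.toSubmodule := finiteDim_KF hU
  haveI : ProperSpace (KF U).toSubalgebra.toSubmodule := FiniteDimensional.proper (Qq q) _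
  have h := (isCompact_closedBall (0 : (KF U).toSubalgebra.toSubmodule) R).image
    continuous_subtype_val
  convert h using 1
  ext x
  simp only [Set.mem_ofPred_eq, Set.mem_image, Metric.mem_closedBall, dist_zero_right]
  exact ⟨fun hx => ⟨⟨x, hx.1⟩, hx.2, rfl⟩, fun ⟨y, hy, e⟩ => e ▸ ⟨y.2, hy⟩⟩

/-- finitely many classes modulo small elements -/
theorem exists_finite_net (hU : OpenU q U) (R : ℝ) {r : ℝ} (hr : 0 < r) :
    ∃ t : Set (Cq q), t.Finite ∧ ∀ x ∈ KF U, ‖x‖ ≤ R → ∃ y ∈ t, ‖x - y‖ < r := by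
  obtain ⟨t, -, htf, ht⟩ := finite_cover_balls_of_compact (isCompact_KF hU R) hr
  refine ⟨t, htf, fun x hx hxR => ?_⟩
  obtain ⟨y, hy, hxy⟩ := Set.mem_iUnion₂.1 (ht ⟨hx, hxR⟩)
  exact ⟨y, hy, by rwa [Metric.mem_ball, dist_eq_norm] at hxy⟩

/-- a uniformiser -/
theorem exists_uniformiser (hU : OpenU q U) :
    ∃ π ∈ KF U, 0 < ‖π‖ ∧ ‖π‖ < 1 ∧ ∀ x ∈ KF U, x ≠ 0 → ∃ k : ℤ, ‖x‖ = ‖π‖ ^ k := by
  classical
  have hq : ‖((q : ℕ) : Cq q)‖ = ((q : ℕ) : ℝ)⁻¹ := by
    rw [← map_natCast (algebraMap (Qq q) (Cq q)), norm_algebraMap', Padic.norm_p]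
  have hq0 : (0 : ℝ) < ((q : ℕ) : ℝ)⁻¹ := inv_pos.2 (by exact_mod_cast q.2.pos)
  have hq1 : ((q : ℕ) : ℝ)⁻¹ < 1 := inv_lt_one_of_one_lt₀ (by exact_mod_cast q.2.one_lt)
  obtain ⟨t, htf, ht⟩ := exists_finite_net hU 1 hq0
  let S : Finset ℝ := (htf.toFinset.image fun y => ‖y‖).filter fun s =>
    s < 1 ∧ ∃ x ∈ KF U, ‖x‖ = s ∧ 0 < s
  have hSq : ∀ x ∈ KF U, ((q : ℕ) : ℝ)⁻¹ ≤ ‖x‖ → ‖x‖ < 1 → ‖x‖ ∈ S := by
    intro x hx h1 h2
    obtain ⟨y, hy, hxy⟩ := ht x hx h2.le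
    have e : ‖y‖ = ‖x‖ := by
      rw [show y = x + -(x - y) by ring]
      refine (IsUltrametricDist.norm_add_eq_max_of_norm_ne_norm ?_).trans (max_eq_left ?_)
      · rw [norm_neg]; exact (ne_of_gt (lt_of_lt_of_le hxy h1))
      · rw [norm_neg]; exact (lt_of_lt_of_le hxy h1).le
    simp only [S, Finset.mem_filter, Finset.mem_image, Set.Finite.mem_toFinset]
    exact ⟨⟨y, hy, e⟩, h2, x, hx, rfl, lt_of_lt_of_le hq0 h1⟩
  have hqK : ((q : ℕ) : Cq q) ∈ KF U := _root_.natCast_mem _ _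
  have hSne : S.Nonempty := ⟨_, hSq _ hqK hq.ge (hq ▸ hq1)⟩
  obtain ⟨-, hm1, π, hπK, hπ, hπ0⟩ : S.max' hSne ∈ htf.toFinset.image (fun y => ‖y‖) ∧
      S.max' hSne < 1 ∧ ∃ x ∈ KF U, ‖x‖ = S.max' hSne ∧ 0 < S.max' hSne :=
    Finset.mem_filter.1 (S.max'_mem hSne)
  rw [← hπ] at hπ0 hm1
  have hmax : ∀ x ∈ KF U, ‖x‖ < 1 → ‖x‖ ≤ ‖π‖ := by
    intro x hx hx1
    rcases le_or_gt ((q : ℕ) : ℝ)⁻¹ ‖x‖ with h | h
    · rw [hπ]; exact S.le_max' _ (hSq x hx h hx1)
    · refine h.le.trans ?_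
      rw [← hq, hπ]
      exact S.le_max' _ (hSq _ hqK hq.ge (hq ▸ hq1))
  refine ⟨π, hπK, hπ0, hm1, fun x hx hx0 => ?_⟩
  obtain ⟨k, hk1, hk2⟩ := exists_mem_Ioc_zpow (norm_pos_iff.2 hx0) (one_lt_inv₀ hπ0 |>.2 hm1)
  -- `(1/‖π‖)^k < ‖x‖ ≤ (1/‖π‖)^(k+1)`
  refine ⟨-(k + 1), le_antisymm ?_ ?_⟩
  · rwa [zpow_neg, ← inv_zpow]
  · have hy : ‖x * π ^ (k + 1)‖ ≤ 1 := by
      rw [norm_mul, norm_zpow]
      calc ‖x‖ * ‖π‖ ^ (k + 1) ≤ ‖π‖⁻¹ ^ (k + 1) * ‖π‖ ^ (k + 1) :=
            mul_le_mul_of_nonneg_right hk2 (zpow_nonneg hπ0.le _)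
        _ = 1 := by rw [← mul_zpow, inv_mul_cancel₀ hπ0.ne', one_zpow]
    rcases eq_or_lt_of_le hy with h | h
    · rw [norm_mul, norm_zpow] at h
      rw [zpow_neg, ← eq_inv_of_mul_eq_one_left h]
    · exfalso
      have h' := hmax _ (mul_mem hx (zpow_mem hπK _)) h
      rw [norm_mul, norm_zpow, zpow_add_one₀ hπ0.ne', ← mul_assoc] at h'
      have h'' : ‖x‖ * ‖π‖ ^ k ≤ 1 := le_of_mul_le_mul_right (by rwa [one_mul]) hπ0
      rw [inv_zpow] at hk1
      have h3 : (1 : ℝ) < ‖x‖ * ‖π‖ ^ k := by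
        rwa [← inv_lt_iff_one_lt_mul₀ (zpow_pos hπ0 _)]
      linarith

end FLTAgent.PT.Loc
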