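import Fermat.Agent.PT.Local.Cup
import Fermat.Agent.PT.Local.Field

/-!
Parcel C: the modules induced from the open subgroups of the local Galois group; evaluation at the
trivial coset, sums over the fibres and pullbacks.
-/

set_option autoImplicit false
set_option linter.style.haveILetI false
set_option linter.unusedSectionVars false

noncomputable section

open CategoryTheory groupCohomology

namespace FLTAgent.PT.Loc

variable {p : ℕ} [Fact p.Prime] {q : Nat.Primes} {U U' : Subgroup (Gam q)}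
  {N : Rep.{0} (ZMod p) GQ}

/-- the map of an open subgroup to the global group -/
abbrev rU (U : Subgroup (Gam q)) : U →* GQ := (loc q).comp U.subtype

/-- the module `Map(Gam q / U, N)` -/
abbrev Ind (U : Subgroup (Gam q)) (N : Rep.{0} (ZMod p) GQ) : Rep.{0} (ZMod p) (Gam q) :=
  ind U (Rep.res (loc q) N)

theorem isAdm_Ind (hU : OpenU q U) (hN : IsAdm (MonoidHom.id GQ) N) : IsAdm (loc q) (Ind U N) :=
  isAdm_ind hU (hN.res _)

theorem finite_quot (hU : OpenU q U) : Finite (Gam q ⧸ U) := finite_quotient_of_open hU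

theorem fix_one {u : Gam q} (hu : u ∈ U) : u • ((1 : Gam q) : Gam q ⧸ U) = ((1 : Gam q) : Gam q ⧸ U) := by
  rw [MulAction.Quotient.smul_mk, smul_eq_mul, mul_one, QuotientGroup.eq, mul_one]
  exact inv_mem hu

/-- evaluation at the trivial coset -/
def proj1 (U : Subgroup (Gam q)) (N : Rep.{0} (ZMod p) GQ) : Ind U N →ₗ[ZMod p] N :=
  LinearMap.proj ((1 : Gam q) : Gam q ⧸ U)

theorem proj1_apply (a : Ind U N) : proj1 U N a = a ((1 : Gam q) : Gam q ⧸ U) := rfl

theorem proj1_eqv (u : U) (a : Ind U N) :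
    (proj1 U N : Ind U N →ₗ[ZMod p] Rep.res (rU U) N) ((Ind U N).ρ (U.subtype u) a) =
      (Rep.res (rU U) N).ρ u (proj1 U N a) := by
  show N.ρ (loc q u) (a ((u : Gam q)⁻¹ • ((1 : Gam q) : Gam q ⧸ U))) = N.ρ (loc q u) _
  rw [fix_one (inv_mem u.2)]
  rfl

/-- the comparison with the classes of `U` in degree 1 -/
def ev1 (U : Subgroup (Gam q)) (N : Rep.{0} (ZMod p) GQ) :
    cH1 (loc q) (Ind U N) →ₗ[ZMod p] cH1 (rU U) (Rep.res (rU U) N) :=
  h1map (loc q) U.subtype (fun _ => rfl) (proj1 U N) proj1_eqv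

/-- the comparison with the classes of `U` in degree 2 -/
def ev2 (U : Subgroup (Gam q)) (N : Rep.{0} (ZMod p) GQ) :
    cH2 (loc q) (Ind U N) →ₗ[ZMod p] cH2 (rU U) (Rep.res (rU U) N) :=
  continuousH2Map (rH := loc q) (rG := rU U) U.subtype (fun _ => rfl) (proj1 U N) proj1_eqv

/-- the trivial coset alone -/
theorem isOrbitReps_one_coset (U : Subgroup (Gam q)) :
    IsOrbitReps (MonoidHom.id (Gam q)) U {((1 : Gam q) : Gam q ⧸ U)} := by
  intro x
  refine ⟨⟨_, rfl⟩, ?_, fun y _ => Subtype.ext y.2⟩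
  induction x using QuotientGroup.induction_on with
  | H a => exact ⟨a, by rw [MonoidHom.id_apply, MulAction.Quotient.smul_mk, smul_eq_mul, mul_one]⟩

theorem stabAt_one (U : Subgroup (Gam q)) :
    stabAt (MonoidHom.id (Gam q)) U ((1 : Gam q) : Gam q ⧸ U) = U := by
  ext g
  show g • ((1 : Gam q) : Gam q ⧸ U) = _ ↔ _
  rw [MulAction.Quotient.smul_mk, smul_eq_mul, mul_one, QuotientGroup.eq, mul_one, inv_mem_iff]

theorem ev1_aux (hU : OpenU q U) (hN : IsAdm (MonoidHom.id GQ) N) (S : Subgroup (Gam q))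
    (hS : stabAt (MonoidHom.id (Gam q)) U ((1 : Gam q) : Gam q ⧸ U) = S)
    (h : ∀ (u : S) (a : Ind U N),
      (proj1 U N : Ind U N →ₗ[ZMod p] Rep.res ((loc q).comp S.subtype) N)
        ((Ind U N).ρ (S.subtype u) a) = (Rep.res ((loc q).comp S.subtype) N).ρ u (proj1 U N a)) :
    Function.Bijective (h1map (loc q) (r' := (loc q).comp S.subtype) S.subtype (fun _ => rfl)
      (A := Ind U N) (B := Rep.res ((loc q).comp S.subtype) N) (proj1 U N) h) := by
  subst hS
  have hb := shap1_bijective (f := MonoidHom.id (Gam q)) (H := U) (N := Rep.res (loc q) N)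
    (r := loc q) (r' := loc q) (fun _ => rfl) hU (hN.res _) (isOrbitReps_one_coset U)
  exact (Equiv.piUnique (fun x : ({((1 : Gam q) : Gam q ⧸ U)} : Set (Gam q ⧸ U)) =>
    cH1 ((loc q).comp (stabAt (MonoidHom.id (Gam q)) U x.1).subtype)
      (Rep.res ((MonoidHom.id (Gam q)).comp (stabAt (MonoidHom.id (Gam q)) U x.1).subtype)
        (Rep.res (loc q) N)))).bijective.comp hb

theorem ev1_bijective (hU : OpenU q U) (hN : IsAdm (MonoidHom.id GQ) N) :
    Function.Bijective (ev1 U N) :=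
  ev1_aux hU hN U (stabAt_one U) proj1_eqv

theorem ev2_aux (hU : OpenU q U) (hN : IsAdm (MonoidHom.id GQ) N) (S : Subgroup (Gam q))
    (hS : stabAt (MonoidHom.id (Gam q)) U ((1 : Gam q) : Gam q ⧸ U) = S)
    (h : ∀ (u : S) (a : Ind U N),
      (proj1 U N : Ind U N →ₗ[ZMod p] Rep.res ((loc q).comp S.subtype) N)
        ((Ind U N).ρ (S.subtype u) a) = (Rep.res ((loc q).comp S.subtype) N).ρ u (proj1 U N a)) :
    Function.Bijective (continuousH2Map (rH := loc q) (rG := (loc q).comp S.subtype) S.subtype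
      (fun _ => rfl) (A := Ind U N) (B := Rep.res ((loc q).comp S.subtype) N) (proj1 U N) h) := by
  subst hS
  have hb := shap2_bijective (f := MonoidHom.id (Gam q)) (H := U) (N := Rep.res (loc q) N)
    (r := loc q) (r' := loc q) (fun _ => rfl) hU (hN.res _) (isOrbitReps_one_coset U)
  exact (Equiv.piUnique (fun x : ({((1 : Gam q) : Gam q ⧸ U)} : Set (Gam q ⧸ U)) =>
    cH2 ((loc q).comp (stabAt (MonoidHom.id (Gam q)) U x.1).subtype)
      (Rep.res ((MonoidHom.id (Gam q)).comp (stabAt (MonoidHom.id (Gam q)) U x.1).subtype)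
        (Rep.res (loc q) N)))).bijective.comp hb

theorem ev2_bijective (hU : OpenU q U) (hN : IsAdm (MonoidHom.id GQ) N) :
    Function.Bijective (ev2 U N) :=
  ev2_aux hU hN U (stabAt_one U) proj1_eqv

section Maps

/-- the projection of cosets -/
def qproj (h : U' ≤ U) : Gam q ⧸ U' → Gam q ⧸ U :=
  Quotient.map' id fun a b hab => by
    rw [QuotientGroup.leftRel_apply] at hab ⊢
    exact h hab

theorem qproj_mk (h : U' ≤ U) (a : Gam q) : qproj h (a : Gam q ⧸ U') = (a : Gam q ⧸ U) := rfl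

theorem qproj_smul (h : U' ≤ U) (g : Gam q) (x : Gam q ⧸ U') :
    qproj h (g • x) = g • qproj h x := by
  induction x using QuotientGroup.induction_on with
  | H a => rfl

theorem qproj_qproj {U'' : Subgroup (Gam q)} (h : U'' ≤ U') (h' : U' ≤ U) (x : Gam q ⧸ U'') :
    qproj h' (qproj h x) = qproj (h.trans h') x := by
  induction x using QuotientGroup.induction_on with
  | H a => rfl

/-- the pullback -/
def pullInd (h : U' ≤ U) : Ind U N →ₗ[ZMod p] Ind U' N :=
  LinearMap.funLeft (ZMod p) N (qproj h)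

theorem pullInd_apply (h : U' ≤ U) (f : Ind U N) (x : Gam q ⧸ U') :
    pullInd h f x = f (qproj h x) := rfl

theorem pullInd_eqv (h : U' ≤ U) (g : Gam q) (f : Ind U N) :
    pullInd h ((Ind U N).ρ g f) = (Ind U' N).ρ g (pullInd h f) := by
  funext x
  show N.ρ (loc q g) (f (g⁻¹ • qproj h x)) = N.ρ (loc q g) (f (qproj h (g⁻¹ • x)))
  rw [qproj_smul]

/-- pullback in degree 1 -/
abbrev pull1 (h : U' ≤ U) : cH1 (loc q) (Ind U N) →ₗ[ZMod p] cH1 (loc q) (Ind U' N) :=
  h1push (loc q) (pullInd h) (pullInd_eqv h)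

/-- pullback in degree 2 -/
abbrev pull2 (h : U' ≤ U) : cH2 (loc q) (Ind U N) →ₗ[ZMod p] cH2 (loc q) (Ind U' N) :=
  h2push (loc q) (pullInd h) (pullInd_eqv h)

theorem incl_eqv (h : U' ≤ U) (u : U') (a : Rep.res (rU U) N) :
    (LinearMap.id : N →ₗ[ZMod p] N) ((Rep.res (rU U) N).ρ (Subgroup.inclusion h u) a) =
      (Rep.res (rU U') N).ρ u a := rfl

/-- restriction to a smaller subgroup in degree 1 -/
abbrev resU1 (h : U' ≤ U) :
    cH1 (rU U) (Rep.res (rU U) N) →ₗ[ZMod p] cH1 (rU U') (Rep.res (rU U') N) :=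
  h1map (rU U) (Subgroup.inclusion h) (fun _ => rfl) LinearMap.id (incl_eqv h)

/-- restriction to a smaller subgroup in degree 2 -/
abbrev resU2 (h : U' ≤ U) :
    cH2 (rU U) (Rep.res (rU U) N) →ₗ[ZMod p] cH2 (rU U') (Rep.res (rU U') N) :=
  continuousH2Map (rH := rU U) (rG := rU U') (Subgroup.inclusion h) (fun _ => rfl) LinearMap.id
    (incl_eqv h)

theorem ev1_pull (h : U' ≤ U) (x : cH1 (loc q) (Ind U N)) :
    ev1 U' N (pull1 h x) = resU1 h (ev1 U N x) := by
  obtain ⟨z, rfl⟩ := Submodule.mkQ_surjective _ x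
  rfl

theorem ev2_pull (h : U' ≤ U) (x : cH2 (loc q) (Ind U N)) :
    ev2 U' N (pull2 h x) = resU2 h (ev2 U N x) := by
  obtain ⟨z, rfl⟩ := Submodule.mkQ_surjective _ x
  rfl

variable [Finite (Gam q ⧸ U')]

/-- the sum over the fibres -/
def fibSum (h : U' ≤ U) : Ind U' N →ₗ[ZMod p] Ind U N := by
  classical
  letI := Fintype.ofFinite (Gam q ⧸ U')
  exact
  { toFun := fun f y => ∑ x ∈ Finset.univ.filter (fun x => qproj h x = y), f x
    map_add' := fun f f' => funext fun y => Finset.sum_add_distrib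
    map_smul' := fun c f => funext fun y => by simp [Finset.smul_sum] }

theorem fibSum_apply [Fintype (Gam q ⧸ U')] [DecidableEq (Gam q ⧸ U)] (h : U' ≤ U) (f : Ind U' N)
    (y : Gam q ⧸ U) :
    fibSum h f y = ∑ x ∈ Finset.univ.filter (fun x => qproj h x = y), f x := by
  show Finset.sum _ _ = _
  convert rfl

theorem fibSum_eqv (h : U' ≤ U) (g : Gam q) (f : Ind U' N) :
    fibSum h ((Ind U' N).ρ g f) = (Ind U N).ρ g (fibSum h f) := by
  classical
  letI := Fintype.ofFinite (Gam q ⧸ U')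
  funext y
  rw [fibSum_apply]
  show ∑ x ∈ _, N.ρ (loc q g) (f (g⁻¹ • x)) = N.ρ (loc q g) (fibSum h f (g⁻¹ • y))
  rw [fibSum_apply, map_sum]
  refine Finset.sum_bij' (fun x _ => g⁻¹ • x) (fun x _ => g • x) (fun x hx => ?_) (fun x hx => ?_)
    (fun x _ => smul_inv_smul g x) (fun x _ => inv_smul_smul g x) (fun x _ => rfl)
  · simp only [Finset.mem_filter, Finset.mem_univ, true_and, qproj_smul] at hx ⊢
    rw [hx]
  · simp only [Finset.mem_filter, Finset.mem_univ, true_and, qproj_smul] at hx ⊢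
    rw [hx, smul_inv_smul]

/-- the sum over the fibres in degree 1 -/
abbrev fib1 (h : U' ≤ U) : cH1 (loc q) (Ind U' N) →ₗ[ZMod p] cH1 (loc q) (Ind U N) :=
  h1push (loc q) (fibSum h) (fibSum_eqv h)

/-- the sum over the fibres in degree 2 -/
abbrev fib2 (h : U' ≤ U) : cH2 (loc q) (Ind U' N) →ₗ[ZMod p] cH2 (loc q) (Ind U N) :=
  h2push (loc q) (fibSum h) (fibSum_eqv h)

theorem card_fibre [Fintype (Gam q ⧸ U')] [DecidableEq (Gam q ⧸ U)] (hU : OpenU q U') (h : U' ≤ U)
    (y : Gam q ⧸ U) :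
    (Finset.univ.filter (fun x : Gam q ⧸ U' => qproj h x = y)).card = U'.relIndex U := by
  haveI : Finite (Gam q ⧸ U) := finite_quot (hU.imp fun _ e => ⟨e.1, e.2.trans h⟩)
  letI := Fintype.ofFinite (Gam q ⧸ U)
  have hall : ∀ y' : Gam q ⧸ U, (Finset.univ.filter (fun x : Gam q ⧸ U' => qproj h x = y')).card =
      (Finset.univ.filter (fun x : Gam q ⧸ U' => qproj h x = y)).card := by
    intro y'
    induction y using QuotientGroup.induction_on with
    | H a =>
      induction y' using QuotientGroup.induction_on with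
      | H b =>
        refine Finset.card_bij' (fun x _ => (a * b⁻¹) • x) (fun x _ => (a * b⁻¹)⁻¹ • x)
          (fun x hx => ?_) (fun x hx => ?_) (fun x _ => inv_smul_smul _ x) (fun x _ => smul_inv_smul _ x)
        · simp only [Finset.mem_filter, Finset.mem_univ, true_and, qproj_smul] at hx ⊢
          rw [hx, MulAction.Quotient.smul_mk, smul_eq_mul, inv_mul_cancel_right]
        · simp only [Finset.mem_filter, Finset.mem_univ, true_and, qproj_smul] at hx ⊢
          rw [hx, MulAction.Quotient.smul_mk, smul_eq_mul, mul_inv_rev, inv_inv,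
            inv_mul_cancel_right]
  have h1 := Finset.card_eq_sum_card_fiberwise (f := qproj h)
    (s := (Finset.univ : Finset (Gam q ⧸ U'))) (t := Finset.univ) fun _ _ => Finset.mem_univ _
  rw [Finset.sum_congr rfl fun y' _ => hall y', Finset.sum_const, Finset.card_univ,
    Finset.card_univ, smul_eq_mul, ← Nat.card_eq_fintype_card, ← Nat.card_eq_fintype_card,
    ← Subgroup.index_eq_card, ← Subgroup.index_eq_card, ← Subgroup.relIndex_mul_index h,
    mul_comm] at h1
  refine Nat.eq_of_mul_eq_mul_left (Nat.pos_of_ne_zero fun h0 => ?_) h1.symm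
  exact index_ne_zero (hU.imp fun _ e => ⟨e.1, e.2.trans h⟩) h0

theorem fibSum_pullInd (hU : OpenU q U') (h : U' ≤ U) (f : Ind U N) :
    fibSum h (pullInd h f) = (U'.relIndex U : ZMod p) • f := by
  classical
  letI := Fintype.ofFinite (Gam q ⧸ U')
  funext y
  rw [fibSum_apply, Finset.sum_congr rfl fun x hx => by
    rw [pullInd_apply, (Finset.mem_filter.1 hx).2], Finset.sum_const, card_fibre hU h,
    Pi.smul_apply, Nat.cast_smul_eq_nsmul]

theorem fib2_pull2 (hU : OpenU q U') (h : U' ≤ U) (x : cH2 (loc q) (Ind U N)) :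
    fib2 h (pull2 h x) = (U'.relIndex U : ZMod p) • x := by
  rw [h2push_h2push (pullInd h) (fibSum h) (pullInd_eqv h) (fibSum_eqv h)
    (fibSum h ∘ₗ pullInd h) (fun g a => by
      rw [LinearMap.comp_apply, LinearMap.comp_apply, pullInd_eqv, fibSum_eqv]) (fun _ => rfl)]
  exact h2push_smul _ _ _ (fun a => fibSum_pullInd hU h a) x

theorem fib1_pull1 (hU : OpenU q U') (h : U' ≤ U) (x : cH1 (loc q) (Ind U N)) :
    fib1 h (pull1 h x) = (U'.relIndex U : ZMod p) • x := by
  rw [h1push_h1push (pullInd h) (fibSum h) (pullInd_eqv h) (fibSum_eqv h)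
    (fibSum h ∘ₗ pullInd h) (fun g a => by
      rw [LinearMap.comp_apply, LinearMap.comp_apply, pullInd_eqv, fibSum_eqv]) (fun _ => rfl)]
  exact h1push_smul _ _ _ (fun a => fibSum_pullInd hU h a) x

theorem fibSum_fibSum {U'' : Subgroup (Gam q)} [Finite (Gam q ⧸ U'')] (h : U'' ≤ U') (h' : U' ≤ U)
    (f : Ind U'' N) : fibSum h' (fibSum h f) = fibSum (h.trans h') f := by
  classical
  letI := Fintype.ofFinite (Gam q ⧸ U')
  letI := Fintype.ofFinite (Gam q ⧸ U'')
  funext y
  rw [fibSum_apply, fibSum_apply, Finset.sum_congr rfl fun z _ => fibSum_apply h f z]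
  rw [← Finset.sum_biUnion (fun a _ b _ hab => by
    simp only [Function.onFun, Finset.disjoint_left, Finset.mem_filter]
    exact fun x hx hx' => hab (hx.2.symm.trans hx'.2))]
  refine Finset.sum_congr ?_ fun _ _ => rfl
  ext x
  simp only [Finset.mem_biUnion, Finset.mem_filter, Finset.mem_univ, true_and]
  exact ⟨fun ⟨z, hz, hx⟩ => by rw [← qproj_qproj h h', hx, hz],
    fun hx => ⟨qproj h x, by rw [qproj_qproj, hx], rfl⟩⟩

theorem fib2_fib2 {U'' : Subgroup (Gam q)} [Finite (Gam q ⧸ U'')] (h : U'' ≤ U') (h' : U' ≤ U)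
    (x : cH2 (loc q) (Ind U'' N)) : fib2 h' (fib2 h x) = fib2 (h.trans h') x :=
  h2push_h2push _ _ _ _ _ _ (fibSum_fibSum h h') x

theorem indSum_fibSum [Finite (Gam q ⧸ U)] (h : U' ≤ U) (f : Ind U' N) :
    indSum U (Rep.res (loc q) N) (fibSum h f) = indSum U' (Rep.res (loc q) N) f := by
  classical
  letI := Fintype.ofFinite (Gam q ⧸ U')
  letI := Fintype.ofFinite (Gam q ⧸ U)
  show (@Finset.sum _ _ _ (@Finset.univ _ (Fintype.ofFinite _)) fun y => fibSum h f y) =
    @Finset.sum _ _ _ (@Finset.univ _ (Fintype.ofFinite _)) fun x => f x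
  rw [Finset.sum_congr rfl fun z _ => fibSum_apply h f z]
  exact Finset.sum_fiberwise _ _ _

end Maps

section Sum

variable [Finite (Gam q ⧸ U)]

theorem indSum_Ind_eqv (g : Gam q) (f : Ind U N) :
    indSum U (Rep.res (loc q) N) ((Ind U N).ρ g f) =
      (Rep.res (loc q) N).ρ g (indSum U (Rep.res (loc q) N) f) := by
  classical
  letI := Fintype.ofFinite (Gam q ⧸ U)
  show (@Finset.sum _ _ _ (@Finset.univ _ (Fintype.ofFinite _)) fun y => N.ρ (loc q g) (f (g⁻¹ • y))) =
    N.ρ (loc q g) (@Finset.sum _ _ _ (@Finset.univ _ (Fintype.ofFinite _)) fun y => f y)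
  rw [map_sum]
  exact Equiv.sum_comp (MulAction.toPerm g⁻¹) (fun y => N.ρ (loc q g) (f y))

/-- corestriction to the whole group in degree 2 -/
abbrev eps2 (U : Subgroup (Gam q)) [Finite (Gam q ⧸ U)] (N : Rep.{0} (ZMod p) GQ) :
    cH2 (loc q) (Ind U N) →ₗ[ZMod p] lH2 q N :=
  h2push (loc q) (indSum U (Rep.res (loc q) N)) indSum_Ind_eqv

/-- corestriction to the whole group in degree 1 -/
abbrev eps1 (U : Subgroup (Gam q)) [Finite (Gam q ⧸ U)] (N : Rep.{0} (ZMod p) GQ) :
    cH1 (loc q) (Ind U N) →ₗ[ZMod p] lH1 q N :=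
  h1push (loc q) (indSum U (Rep.res (loc q) N)) indSum_Ind_eqv

theorem eps2_fib2 {U' : Subgroup (Gam q)} [Finite (Gam q ⧸ U')] (h : U' ≤ U)
    (x : cH2 (loc q) (Ind U' N)) : eps2 U N (fib2 h x) = eps2 U' N x :=
  h2push_h2push _ _ _ _ _ _ (indSum_fibSum h) x

end Sum

end FLTAgent.PT.Loc
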