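import Fermat.Agent.PT.Local.Field

/-!
Parcel A: the index of the `p`-th powers in the multiplicative group of a fixed field.
-/

set_option autoImplicit false
set_option linter.style.haveILetI false

noncomputable section

namespace FLTAgent.PT.Loc

variable {q : Nat.Primes} (U : Subgroup (Gam q))

/-- the nonzero elements of the fixed field -/
def Km : Subgroup (Cq q)ˣ where
  carrier := {x | (x : Cq q) ∈ KF U}
  one_mem' := one_mem (KF U)
  mul_mem' {a b} ha hb := by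
    show ((a * b : (Cq q)ˣ) : Cq q) ∈ KF U
    rw [Units.val_mul]
    exact mul_mem ha hb
  inv_mem' {a} ha := by
    show ((a⁻¹ : (Cq q)ˣ) : Cq q) ∈ KF U
    rw [Units.val_inv_eq_inv_val]
    exact inv_mem ha

/-- the units -/
def U0 : Subgroup (Cq q)ˣ where
  carrier := {x | (x : Cq q) ∈ KF U ∧ ‖(x : Cq q)‖ = 1}
  one_mem' := ⟨one_mem (KF U), norm_one⟩
  mul_mem' ha hb := ⟨mul_mem ha.1 hb.1, by rw [Units.val_mul, norm_mul, ha.2, hb.2, one_mul]⟩
  inv_mem' {a} ha := ⟨by rw [Units.val_inv_eq_inv_val]; exact inv_mem ha.1,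
    by rw [Units.val_inv_eq_inv_val, norm_inv, ha.2, inv_one]⟩

theorem norm_eq_one_of_near {x : Cq q} (h : ‖x - 1‖ < 1) : ‖x‖ = 1 := by
  have h' := IsUltrametricDist.norm_add_eq_max_of_norm_ne_norm (x := x - 1) (y := (1 : Cq q))
    (by rw [norm_one]; exact h.ne)
  rwa [sub_add_cancel, norm_one, max_eq_right h.le] at h'

/-- the units close to one -/
def ballM (r : ℝ) (hr0 : 0 ≤ r) (hr1 : r < 1) : Subgroup (Cq q)ˣ where
  carrier := {x | (x : Cq q) ∈ KF U ∧ ‖(x : Cq q) - 1‖ ≤ r}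
  one_mem' := ⟨one_mem (KF U), by simpa using hr0⟩
  mul_mem' {a b} ha hb := ⟨mul_mem ha.1 hb.1, by
    rw [Units.val_mul,
      show (a : Cq q) * b - 1 = (a : Cq q) * ((b : Cq q) - 1) + ((a : Cq q) - 1) by ring]
    refine (IsUltrametricDist.norm_add_le_max _ _).trans (max_le ?_ ha.2)
    rw [norm_mul, norm_eq_one_of_near (lt_of_le_of_lt ha.2 hr1), one_mul]
    exact hb.2⟩
  inv_mem' {a} ha := ⟨by rw [Units.val_inv_eq_inv_val]; exact inv_mem ha.1, by
    rw [Units.val_inv_eq_inv_val,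
      show (a : Cq q)⁻¹ - 1 = -((a : Cq q)⁻¹ * ((a : Cq q) - 1)) by
        rw [mul_sub, inv_mul_cancel₀ a.ne_zero, mul_one]; ring,
      norm_neg, norm_mul, norm_inv, norm_eq_one_of_near (lt_of_le_of_lt ha.2 hr1), inv_one, one_mul]
    exact ha.2⟩

/-- the bounded additive subgroups -/
def ballA (r : ℝ) (hr0 : 0 ≤ r) : AddSubgroup (Cq q) where
  carrier := {x | x ∈ KF U ∧ ‖x‖ ≤ r}
  zero_mem' := ⟨zero_mem (KF U), by simpa using hr0⟩
  add_mem' ha hb := ⟨add_mem ha.1 hb.1,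
    (IsUltrametricDist.norm_add_le_max _ _).trans (max_le ha.2 hb.2)⟩
  neg_mem' ha := ⟨neg_mem ha.1, by rw [norm_neg]; exact ha.2⟩

variable {U}

theorem mem_ballM {r : ℝ} {hr0 : 0 ≤ r} {hr1 : r < 1} {x : (Cq q)ˣ} :
    x ∈ ballM U r hr0 hr1 ↔ (x : Cq q) ∈ KF U ∧ ‖(x : Cq q) - 1‖ ≤ r := Iff.rfl

theorem mem_ballA {r : ℝ} {hr0 : 0 ≤ r} {x : Cq q} :
    x ∈ ballA U r hr0 ↔ x ∈ KF U ∧ ‖x‖ ≤ r := Iff.rfl

theorem ballM_le_U0 {r : ℝ} (hr0 : 0 ≤ r) (hr1 : r < 1) : ballM U r hr0 hr1 ≤ U0 U :=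
  fun _ hx => ⟨hx.1, norm_eq_one_of_near (lt_of_le_of_lt hx.2 hr1)⟩

theorem U0_le_Km : U0 U ≤ Km U := fun _ hx => hx.1

theorem norm_natCast_le_one (n : ℕ) : ‖(n : Cq q)‖ ≤ 1 := IsUltrametricDist.norm_natCast_le_one _ n

theorem relIndex_ballM_ne_zero (hU : OpenU q U) {r : ℝ} (hr : 0 < r) (hr1 : r < 1) :
    (ballM U r hr.le hr1).relIndex (U0 U) ≠ 0 := by
  obtain ⟨t, htf, ht⟩ := exists_finite_net hU 1 hr
  haveI := htf.to_subtype
  choose y hy hxy using fun x : U0 U => ht _ x.2.1 x.2.2.le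
  haveI : Finite (U0 U ⧸ (ballM U r hr.le hr1).subgroupOf (U0 U)) :=
    Finite.of_injective (fun c => (⟨y c.out, hy _⟩ : t)) fun a b hab => by
      rw [← a.out_eq', ← b.out_eq', QuotientGroup.eq, Subgroup.mem_subgroupOf, mem_ballM]
      refine ⟨(((a.out)⁻¹ * b.out : U0 U)).2.1, ?_⟩
      have e : y a.out = y b.out := congrArg Subtype.val hab
      have hd : ‖((b.out.1 : (Cq q)ˣ) : Cq q) - ((a.out.1 : (Cq q)ˣ) : Cq q)‖ ≤ r := by
        rw [show ((b.out.1 : (Cq q)ˣ) : Cq q) - ((a.out.1 : (Cq q)ˣ) : Cq q) =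
          (((b.out.1 : (Cq q)ˣ) : Cq q) - y b.out) + -(((a.out.1 : (Cq q)ˣ) : Cq q) - y a.out) by
            rw [e]; ring]
        exact (IsUltrametricDist.norm_add_le_max _ _).trans
          (max_le (hxy _).le (by rw [norm_neg]; exact (hxy _).le))
      simp only [Subgroup.coe_mul, Subgroup.coe_inv, Units.val_mul, Units.val_inv_eq_inv_val]
      rw [show ((a.out.1 : (Cq q)ˣ) : Cq q)⁻¹ * ((b.out.1 : (Cq q)ˣ) : Cq q) - 1 =
        ((a.out.1 : (Cq q)ˣ) : Cq q)⁻¹ * (((b.out.1 : (Cq q)ˣ) : Cq q) - ((a.out.1 : (Cq q)ˣ) : Cq q)) by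
          rw [mul_sub, inv_mul_cancel₀ a.out.1.ne_zero], norm_mul, norm_inv, a.out.2.2, inv_one,
        one_mul]
      exact hd
  exact Subgroup.index_ne_zero_of_finite

theorem relIndex_ballA_ne_zero (hU : OpenU q U) (R : ℝ) (hR : 0 ≤ R) {r : ℝ} (hr : 0 < r) :
    (ballA U r hr.le).relIndex (ballA U R hR) ≠ 0 := by
  obtain ⟨t, htf, ht⟩ := exists_finite_net hU R hr
  haveI := htf.to_subtype
  choose y hy hxy using fun x : ballA U R hR => ht _ x.2.1 x.2.2
  haveI : Finite (ballA U R hR ⧸ (ballA U r hr.le).addSubgroupOf (ballA U R hR)) :=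
    Finite.of_injective (fun c => (⟨y c.out, hy _⟩ : t)) fun a b hab => by
      rw [← a.out_eq', ← b.out_eq', QuotientAddGroup.eq, AddSubgroup.mem_addSubgroupOf, mem_ballA]
      refine ⟨((-a.out + b.out : ballA U R hR)).2.1, ?_⟩
      have e : y a.out = y b.out := congrArg Subtype.val hab
      simp only [AddSubgroup.coe_add, AddSubgroup.coe_neg]
      rw [show -((a.out : ballA U R hR) : Cq q) + ((b.out : ballA U R hR) : Cq q) =
        (((b.out : ballA U R hR) : Cq q) - y b.out) + -(((a.out : ballA U R hR) : Cq q) - y a.out) by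
          rw [e]; ring]
      exact (IsUltrametricDist.norm_add_le_max _ _).trans
        (max_le (hxy _).le (by rw [norm_neg]; exact (hxy _).le))
  exact AddSubgroup.index_ne_zero_of_finite

/-- the multiplicative and additive indices agree near one -/
theorem relIndex_ballM_eq {r s : ℝ} (hr0 : 0 ≤ r) (hr1 : r < 1) (hs0 : 0 ≤ s) (hs1 : s < 1) :
    (ballM U s hs0 hs1).relIndex (ballM U r hr0 hr1) =
      (ballA U s hs0).relIndex (ballA U r hr0) := by
  let e : ballM U r hr0 hr1 ≃ ballA U r hr0 :=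
    { toFun := fun x => ⟨((x : (Cq q)ˣ) : Cq q) - 1, sub_mem x.2.1 (one_mem _), x.2.2⟩
      invFun := fun y => ⟨Units.mk0 ((y : Cq q) + 1) fun h => by
          have h' := y.2.2
          rw [eq_neg_of_add_eq_zero_left h, norm_neg, norm_one] at h'
          linarith,
        add_mem y.2.1 (one_mem _), by simpa using y.2.2⟩
      left_inv := fun x => Subtype.ext (Units.ext (by simp))
      right_inv := fun y => Subtype.ext (by simp) }
  refine Nat.card_congr (Quotient.congr e fun a b => ?_)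
  simp only [QuotientGroup.leftRel_apply, QuotientAddGroup.leftRel_apply]
  rw [Subgroup.mem_subgroupOf, AddSubgroup.mem_addSubgroupOf, mem_ballM, mem_ballA]
  simp only [e, Equiv.coe_fn_mk, Subgroup.coe_mul, Subgroup.coe_inv, Units.val_mul,
    Units.val_inv_eq_inv_val, AddSubgroup.coe_add, AddSubgroup.coe_neg]
  have hid : -((((a : (Cq q)ˣ)) : Cq q) - 1) + (((b : (Cq q)ˣ) : Cq q) - 1) =
      ((a : (Cq q)ˣ) : Cq q) * (((a : (Cq q)ˣ) : Cq q)⁻¹ * ((b : (Cq q)ˣ) : Cq q) - 1) := by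
    rw [mul_sub, ← mul_assoc, mul_inv_cancel₀ (a : (Cq q)ˣ).ne_zero]; ring
  rw [hid, norm_mul, norm_eq_one_of_near (lt_of_le_of_lt a.2.2 hr1), one_mul]
  refine and_congr_left fun _ => ⟨fun h => ?_, fun _ => mul_mem (inv_mem a.2.1) b.2.1⟩
  rw [← hid]
  exact add_mem (neg_mem (sub_mem a.2.1 (one_mem _))) (sub_mem b.2.1 (one_mem _))

/-- the first order expansion of a power -/
theorem norm_pow_sub_linear {y : Cq q} (hy : ‖y‖ ≤ 1) (n : ℕ) :
    ‖(1 + y) ^ n - 1 - n * y‖ ≤ ‖y‖ ^ 2 := by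
  induction n with
  | zero => simp
  | succ n ih =>
    rw [show (1 + y) ^ (n + 1) - 1 - ((n + 1 : ℕ) : Cq q) * y =
      ((1 + y) ^ n - 1 - n * y) * (1 + y) + n * y ^ 2 by push_cast; ring]
    refine (IsUltrametricDist.norm_add_le_max _ _).trans (max_le ?_ ?_)
    · rw [norm_mul]
      refine mul_le_of_le_one_right (sq_nonneg _) ?_ |>.trans' (mul_le_mul_of_nonneg_right ih (norm_nonneg _))
      exact (IsUltrametricDist.norm_add_le_max _ _).trans (max_le norm_one.le hy)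
    · rw [norm_mul, norm_pow]
      exact mul_le_of_le_one_left (sq_nonneg _) (norm_natCast_le_one n)

variable {p : ℕ} [Fact p.Prime]

theorem norm_p_pos : 0 < ‖(p : Cq q)‖ := norm_pos_iff.2 (Nat.cast_ne_zero.2 (Fact.out : p.Prime).ne_zero)

theorem norm_pow_sub_one {x : Cq q} (hx : ‖x - 1‖ < ‖(p : Cq q)‖) :
    ‖x ^ p - 1‖ = ‖(p : Cq q)‖ * ‖x - 1‖ := by
  have hy : ‖x - 1‖ ≤ 1 := hx.le.trans (norm_natCast_le_one p)
  have h := norm_pow_sub_linear hy p
  rw [add_sub_cancel] at h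
  rcases eq_or_ne (x - 1) 0 with h0 | h0
  · rw [sub_eq_zero] at h0
    simp [h0]
  have h' : ‖x ^ p - 1 - p * (x - 1)‖ < ‖(p : Cq q) * (x - 1)‖ := by
    rw [norm_mul]
    refine lt_of_le_of_lt h ?_
    rw [pow_two]
    exact mul_lt_mul_of_pos_right hx (norm_pos_iff.2 h0)
  have h'' := IsUltrametricDist.norm_add_eq_max_of_norm_ne_norm h'.ne
  rwa [sub_add_cancel, max_eq_right h'.le, norm_mul] at h''

theorem mul_norm_p_lt_one {r : ℝ} (hr0 : 0 ≤ r) (hrp : r < ‖(p : Cq q)‖) :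
    ‖(p : Cq q)‖ * r < 1 :=
  lt_of_le_of_lt (mul_le_of_le_one_left hr0 (norm_natCast_le_one p))
    (lt_of_lt_of_le hrp (norm_natCast_le_one p))

/-- near one the `p`-th powers are a ball -/
theorem map_pow_ballM (hU : OpenU q U) {r : ℝ} (hr0 : 0 ≤ r) (hrp : r < ‖(p : Cq q)‖) :
    (ballM U r hr0 (lt_of_lt_of_le hrp (norm_natCast_le_one p))).map (powMonoidHom p) =
      ballM U (‖(p : Cq q)‖ * r) (mul_nonneg (norm_nonneg _) hr0) (mul_norm_p_lt_one hr0 hrp) := by
  have hr1 : r < 1 := lt_of_lt_of_le hrp (norm_natCast_le_one p)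
  refine le_antisymm ?_ fun z hz => ?_
  · rintro _ ⟨x, hx, rfl⟩
    refine ⟨pow_mem hx.1 p, ?_⟩
    rw [powMonoidHom_apply, Units.val_pow_eq_pow_val, norm_pow_sub_one (lt_of_le_of_lt hx.2 hrp)]
    exact mul_le_mul_of_nonneg_left hx.2 (norm_nonneg _)
  -- the infimum of the distance to a power is attained and is zero
  set S : Set (Cq q) := {x | x ∈ KF U ∧ ‖x‖ ≤ 1} ∩ {x | ‖x - 1‖ ≤ r}
  have hS : IsCompact S := (isCompact_KF hU 1).inter_right
    (isClosed_le (continuous_norm.comp (continuous_id.sub continuous_const)) continuous_const)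
  have h1S : (1 : Cq q) ∈ S := ⟨⟨one_mem _, norm_one.le⟩, by simpa using hr0⟩
  obtain ⟨x, hxS, hmin⟩ := hS.exists_isMinOn ⟨1, h1S⟩
    (f := fun x => ‖x ^ p - (z : Cq q)‖)
    ((continuous_norm.comp ((continuous_pow p).sub continuous_const)).continuousOn)
  have hx1 : ‖x‖ = 1 := norm_eq_one_of_near (lt_of_le_of_lt hxS.2 hr1)
  have hx0 : x ≠ 0 := norm_ne_zero_iff.1 (by rw [hx1]; exact one_ne_zero)
  suffices h0 : x ^ p = (z : Cq q) from ⟨Units.mk0 x hx0, ⟨hxS.1.1, hxS.2⟩, Units.ext h0⟩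
  by_contra hne
  set d := ‖x ^ p - (z : Cq q)‖ with hd
  have hd0 : 0 < d := norm_pos_iff.2 (sub_ne_zero.2 hne)
  have hdle : d ≤ ‖(p : Cq q)‖ * r := by
    have h := hmin h1S
    simp only [Set.mem_ofPred_eq, one_pow] at h
    refine h.trans ?_
    rw [norm_sub_rev]
    exact hz.2
  set y := ((z : Cq q) / x ^ p - 1) / p with hy
  have hxp : ‖x ^ p‖ = 1 := by rw [norm_pow, hx1, one_pow]
  have hyn : ‖y‖ = d / ‖(p : Cq q)‖ := by
    rw [hy, norm_div, div_sub_one (pow_ne_zero p hx0), norm_div, hxp, div_one, hd, norm_sub_rev]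
  have hyr : ‖y‖ ≤ r := by
    rw [hyn, div_le_iff₀ norm_p_pos]; linarith
  have hyK : y ∈ KF U := div_mem (sub_mem (div_mem hz.1 (pow_mem hxS.1.1 p)) (one_mem _))
    (_root_.natCast_mem _ _)
  have hx'S : x * (1 + y) ∈ S := by
    have e : ‖1 + y‖ = 1 := norm_eq_one_of_near (by simpa using lt_of_le_of_lt hyr hr1)
    refine ⟨⟨mul_mem hxS.1.1 (add_mem (one_mem _) hyK), by rw [norm_mul, hx1, e, one_mul]⟩, ?_⟩
    show ‖x * (1 + y) - 1‖ ≤ r
    rw [show x * (1 + y) - 1 = (x - 1) + x * y by ring]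
    exact (IsUltrametricDist.norm_add_le_max _ _).trans
      (max_le hxS.2 (by rwa [norm_mul, hx1, one_mul]))
  have h := hmin hx'S
  simp only [Set.mem_ofPred_eq] at h
  have he : (x * (1 + y)) ^ p - (z : Cq q) = x ^ p * ((1 + y) ^ p - 1 - p * y) := by
    have hpy : (p : Cq q) * y = (z : Cq q) / x ^ p - 1 := by
      rw [hy]; exact mul_div_cancel₀ _ (Nat.cast_ne_zero.2 (Fact.out : p.Prime).ne_zero)
    rw [hpy, mul_pow]
    field_simp
    ring
  rw [he, norm_mul, hxp, one_mul] at h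
  have h2 := h.trans (norm_pow_sub_linear (hyr.trans hr1.le) p)
  rw [← hd, hyn, div_pow, le_div_iff₀ (pow_pos norm_p_pos 2), pow_two, pow_two] at h2
  have h3 : ‖(p : Cq q)‖ * ‖(p : Cq q)‖ ≤ d := le_of_mul_le_mul_left h2 hd0
  have h4 : ‖(p : Cq q)‖ * r < ‖(p : Cq q)‖ * ‖(p : Cq q)‖ :=
    mul_lt_mul_of_pos_left hrp norm_p_pos
  linarith

theorem map_nsmul_ballA {r : ℝ} (hr0 : 0 ≤ r) :
    (ballA U r hr0).map (nsmulAddMonoidHom p) =
      ballA U (‖(p : Cq q)‖ * r) (mul_nonneg (norm_nonneg _) hr0) := by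
  have hp : (p : Cq q) ≠ 0 := Nat.cast_ne_zero.2 (Fact.out : p.Prime).ne_zero
  refine le_antisymm ?_ fun z hz => ⟨z / p, ⟨div_mem hz.1 (_root_.natCast_mem _ _), ?_⟩, ?_⟩
  · rintro _ ⟨x, hx, rfl⟩
    rw [nsmulAddMonoidHom_apply, nsmul_eq_mul]
    exact ⟨mul_mem (_root_.natCast_mem _ _) hx.1, by
      rw [norm_mul]; exact mul_le_mul_of_nonneg_left hx.2 (norm_nonneg _)⟩
  · rw [norm_div, div_le_iff₀ norm_p_pos, mul_comm]; exact hz.2
  · rw [nsmulAddMonoidHom_apply, nsmul_eq_mul, mul_div_cancel₀ _ hp]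

theorem index_nsmul_padicInt_pi (d : ℕ) :
    ((⊤ : AddSubgroup (Fin d → ℤ_[(q : ℕ)])).map (nsmulAddMonoidHom p)).index =
      if (q : ℕ) = p then p ^ d else 1 := by
  split_ifs with h
  · subst h
    let f : (Fin d → ℤ_[(q : ℕ)]) →+ (Fin d → ZMod (q : ℕ)) :=
      AddMonoidHom.compLeft (PadicInt.toZMod (p := (q : ℕ))).toAddMonoidHom (Fin d)
    have hsur : Function.Surjective f := fun v =>
      ⟨fun i => ((v i).val : ℤ_[(q : ℕ)]), funext fun i => by simp [f]⟩
    have hker : f.ker = (⊤ : AddSubgroup (Fin d → ℤ_[(q : ℕ)])).map (nsmulAddMonoidHom (q : ℕ)) := by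
      refine le_antisymm (fun v hv => ?_) ?_
      · have hv' : ∀ i, ((q : ℕ) : ℤ_[(q : ℕ)]) ∣ v i := fun i => by
          rw [← Ideal.mem_span_singleton, ← PadicInt.maximalIdeal_eq_span_p, ← PadicInt.ker_toZMod,
            RingHom.mem_ker]
          exact congrFun hv i
        choose w hw using hv'
        exact ⟨w, trivial, funext fun i => by rw [hw i]; simp⟩
      · rintro _ ⟨w, -, rfl⟩
        rw [AddMonoidHom.mem_ker, nsmulAddMonoidHom_apply, map_nsmul]
        funext i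
        simp
    rw [← hker, AddSubgroup.index_ker, AddMonoidHom.range_eq_top.2 hsur, AddSubgroup.card_top,
      Nat.card_fun, Nat.card_zmod, Nat.card_eq_fintype_card, Fintype.card_fin]
  · rw [AddSubgroup.index_eq_one, eq_top_iff]
    intro v _
    have hu : IsUnit ((p : ℕ) : ℤ_[(q : ℕ)]) := by
      rw [PadicInt.isUnit_iff, PadicInt.norm_def]
      push_cast
      exact Padic.norm_natCast_eq_one_iff.2 ((Nat.coprime_primes q.2 Fact.out).2 h)
    exact ⟨fun i => hu.unit⁻¹ * v i, trivial, funext fun i => by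
      simp [nsmul_eq_mul, ← mul_assoc]⟩

/-- the index of `p B` in a bounded open subgroup `B` -/
theorem relIndex_nsmul_ballA (hU : OpenU q U) {r : ℝ} (hr : 0 < r) :
    (ballA U (‖(p : Cq q)‖ * r) (mul_nonneg (norm_nonneg _) hr.le)).relIndex (ballA U r hr.le) =
      if (q : ℕ) = p then p ^ U.index else 1 := by
  haveI := finiteDim_KF hU
  let b := Module.finBasis (Qq q) (KF U)
  let φ : (Fin (Module.finrank (Qq q) (KF U)) → ℤ_[(q : ℕ)]) →+ Cq q :=
    AddMonoidHom.mk' (fun c => ((b.equivFun.symm fun i => (c i : Qq q)) : Cq q)) fun c c' => by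
      rw [← AddMemClass.coe_add, ← map_add]
      exact congrArg (fun v => ((b.equivFun.symm v : KF U) : Cq q)) (funext fun i => by simp)
  have hφ : Function.Injective φ := fun c c' h =>
    funext fun i => Subtype.ext (congrFun (b.equivFun.symm.injective (Subtype.ext h)) i)
  -- bounds
  obtain ⟨C, hC0, hC⟩ := (LinearMap.toContinuousLinearMap
    b.equivFun.toLinearMap).bound
  obtain ⟨D, hD0, hD⟩ := (LinearMap.toContinuousLinearMap
    b.equivFun.symm.toLinearMap).bound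
  set N := (⊤ : AddSubgroup (Fin (Module.finrank (Qq q) (KF U)) → ℤ_[(q : ℕ)])).map φ with hN
  have hNle : N ≤ ballA U (max r D) (le_max_of_le_left hr.le) := by
    rintro _ ⟨c, -, rfl⟩
    refine ⟨(b.equivFun.symm _).2, ?_⟩
    refine le_trans (hD _) ?_
    refine le_trans (mul_le_of_le_one_right hD0.le ?_) (le_max_right _ _)
    exact (pi_norm_le_iff_of_nonneg zero_le_one).2 fun i => (c i).2
  have hleN : ballA U C⁻¹ (inv_nonneg.2 hC0.le) ≤ N := by
    intro x hx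
    have hb : ∀ i, ‖b.equivFun ⟨x, hx.1⟩ i‖ ≤ 1 := fun i => by
      refine (norm_le_pi_norm _ i).trans ((hC _).trans ?_)
      calc C * ‖(⟨x, hx.1⟩ : KF U)‖ ≤ C * C⁻¹ := mul_le_mul_of_nonneg_left hx.2 hC0.le
        _ = 1 := mul_inv_cancel₀ hC0.ne'
    exact ⟨fun i => ⟨b.equivFun ⟨x, hx.1⟩ i, hb i⟩, trivial,
      congrArg Subtype.val (b.equivFun.symm_apply_apply ⟨x, hx.1⟩)⟩
  set A := ballA U (max r D) (le_max_of_le_left hr.le) with hA
  have hpA : A.map (nsmulAddMonoidHom p) ≤ A := by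
    rw [hA, map_nsmul_ballA]
    exact fun x hx => ⟨hx.1, hx.2.trans
      (mul_le_of_le_one_left (le_max_of_le_left hr.le) (norm_natCast_le_one p))⟩
  have key : ∀ B ≤ A, B.map (nsmulAddMonoidHom p) ≤ B → B.relIndex A ≠ 0 →
      (A.map (nsmulAddMonoidHom p)).relIndex A = (B.map (nsmulAddMonoidHom p)).relIndex B := by
    intro B hBA hpB hfin
    have hker : (nsmulAddMonoidHom p : Cq q →+ Cq q).ker = ⊥ := by
      rw [AddMonoidHom.ker_eq_bot_iff]
      intro x y hxy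
      simpa [nsmul_eq_mul, (Fact.out : p.Prime).ne_zero] using hxy
    rw [addRelIndex_map_of_injOn _ hBA hpA hpB (by rw [hker, bot_inf_eq]) hfin, hker, bot_inf_eq]
    simp
  have hNfin : N.relIndex A ≠ 0 := fun h =>
    relIndex_ballA_ne_zero hU _ (le_max_of_le_left hr.le) (inv_pos.2 hC0)
      (AddSubgroup.relIndex_eq_zero_of_le_left hleN h)
  have hpN : N.map (nsmulAddMonoidHom p) ≤ N := by
    rintro _ ⟨_, ⟨c, -, rfl⟩, rfl⟩
    exact ⟨p • c, trivial, map_nsmul _ _ _⟩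
  have hpB : (ballA U r hr.le).map (nsmulAddMonoidHom p) ≤ ballA U r hr.le := by
    rw [map_nsmul_ballA]
    exact fun x hx => ⟨hx.1, hx.2.trans (mul_le_of_le_one_left hr.le (norm_natCast_le_one p))⟩
  have hBA : ballA U r hr.le ≤ A := fun x hx => ⟨hx.1, hx.2.trans (le_max_left _ _)⟩
  rw [← map_nsmul_ballA hr.le, ← key _ hBA hpB (relIndex_ballA_ne_zero hU _ _ hr), key N hNle hpN hNfin, hN, AddSubgroup.map_map,
    show (nsmulAddMonoidHom p).comp φ = φ.comp (nsmulAddMonoidHom p) from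
      AddMonoidHom.ext fun c => (map_nsmul φ p c).symm,
    ← AddSubgroup.map_map, AddSubgroup.relIndex_map_map_of_injective _ _ hφ,
    AddSubgroup.relIndex_top_right, index_nsmul_padicInt_pi, finrank_KF hU]

/-- the index of the `p`-th powers -/
theorem relIndex_pow_Km (hU : OpenU q U) :
    ((Km U).map (powMonoidHom p)).relIndex (Km U) =
      p * (if (q : ℕ) = p then p ^ U.index else 1) *
        Nat.card ((powMonoidHom p : (Cq q)ˣ →* (Cq q)ˣ).ker ⊓ Km U : Subgroup (Cq q)ˣ) := by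
  classical
  have hp := (Fact.out : p.Prime)
  set f : (Cq q)ˣ →* (Cq q)ˣ := powMonoidHom p
  obtain ⟨r, hr, hrp⟩ := exists_between (norm_p_pos (q := q) (p := p))
  have hr1 : r < 1 := lt_of_lt_of_le hrp (norm_natCast_le_one p)
  set B := ballM U r hr.le hr1
  have hfA : (U0 U).map f ≤ U0 U := by
    rintro _ ⟨x, hx, rfl⟩; exact pow_mem hx p
  have hfB : B.map f ≤ B := by
    rintro _ ⟨x, hx, rfl⟩; exact pow_mem hx p
  have hinj : f.ker ⊓ B = ⊥ := by
    rw [eq_bot_iff]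
    rintro x ⟨hx, hxB⟩
    have h := norm_pow_sub_one (lt_of_le_of_lt hxB.2 hrp)
    rw [← Units.val_pow_eq_pow_val, show x ^ p = 1 from hx, Units.val_one, sub_self, norm_zero,
      eq_comm, mul_eq_zero, or_iff_right norm_p_pos.ne', norm_eq_zero, sub_eq_zero] at h
    exact Units.ext h
  have hU0 : ((U0 U).map f).relIndex (U0 U) = (if (q : ℕ) = p then p ^ U.index else 1) *
      Nat.card (f.ker ⊓ Km U : Subgroup (Cq q)ˣ) := by
    rw [relIndex_map_of_injOn f (ballM_le_U0 _ _) hfA hfB hinj (relIndex_ballM_ne_zero hU hr hr1),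
      map_pow_ballM hU hr.le hrp, relIndex_ballM_eq, relIndex_nsmul_ballA hU hr,
      show f.ker ⊓ U0 U = f.ker ⊓ Km U from le_antisymm (inf_le_inf_left _ U0_le_Km)
        fun x hx => ⟨hx.1, hx.2, (pow_eq_one_iff_of_nonneg (norm_nonneg _) hp.ne_zero).1 (by
          rw [← norm_pow, ← Units.val_pow_eq_pow_val, show x ^ p = 1 from hx.1, Units.val_one,
            norm_one])⟩]
  -- the value group
  obtain ⟨π, hπK, hπ0, hπ1, hπ⟩ := exists_uniformiser hU
  have hπ' : π ≠ 0 := norm_pos_iff.1 hπ0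
  have hinjz : Function.Injective fun k : ℤ => ‖π‖ ^ k := zpow_right_injective₀ hπ0 hπ1.ne
  choose v hv using fun x : Km U => hπ _ x.2 (x : (Cq q)ˣ).ne_zero
  let w : Km U →* Multiplicative (ZMod p) :=
    { toFun := fun x => Multiplicative.ofAdd ((v x : ℤ) : ZMod p)
      map_one' := by
        rw [show v 1 = 0 from hinjz (by
          show ‖π‖ ^ v 1 = ‖π‖ ^ (0 : ℤ)
          rw [← hv, zpow_zero]; exact norm_one)]
        simp
      map_mul' := fun x y => by
        rw [show v (x * y) = v x + v y from hinjz (by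
          show ‖π‖ ^ v (x * y) = ‖π‖ ^ (v x + v y)
          rw [← hv, zpow_add₀ hπ0.ne', ← hv, ← hv]; exact norm_mul _ _)]
        simp }
  have hsur : Function.Surjective w := fun z => by
    obtain ⟨k, hk⟩ := ZMod.intCast_surjective (Multiplicative.toAdd z)
    refine ⟨⟨(Units.mk0 π hπ') ^ k, zpow_mem (show Units.mk0 π hπ' ∈ Km U from hπK) k⟩, ?_⟩
    show Multiplicative.ofAdd _ = z
    rw [show v _ = k from hinjz ((hv _).symm.trans (by simp)), hk]
    rfl
  have hker : w.ker = ((Km U).map f ⊔ U0 U).subgroupOf (Km U) := by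
    ext x
    rw [MonoidHom.mem_ker, Subgroup.mem_subgroupOf]
    constructor
    · intro hx
      obtain ⟨m, hm⟩ := (ZMod.intCast_zmod_eq_zero_iff_dvd (v x) p).1
        (Multiplicative.ofAdd.injective hx)
      rw [← mul_inv_cancel_left ((Units.mk0 π hπ' ^ m) ^ p) (x : (Cq q)ˣ)]
      refine mul_mem (Subgroup.mem_sup_left ⟨_, zpow_mem (show Units.mk0 π hπ' ∈ Km U from hπK) m, rfl⟩)
        (Subgroup.mem_sup_right ⟨mul_mem (inv_mem (pow_mem (zpow_mem
          (show Units.mk0 π hπ' ∈ Km U from hπK) m) p)) x.2, ?_⟩)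
      rw [Units.val_mul, Units.val_inv_eq_inv_val, Units.val_pow_eq_pow_val,
        Units.val_zpow_eq_zpow_val, Units.val_mk0, norm_mul, norm_inv, norm_pow, norm_zpow, hv x, hm,
        ← zpow_natCast, ← zpow_mul, mul_comm m, inv_mul_cancel₀ (zpow_ne_zero _ hπ0.ne')]
    · intro hx
      obtain ⟨_, ⟨y, hy, rfl⟩, u, hu, he⟩ := Subgroup.mem_sup.1 hx
      have hvx : v x = v ⟨y, hy⟩ * p := hinjz (by
        show ‖π‖ ^ v x = ‖π‖ ^ (v ⟨y, hy⟩ * p)
        rw [← hv, zpow_mul, ← hv, ← he, Units.val_mul, norm_mul, hu.2, mul_one, zpow_natCast,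
          ← norm_pow]
        rfl)
      show Multiplicative.ofAdd _ = 1
      rw [hvx]
      simp
  have hfirst : ((Km U).map f ⊔ U0 U).relIndex (Km U) = p := by
    show (((Km U).map f ⊔ U0 U).subgroupOf (Km U)).index = p
    rw [← hker, Subgroup.index_ker, MonoidHom.range_eq_top.2 hsur, Subgroup.card_top]
    simp
  have hle : (Km U).map f ⊔ U0 U ≤ Km U :=
    sup_le (by rintro _ ⟨x, hx, rfl⟩; exact pow_mem hx p) U0_le_Km
  rw [← Subgroup.relIndex_mul_relIndex _ _ _ le_sup_left hle, hfirst, Subgroup.relIndex_sup_left,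
    ← Subgroup.inf_relIndex_right, show (Km U).map f ⊓ U0 U = (U0 U).map f from le_antisymm (by
      rintro _ ⟨⟨y, hy, rfl⟩, h1⟩
      refine ⟨y, ⟨hy, (pow_eq_one_iff_of_nonneg (norm_nonneg _) hp.ne_zero).1 ?_⟩, rfl⟩
      rw [← norm_pow, ← Units.val_pow_eq_pow_val]; exact h1.2)
      (le_inf (Subgroup.map_mono U0_le_Km) hfA), hU0]
  ring

end FLTAgent.PT.Loc
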