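import Fermat.Agent.PT.Local.Ind
import Fermat.Agent.PT.Local.Units

/-!
Parcel A: Kummer theory of the fixed fields of the open subgroups.
-/

set_option autoImplicit false
set_option linter.style.haveILetI false
set_option linter.unusedSectionVars false

noncomputable section

open CategoryTheory groupCohomology

namespace FLTAgent.PT.Loc

/-- the algebraic closure of `ℚ` -/
local notation "Qb" => AlgebraicClosure ℚ

variable {p : ℕ} [Fact p.Prime] {q : Nat.Primes} {U : Subgroup (Gam q)}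

/-- a primitive root of unity in `ℚ̄` -/
def zb (p : ℕ) [Fact p.Prime] : Qb :=
  haveI : NeZero p := ⟨(Fact.out : p.Prime).ne_zero⟩
  (HasEnoughRootsOfUnity.exists_primitiveRoot Qb p).choose

theorem zb_spec : IsPrimitiveRoot (zb p) p :=
  haveI : NeZero p := ⟨(Fact.out : p.Prime).ne_zero⟩
  (HasEnoughRootsOfUnity.exists_primitiveRoot Qb p).choose_spec

/-- the primitive root of unity in `ℚ̄_q` -/
def zq (p : ℕ) [Fact p.Prime] (q : Nat.Primes) : Cq q := iota q (zb p)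

theorem zq_spec : IsPrimitiveRoot (zq p q) p :=
  zb_spec.map_of_injective (f := iota q) (iota q).toRingHom.injective

theorem zq_ne : zq p q ≠ 0 := zq_spec.ne_zero (Fact.out : p.Prime).ne_zero

/-- its powers indexed modulo `p` -/
def zz (q : Nat.Primes) (a : ZMod p) : Cq q := zq p q ^ a.val

theorem zz_zero : zz q (0 : ZMod p) = 1 := by rw [zz, ZMod.val_zero, pow_zero]

theorem zz_natCast (n : ℕ) : zz q (n : ZMod p) = zq p q ^ n := by
  rw [zz, ZMod.val_natCast, ← pow_eq_pow_mod n zq_spec.pow_eq_one]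

theorem zz_add (a b : ZMod p) : zz q (a + b) = zz q a * zz q b := by
  rw [zz, zz, zz, ← pow_add, ZMod.val_add, ← pow_eq_pow_mod _ zq_spec.pow_eq_one]

theorem zz_ne (a : ZMod p) : zz q a ≠ 0 := pow_ne_zero _ zq_ne

theorem zz_injective : Function.Injective (zz q : ZMod p → Cq q) := fun _ _ h =>
  ZMod.val_injective p (zq_spec.pow_inj (ZMod.val_lt _) (ZMod.val_lt _) h)

theorem zz_pow (a : ZMod p) : zz q a ^ p = 1 := by
  rw [zz, ← pow_mul, mul_comm, pow_mul, zq_spec.pow_eq_one, one_pow]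

theorem exists_zz {x : Cq q} (h : x ^ p = 1) : ∃ a : ZMod p, x = zz q a := by
  haveI : NeZero p := ⟨(Fact.out : p.Prime).ne_zero⟩
  obtain ⟨i, -, hi⟩ := zq_spec.eq_pow_of_pow_eq_one (ξ := x) h
  exact ⟨i, by rw [zz_natCast, hi]⟩

theorem exists_zz_mul {x y : Cq q} (hy : y ≠ 0) (h : x ^ p = y ^ p) :
    ∃ a : ZMod p, x = zz q a * y := by
  obtain ⟨a, ha⟩ := exists_zz (q := q) (x := x / y) (p := p) (by rw [div_pow, h, div_self (pow_ne_zero p hy)])
  exact ⟨a, by rw [← ha, div_mul_cancel₀ _ hy]⟩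

/-- the value of the cyclotomic character -/
abbrev om (p : ℕ) [Fact p.Prime] (g : Gam q) : ZMod p := (ExtCitation.cycloChar p (loc q g) : ZMod p)

theorem toAut_zz (g : Gam q) (a : ZMod p) : toAut q g (zz q a) = zz q (om p g * a) := by
  haveI : NeZero p := ⟨(Fact.out : p.Prime).ne_zero⟩
  have hz : (loc q g) (zb p) = zb p ^ (om p g).val :=
    modularCyclotomicCharacter.spec Qb (ExtCitation.card_rootsOfUnity_eq_self p) (loc q g).toRingEquiv
      ((mem_rootsOfUnity' p (Units.mk0 (zb p) (zb_spec.ne_zero (Fact.out : p.Prime).ne_zero))).2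
        zb_spec.pow_eq_one)
  rw [zz, map_pow, zq, ← iota_loc, hz, map_pow, ← pow_mul, ← zq, ← zz_natCast, Nat.cast_mul,
    ZMod.natCast_zmod_val, ZMod.natCast_zmod_val]

theorem mu_apply (g : Gam q) (a : ZMod p) :
    (mu p).ρ (loc q g) a = om p g * a := by
  simp [Representation.twist_apply]

/-- finitely many points have a common level -/
theorem exists_level_fix_fin {ι : Type*} [Finite ι] (x : ι → Cq q) :
    ∃ F : IntermediateField ℚ Qb, FiniteDimensional ℚ F ∧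
      ∀ g : Gam q, loc q g ∈ F.fixingSubgroup → ∀ i, toAut q g (x i) = x i := by
  choose F hF h using fun i => exists_level_fix_point (x i)
  haveI := hF
  exact ⟨⨆ i, F i, IntermediateField.finiteDimensional_iSup_of_finite,
    fun g hg i => h i g (IntermediateField.fixingSubgroup_antitone (le_iSup F i) hg)⟩

/-- Hilbert 90 on an open subgroup -/
theorem hilbert90_Cq (U : Subgroup (Gam q)) (c : U → Cq q) (h0 : ∀ u, c u ≠ 0)
    (hc : ∀ u v : U, c (u * v) = c u * toAut q u (c v))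
    (hl : IsLevelConstant₁ (rU U) c) :
    ∃ y : Cq q, y ≠ 0 ∧ ∀ u : U, toAut q u y = c u * y := by
  classical
  obtain ⟨F, hF, hlev⟩ := hl
  haveI := hF
  haveI := finiteIndex_lev (r := rU U) F
  letI := Fintype.ofFinite (U ⧸ lev (rU U) F)
  set V : Subgroup (Gam q) := lev (loc q) F
  have hV : OpenU q V := ⟨F, hF, le_rfl⟩
  let χ : U ⧸ lev (rU U) F → (KF V →* Cq q) := fun x =>
    ((toAut q (x.out : U) : Cq q →ₐ[Qq q] Cq q).comp (KF V).val : KF V →* Cq q)
  have hinj : Function.Injective χ := fun x y h => by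
    rw [← x.out_eq', ← y.out_eq', QuotientGroup.eq]
    show ((x.out : U) : Gam q)⁻¹ * ((y.out : U) : Gam q) ∈ V
    refine mem_of_fix_KF hV fun z hz => ?_
    have h' : toAut q (x.out : U) z = toAut q (y.out : U) z := DFunLike.congr_fun h ⟨z, hz⟩
    rw [toAut_mul, ← h', toAut_inv_apply]
  obtain ⟨θ, hθ⟩ : ∃ θ : KF V, ∑ x : U ⧸ lev (rU U) F, c x.out * χ x θ ≠ 0 := by
    by_contra! hall
    exact h0 _ (Fintype.linearIndependent_iff.1
      ((linearIndependent_monoidHom (KF V) (Cq q)).comp χ hinj) (fun x => c x.out)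
      (funext fun θ => by simpa [Finset.sum_apply] using hall θ) ((1 : U) : U ⧸ lev (rU U) F))
  have key : ∀ g : U, c g * toAut q g (∑ x : U ⧸ lev (rU U) F, c x.out * χ x θ) =
      ∑ x : U ⧸ lev (rU U) F, c x.out * χ x θ := by
    intro g
    rw [map_sum, Finset.mul_sum]
    refine Fintype.sum_equiv (MulAction.toPerm g) _ _ fun x => ?_
    obtain ⟨v, hv⟩ : ∃ v ∈ lev (rU U) F, (g • x).out = g * x.out * v := by
      obtain ⟨v, hv⟩ := QuotientGroup.mk_out_eq_mul (lev (rU U) F) (g * x.out)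
      refine ⟨v.1, v.2, ?_⟩
      rw [← hv]
      congr 1
      conv_lhs => rw [← x.out_eq']
      rfl
    rw [map_mul, ← mul_assoc, ← hc, MulAction.toPerm_apply]
    show c (g * x.out) * toAut q g (toAut q (x.out : U) θ) =
      c (g • x).out * toAut q ((g • x).out : U) θ
    rw [hv.2, hlev _ v hv.1, ← toAut_mul]
    refine congrArg (c (g * x.out) * ·) ?_
    show _ = toAut q ((g : Gam q) * (x.out : U) * (v : Gam q)) θ
    rw [toAut_mul (_ * _), mem_KF.1 θ.2 (v : Gam q) hv.1]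
  refine ⟨(∑ x : U ⧸ lev (rU U) F, c x.out * χ x θ)⁻¹, inv_ne_zero hθ, fun g => ?_⟩
  rw [map_inv₀]
  conv_rhs => rw [← key g]
  rw [mul_inv, ← mul_assoc, mul_inv_cancel₀ (h0 g), one_mul]

/-- the Kummer cocycle of a family of `p`-th roots -/
theorem exists_indKummer (hU : OpenU q U) (r : Gam q ⧸ U → Cq q) (hr : ∀ x, r x ≠ 0)
    (hp : ∀ g x, toAut q g (r (g⁻¹ • x)) ^ p = r x ^ p) :
    ∃ b : Z1 (loc q) (Ind U (mu p)),
      ∀ g x, toAut q g (r (g⁻¹ • x)) = zz q ((b.1 g : Gam q ⧸ U → ZMod p) x) * r x := by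
  haveI := finite_quot hU
  choose b hb using fun g x => exists_zz_mul (hr x) (hp g x)
  refine ⟨⟨fun g => fun x => b g x, ?_, ?_⟩, hb⟩
  · refine (mem_cocycles₁_iff (A := Ind U (mu p)) _).2 fun g h => funext fun x => ?_
    show b (g * h) x = (mu p).ρ (loc q g) (b h (g⁻¹ • x)) + b g x
    rw [mu_apply]
    refine zz_injective (mul_right_cancel₀ (hr x) ?_)
    show zz q (b (g * h) x) * r x = zz q (_ + b g x) * r x
    rw [← hb, mul_inv_rev, mul_smul, toAut_mul, hb h, map_mul, toAut_zz, hb g, zz_add]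
    ring
  · obtain ⟨F, hF, hfix⟩ := exists_level_fix_fin r
    obtain ⟨F', hF', hle'⟩ := hU
    haveI := hF; haveI := hF'
    obtain ⟨E, hE, hle, hn⟩ := exists_normal_lev (loc q) (F ⊔ F')
    refine ⟨E, hE, fun g s hs => funext fun x => ?_⟩
    have hs' : s⁻¹ ∈ lev (loc q) E := inv_mem hs
    have hU' : lev (loc q) E ≤ U := fun t ht => hle' (lev_anti le_sup_right (hle ht))
    refine zz_injective (mul_right_cancel₀ (hr x) ?_)
    rw [← hb, ← hb, mul_inv_rev, mul_smul, smul_coset_eq hn hU' hs', toAut_mul,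
      hfix s (lev_anti le_sup_left (hle hs))]

/-- `y` is a Kummer cocycle of the root `r` -/
def IsKumU (U : Subgroup (Gam q)) (r : Cq q) (y : U → ZMod p) : Prop :=
  ∀ u : U, toAut q u r = zz q (y u) * r

theorem IsKumU.mem_Z1 (hU : OpenU q U) {r : Cq q} {y : U → ZMod p} (hr : r ≠ 0)
    (h : IsKumU U r y) : (y : U → Rep.res (rU U) (mu p)) ∈ Z1 (rU U) (Rep.res (rU U) (mu p)) := by
  refine ⟨(mem_cocycles₁_iff (A := Rep.res (rU U) (mu p)) _).2 fun u v => ?_, ?_⟩
  · show y (u * v) = (mu p).ρ (loc q u) (y v) + y u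
    rw [mu_apply]
    refine zz_injective (mul_right_cancel₀ hr ?_)
    show zz q (y (u * v)) * r = zz q (_ + y u) * r
    rw [← h, Subgroup.coe_mul, toAut_mul, h v, map_mul, toAut_zz, h u, zz_add]
    ring
  · obtain ⟨F, hF, hfix⟩ := exists_level_fix_point r
    refine ⟨F, hF, fun u s hs => zz_injective (mul_right_cancel₀ hr ?_)⟩
    show zz q (y (u * s)) * r = zz q (y u) * r
    rw [← h, ← h, Subgroup.coe_mul, toAut_mul, hfix (s : Gam q) hs]

theorem exists_isKumU (x : Km U) :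
    ∃ (r : Cq q) (y : U → ZMod p), r ^ p = ((x : (Cq q)ˣ) : Cq q) ∧ r ≠ 0 ∧ IsKumU U r y := by
  obtain ⟨r, hr⟩ := IsAlgClosed.exists_pow_nat_eq ((x : (Cq q)ˣ) : Cq q) (Fact.out : p.Prime).pos
  have hr0 : r ≠ 0 := fun h => (x : (Cq q)ˣ).ne_zero (by
    rw [← hr, h, zero_pow (Fact.out : p.Prime).ne_zero])
  choose y hy using fun u : U => exists_zz_mul (p := p) (x := toAut q u r) hr0 (by
    rw [← map_pow, hr, mem_KF.1 x.2 u u.2])
  exact ⟨r, y, hr, hr0, hy⟩

theorem isKumU_class_eq {r r' : Cq q} (hr : r ≠ 0) (hrr : r' ^ p = r ^ p)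
    {y y' : Z1 (rU U) (Rep.res (rU U) (mu p))} (h : IsKumU U r y.1) (h' : IsKumU U r' y'.1) :
    h1mk (rU U) _ y' = h1mk (rU U) _ y := by
  obtain ⟨j, hj⟩ := exists_zz_mul hr hrr
  have hr' : r' ≠ 0 := by rw [hj]; exact mul_ne_zero (zz_ne _) hr
  rw [← sub_eq_zero, ← map_sub, h1mk_eq_zero_iff]
  refine ⟨j, fun u => ?_⟩
  show (mu p).ρ (loc q u) j - j = y'.1 u - y.1 u
  rw [mu_apply]
  have key : zz q (y'.1 u + j) = zz q (om p (u : Gam q) * j + y.1 u) := by
    refine mul_right_cancel₀ hr ?_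
    rw [zz_add, zz_add, mul_assoc, ← hj, ← h' u, mul_assoc, ← h u, hj, map_mul, toAut_zz]
  have e : (y'.1 u + j : ZMod p) = om p (u : Gam q) * j + y.1 u := zz_injective key
  show (om p (u : Gam q) * j - j : ZMod p) = y'.1 u - y.1 u
  linear_combination -e

theorem exists_kum (hU : OpenU q U) (x : Km U) :
    ∃ c : cH1 (rU U) (Rep.res (rU U) (mu p)), ∀ (r : Cq q) (y : Z1 (rU U) (Rep.res (rU U) (mu p))),
      r ^ p = ((x : (Cq q)ˣ) : Cq q) → IsKumU U r y.1 → h1mk (rU U) _ y = c := by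
  obtain ⟨r, y, hr, hr0, hy⟩ := exists_isKumU (p := p) x
  exact ⟨h1mk (rU U) _ ⟨y, hy.mem_Z1 hU hr0⟩, fun r' y' hr' hy' =>
    isKumU_class_eq (y := ⟨y, hy.mem_Z1 hU hr0⟩) hr0 (hr'.trans hr.symm) hy hy'⟩

/-- the Kummer map -/
def kum (p : ℕ) [Fact p.Prime] (hU : OpenU q U) :
    Additive (Km U) →+ cH1 (rU U) (Rep.res (rU U) (mu p)) :=
  AddMonoidHom.mk' (fun x => (exists_kum hU (Additive.toMul x)).choose) fun x x' => by
    obtain ⟨r, y, hr, hr0, hy⟩ := exists_isKumU (p := p) (Additive.toMul x)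
    obtain ⟨r', y', hr', hr0', hy'⟩ := exists_isKumU (p := p) (Additive.toMul x')
    rw [← (exists_kum hU (Additive.toMul x)).choose_spec r ⟨y, hy.mem_Z1 hU hr0⟩ hr hy,
      ← (exists_kum hU (Additive.toMul x')).choose_spec r' ⟨y', hy'.mem_Z1 hU hr0'⟩ hr' hy', ← map_add]
    symm
    refine (exists_kum hU (Additive.toMul (x + x'))).choose_spec (r * r') _ ?_ fun u => ?_
    · rw [mul_pow, hr, hr']; rfl
    · show _ = zz q (y u + y' u) * (r * r')
      rw [map_mul, hy u, hy' u, zz_add]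
      ring

theorem kum_eq (hU : OpenU q U) (x : Km U) {r : Cq q} (hr : r ^ p = ((x : (Cq q)ˣ) : Cq q))
    {y : Z1 (rU U) (Rep.res (rU U) (mu p))} (hy : IsKumU U r y.1) :
    kum p hU (Additive.ofMul x) = h1mk (rU U) _ y :=
  ((exists_kum hU x).choose_spec r y hr hy).symm

theorem kum_surjective (hU : OpenU q U) : Function.Surjective (kum p hU) := by
  intro c
  obtain ⟨z, rfl⟩ := Submodule.mkQ_surjective _ c
  obtain ⟨F, hF, hlev⟩ := z.2.2
  obtain ⟨r, hr0, hr⟩ := hilbert90_Cq U (fun u => zz q (z.1 u)) (fun u => zz_ne _) (fun u v => by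
    rw [toAut_zz, ← zz_add]
    refine congrArg _ ?_
    have e := (mem_cocycles₁_iff (A := Rep.res (rU U) (mu p)) z.1).1 z.2.1 u v
    rw [show (z.1 (u * v) : ZMod p) = (mu p).ρ (loc q u) (z.1 v) + z.1 u from e, mu_apply, add_comm])
    ⟨F, hF, fun u s hs => congrArg (zz q) (hlev u s hs)⟩
  have hmem : r ^ p ∈ KF U := mem_KF.2 fun u hu => by
    rw [map_pow, hr ⟨u, hu⟩, mul_pow, zz_pow, one_mul]
  exact ⟨Additive.ofMul ⟨Units.mk0 (r ^ p) (pow_ne_zero p hr0), hmem⟩, kum_eq hU _ rfl hr⟩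

theorem kum_eq_zero_iff (hU : OpenU q U) (x : Km U) :
    kum p hU (Additive.ofMul x) = 0 ↔ (x : (Cq q)ˣ) ∈ (Km U).map (powMonoidHom p) := by
  obtain ⟨r, y, hr, hr0, hy⟩ := exists_isKumU (p := p) x
  rw [kum_eq hU x hr (y := ⟨y, hy.mem_Z1 hU hr0⟩) hy, h1mk_eq_zero_iff]
  constructor
  · rintro ⟨j, hj⟩
    have h1 : zz q (-j) * r ≠ 0 := mul_ne_zero (zz_ne _) hr0
    refine ⟨Units.mk0 _ h1, mem_KF.2 fun u hu => ?_, Units.ext ?_⟩
    · have e : om p u * j - j = y ⟨u, hu⟩ := by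
        rw [← mu_apply]; exact hj ⟨u, hu⟩
      rw [Units.val_mk0, map_mul, toAut_zz, hy ⟨u, hu⟩, ← mul_assoc, ← zz_add, ← e]
      congr 2
      ring
    · rw [powMonoidHom_apply, Units.val_pow_eq_pow_val, Units.val_mk0, mul_pow, zz_pow, one_mul, hr]
  · rintro ⟨w, hw, hwx⟩
    obtain ⟨j, hj⟩ := exists_zz_mul (p := p) (x := r) w.ne_zero (by
      rw [hr, ← hwx, powMonoidHom_apply, Units.val_pow_eq_pow_val])
    refine ⟨j, fun u => ?_⟩
    show (mu p).ρ (loc q u) j - j = y u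
    rw [mu_apply]
    have e : zz q (y u + j) = zz q (om p (u : Gam q) * j) := by
      refine mul_right_cancel₀ w.ne_zero ?_
      rw [zz_add, mul_assoc, ← hj, ← hy u, hj, map_mul, toAut_zz, mem_KF.1 hw u u.2]
    have e' : y u + j = om p (u : Gam q) * j := zz_injective e
    show (om p (u : Gam q) * j - j : ZMod p) = y u
    linear_combination -e'

/-- the number of roots of unity of order `p` in the fixed field -/
def muCard (p : ℕ) [Fact p.Prime] (U : Subgroup (Gam q)) : ℕ :=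
  Nat.card ((powMonoidHom p : (Cq q)ˣ →* (Cq q)ˣ).ker ⊓ Km U : Subgroup (Cq q)ˣ)

theorem card_cH1_mu (hU : OpenU q U) :
    Nat.card (cH1 (rU U) (Rep.res (rU U) (mu p))) =
      p * (if (q : ℕ) = p then p ^ U.index else 1) * muCard p U := by
  let f : Km U →* Multiplicative (cH1 (rU U) (Rep.res (rU U) (mu p))) :=
    MonoidHom.mk' (fun x => Multiplicative.ofAdd (kum p hU (Additive.ofMul x))) fun x y => by
      rw [← ofAdd_add, ← map_add]; rfl
  have hsur : Function.Surjective f := fun c => by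
    obtain ⟨x, hx⟩ := kum_surjective hU (Multiplicative.toAdd c)
    exact ⟨Additive.toMul x, congrArg Multiplicative.ofAdd hx⟩
  have hker : f.ker = ((Km U).map (powMonoidHom p)).subgroupOf (Km U) := by
    ext x
    rw [MonoidHom.mem_ker, Subgroup.mem_subgroupOf, ← kum_eq_zero_iff hU x]
    exact Multiplicative.ofAdd.injective.eq_iff' rfl
  rw [← Nat.card_congr Multiplicative.ofAdd.symm, ← Subgroup.card_top, ← MonoidHom.range_eq_top.2 hsur,
    ← Subgroup.index_ker, hker, muCard, ← relIndex_pow_Km hU]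
  rfl

theorem muCard_of_triv (hω : ∀ u ∈ U, om p u = 1) : muCard p U = p := by
  haveI : NeZero p := ⟨(Fact.out : p.Prime).ne_zero⟩
  rw [muCard]
  have hK : ∀ a : ZMod p, zz q a ∈ KF U := fun a => mem_KF.2 fun u hu => by
    rw [toAut_zz, hω u hu, one_mul]
  let e : ZMod p → ((powMonoidHom p : (Cq q)ˣ →* (Cq q)ˣ).ker ⊓ Km U : Subgroup (Cq q)ˣ) := fun a =>
    ⟨Units.mk0 (zz q a) (zz_ne a), Units.ext (zz_pow a), hK a⟩
  rw [← Nat.card_congr (Equiv.ofBijective e ⟨fun a b h => zz_injective (congrArg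
    (fun z => (((z : ((powMonoidHom p : (Cq q)ˣ →* (Cq q)ˣ).ker ⊓ Km U : Subgroup (Cq q)ˣ)) : (Cq q)ˣ) : Cq q)) h),
    fun z => ?_⟩), Nat.card_zmod]
  obtain ⟨a, ha⟩ := exists_zz (q := q) (p := p) (x := ((z : (Cq q)ˣ) : Cq q)) (by
    rw [← Units.val_pow_eq_pow_val]; exact congrArg Units.val z.2.1)
  exact ⟨a, Subtype.ext (Units.ext ha.symm)⟩

theorem finite_cH1_mu (hU : OpenU q U) : Finite (cH1 (rU U) (Rep.res (rU U) (mu p))) := by
  refine Nat.finite_of_card_ne_zero ?_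
  rw [card_cH1_mu hU]
  have hp := (Fact.out : p.Prime).pos
  haveI : NeZero p := ⟨hp.ne'⟩
  have hfin : Finite ((powMonoidHom p : (Cq q)ˣ →* (Cq q)ˣ).ker ⊓ Km U : Subgroup (Cq q)ˣ) :=
    Finite.of_injective (fun z => (⟨(z : (Cq q)ˣ), (mem_rootsOfUnity p _).2 z.2.1⟩ : rootsOfUnity p (Cq q)))
      fun a b h => Subtype.ext (congrArg (fun w : rootsOfUnity p (Cq q) => (w : (Cq q)ˣ)) h)
  refine mul_ne_zero (mul_ne_zero hp.ne' ?_) ?_
  · split_ifs
    · exact pow_ne_zero _ hp.ne'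
    · exact one_ne_zero
  · exact (Nat.card_pos).ne'

theorem finrank_cH1_mu (hU : OpenU q U) {k : ℕ}
    (hk : p * (if (q : ℕ) = p then p ^ U.index else 1) * muCard p U = p ^ k) :
    Module.finrank (ZMod p) (cH1 (rU U) (Rep.res (rU U) (mu p))) = k := by
  haveI := finite_cH1_mu (p := p) hU
  have h := Module.natCard_eq_pow_finrank (K := ZMod p) (V := cH1 (rU U) (Rep.res (rU U) (mu p)))
  rw [card_cH1_mu hU, hk, Nat.card_zmod] at h
  exact (Nat.pow_right_injective (Fact.out : p.Prime).two_le h).symm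

theorem finrank_cH1_mu_of_triv (hU : OpenU q U) (hω : ∀ u ∈ U, om p u = 1) :
    Module.finrank (ZMod p) (cH1 (rU U) (Rep.res (rU U) (mu p))) =
      2 + if (q : ℕ) = p then U.index else 0 := by
  refine finrank_cH1_mu hU ?_
  rw [muCard_of_triv hω]
  split_ifs <;> ring

theorem exists_notMem_pow (hU : OpenU q U) :
    ∃ x ∈ Km U, x ∉ (Km U).map (powMonoidHom p) := by
  by_contra! h
  have h1 := relIndex_pow_Km (p := p) hU
  rw [Subgroup.relIndex_eq_one.2 h] at h1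
  exact (Fact.out : p.Prime).ne_one (Nat.eq_one_of_mul_eq_one_right (Nat.eq_one_of_mul_eq_one_right h1.symm))

/-- the roots of unity of order `p` are not in `ℚ_p` -/
theorem muCard_top (hq : (q : ℕ) = p) (hp2 : p ≠ 2) : muCard p (⊤ : Subgroup (Gam q)) = 1 := by
  subst hq
  rw [muCard, Subgroup.card_eq_one, eq_bot_iff]
  rintro z ⟨hz, hzK⟩
  replace hzK : (z : Cq q) ∈ KF (⊤ : Subgroup (Gam q)) := hzK
  rw [KF_top, IntermediateField.mem_bot] at hzK
  obtain ⟨x, hx⟩ := hzK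
  have hxp : x ^ (q : ℕ) = 1 := (algebraMap (Qq q) (Cq q)).injective (by
    rw [map_pow, hx, map_one, ← Units.val_pow_eq_pow_val, show z ^ (q : ℕ) = 1 from hz, Units.val_one])
  refine Subgroup.mem_bot.2 (Units.ext ?_)
  rw [Units.val_one, ← hx, ← map_one (algebraMap (Qq q) (Cq q))]
  congr 1
  have hn : ‖x‖ = 1 := (pow_eq_one_iff_of_nonneg (norm_nonneg _) q.2.ne_zero).1 (by
    rw [← norm_pow, hxp, norm_one])
  set xi : ℤ_[(q : ℕ)] := ⟨x, hn.le⟩
  have hxi : xi ^ (q : ℕ) = 1 := Subtype.ext hxp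
  by_contra hne
  -- reduce modulo `q`
  have h1 : PadicInt.toZMod xi = 1 := by
    have := congrArg PadicInt.toZMod hxi
    rwa [map_pow, map_one, ZMod.pow_card] at this
  set y := xi - 1 with hy
  have hy0 : y ≠ 0 := sub_ne_zero.2 fun h => hne (congrArg Subtype.val h)
  obtain ⟨w, hw⟩ : ((q : ℕ) : ℤ_[(q : ℕ)]) ∣ y := by
    rw [← Ideal.mem_span_singleton, ← PadicInt.maximalIdeal_eq_span_p, ← PadicInt.ker_toZMod,
      RingHom.mem_ker, hy, map_sub, h1, map_one, sub_self]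
  -- the geometric sum is congruent to `q` modulo `q ^ 2`
  have hsum : ∑ i ∈ Finset.range q, xi ^ i = 0 := by
    have := geom_sum_mul xi q
    rw [hxi, sub_self, mul_eq_zero, or_iff_left hy0] at this
    exact this
  have hcong : ∀ i : ℕ, ((q : ℕ) : ℤ_[(q : ℕ)]) ^ 2 ∣ xi ^ i - 1 - i * y := by
    intro i
    induction i with
    | zero => simp
    | succ i ih =>
      obtain ⟨v, hv⟩ := ih
      refine ⟨v * xi + i * w ^ 2, ?_⟩
      have e : xi ^ (i + 1) - 1 - ((i + 1 : ℕ) : ℤ_[(q : ℕ)]) * y =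
          (xi ^ i - 1 - i * y) * xi + i * y ^ 2 := by rw [hy]; push_cast; ring
      rw [e, hv, hw]
      ring
  obtain ⟨v, hv⟩ : ((q : ℕ) : ℤ_[(q : ℕ)]) ^ 2 ∣ ∑ i ∈ Finset.range q, (xi ^ i - 1 - i * y) :=
    Finset.dvd_sum fun i _ => hcong i
  rw [Finset.sum_sub_distrib, Finset.sum_sub_distrib, hsum, ← Finset.sum_mul, ← Nat.cast_sum,
    Finset.sum_range_id] at hv
  obtain ⟨m, hm⟩ : (q : ℕ) ∣ (q : ℕ) * ((q : ℕ) - 1) / 2 := by
    have h2 : 2 ∣ (q : ℕ) - 1 := by
      rcases Nat.Prime.eq_two_or_odd q.2 with h | h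
      · exact absurd h hp2
      · omega
    rw [Nat.mul_div_assoc _ h2]
    exact dvd_mul_right _ _
  rw [hm] at hv
  simp only [Finset.sum_const, Finset.card_range, nsmul_eq_mul, mul_one, Nat.cast_mul] at hv
  rw [hw] at hv
  have hq2 : ((q : ℕ) : ℤ_[(q : ℕ)]) ^ 2 ∣ ((q : ℕ) : ℤ_[(q : ℕ)]) :=
    ⟨-(v + (m : ℤ_[(q : ℕ)]) * w), by linear_combination -hv⟩
  obtain ⟨v', hv'⟩ := hq2
  have hu : ((q : ℕ) : ℤ_[(q : ℕ)]) * v' = 1 := by
    refine mul_left_cancel₀ (show ((q : ℕ) : ℤ_[(q : ℕ)]) ≠ 0 from Nat.cast_ne_zero.2 q.2.ne_zero) ?_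
    linear_combination -hv'
  have := congrArg PadicInt.toZMod hu
  rw [map_mul, map_natCast, map_one, ZMod.natCast_self, zero_mul] at this
  exact zero_ne_one this

end FLTAgent.PT.Loc
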