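import Fermat.Agent.PT.Local.Symb

/-!
Parcel C: `H²(μ_p)` of an open subgroup fixing the roots of unity is the line of the symbols, and
corestriction is surjective.
-/

set_option autoImplicit false
set_option linter.style.haveILetI false
set_option linter.unusedSectionVars false

noncomputable section

open CategoryTheory groupCohomology

namespace FLTAgent.PT.Loc

variable {p : ℕ} [Fact p.Prime] {q : Nat.Primes} {U U' : Subgroup (Gam q)}
  {N : Rep.{0} (ZMod p) GQ}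

theorem openU_mono (hU : OpenU q U') (h : U' ≤ U) : OpenU q U :=
  hU.imp fun _ e => ⟨e.1, e.2.trans h⟩

theorem openU_inf (hU : OpenU q U) (hU' : OpenU q U') : OpenU q (U ⊓ U') := by
  obtain ⟨F, hF, h⟩ := hU
  obtain ⟨F', hF', h'⟩ := hU'
  haveI := hF; haveI := hF'
  exact ⟨F ⊔ F', inferInstance, fun g hg =>
    ⟨h (IntermediateField.fixingSubgroup_antitone le_sup_left hg),
      h' (IntermediateField.fixingSubgroup_antitone le_sup_right hg)⟩⟩

theorem openU_top (q : Nat.Primes) : OpenU q (⊤ : Subgroup (Gam q)) :=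
  ⟨⊥, inferInstance, le_top⟩

theorem pull2_self (x : cH2 (loc q) (Ind U N)) : pull2 (le_refl U) x = x := by
  rw [h2push_smul (pullInd (le_refl U)) (pullInd_eqv _) (1 : ZMod p) (fun f => by
    rw [one_smul]
    funext y
    induction y using QuotientGroup.induction_on with
    | H a => rfl) x, one_smul]

theorem pull2_pull2 {U'' : Subgroup (Gam q)} (h : U'' ≤ U') (h' : U' ≤ U)
    (x : cH2 (loc q) (Ind U N)) : pull2 h (pull2 h' x) = pull2 (h.trans h') x :=
  h2push_h2push _ _ _ _ _ _ (fun f => funext fun y => congrArg f (qproj_qproj h h' y)) x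

theorem fib2_surjective_of_unit [Finite (Gam q ⧸ U')] (hU' : OpenU q U') (h : U' ≤ U)
    (hn : ¬ p ∣ U'.relIndex U) :
    Function.Surjective (fib2 (N := N) h) ∧ Function.Injective (pull2 (N := N) h) := by
  have hn' : ((U'.relIndex U : ℕ) : ZMod p) ≠ 0 := fun e => hn ((ZMod.natCast_eq_zero_iff _ p).1 e)
  refine ⟨fun x => ⟨((U'.relIndex U : ℕ) : ZMod p)⁻¹ • pull2 h x, ?_⟩, fun x y e => ?_⟩
  · rw [map_smul, fib2_pull2 hU', inv_smul_smul₀ hn']
  · have e' := congrArg (fib2 h) e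
    rw [fib2_pull2 hU', fib2_pull2 hU'] at e'
    exact smul_right_injective _ hn' e'

/-- the symbols, as classes of the induced module -/
def IsSym (hU : OpenU q U) (c : cH2 (loc q) (Ind U (mu p))) : Prop := ∃ a b, symI hU a b = c

theorem isSym_pull (hU : OpenU q U) (hU' : OpenU q U') (h : U' ≤ U)
    {c : cH2 (loc q) (Ind U (mu p))} (hc : IsSym hU c) : IsSym hU' (pull2 h c) := by
  obtain ⟨a, b, rfl⟩ := hc
  exact ⟨pull1 h a, pull1 h b, (cupH_natural (MonoidHom.id (Gam q)) (fun _ => rfl) (indMul p U)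
    (indMul p U') indMul_eqv indMul_eqv (isAdm_Ind hU (isAdm_mu p)) (isAdm_Ind hU' (isAdm_mu p))
    (pullInd h) (pullInd_eqv h) (pullInd h) (pullInd_eqv h) (pullInd h) (pullInd_eqv h)
    (fun _ _ => rfl) a b).symm⟩

theorem isSym_iff (hU : OpenU q U) (c : cH2 (loc q) (Ind U (mu p))) :
    IsSym hU c ↔ ∃ χ y, symU p U χ y = ev2 U (mu p) c := by
  constructor
  · rintro ⟨a, b, rfl⟩
    exact ⟨_, _, (ev2_symI hU a b).symm⟩
  · rintro ⟨χ, y, h⟩
    obtain ⟨a, rfl⟩ := (ev1_bijective hU (isAdm_one p)).2 χ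
    obtain ⟨b, rfl⟩ := (ev1_bijective hU (isAdm_mu p)).2 y
    exact ⟨a, b, (ev2_bijective hU (isAdm_mu p)).1 ((ev2_symI hU a b).trans h)⟩

theorem exists_gen_sym (hU : OpenU q U) (hω : ∀ u ∈ U, om p u = 1) :
    ∃ g : cH2 (loc q) (Ind U (mu p)), IsSym hU g ∧ g ≠ 0 ∧
      ∀ c, IsSym hU c → ∃ k : ZMod p, c = k • g := by
  obtain ⟨χ₀, y₀, h0, hl⟩ := exists_symU_gen hU hω
  obtain ⟨g, hg⟩ := (ev2_bijective hU (isAdm_mu p)).2 (symU p U χ₀ y₀)
  refine ⟨g, (isSym_iff hU g).2 ⟨χ₀, y₀, hg.symm⟩, fun e => h0 (by rw [← hg, e, map_zero]), ?_⟩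
  intro c hc
  obtain ⟨χ, y, h⟩ := (isSym_iff hU c).1 hc
  obtain ⟨k, hk⟩ := hl χ y
  exact ⟨k, (ev2_bijective hU (isAdm_mu p)).1 (by rw [map_smul, hg, ← h, hk])⟩

section Kill

theorem loc_fix_zb {u : Gam q} (h : om p u = 1) : loc q u (zb p) = zb p := by
  have hz : (loc q u) (zb p) = zb p ^ (om p u).val :=
    modularCyclotomicCharacter.spec (AlgebraicClosure ℚ) (ExtCitation.card_rootsOfUnity_eq_self p)
      (loc q u).toRingEquiv
      ((mem_rootsOfUnity' p (Units.mk0 (zb p) (zb_spec.ne_zero (Fact.out : p.Prime).ne_zero))).2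
        zb_spec.pow_eq_one)
  haveI : Fact (1 < p) := ⟨(Fact.out : p.Prime).one_lt⟩
  rw [hz, h, ZMod.val_one, pow_one]

/-- a class killed by the kernel of a character is a symbol -/
theorem exists_symU_of_kill (hU : OpenU q U) (hω : ∀ u ∈ U, om p u = 1)
    (χ : Z1 (rU U) (oneU p U)) (hχ : h1mk (rU U) _ χ ≠ 0) (c : cH2 (rU U) (muU p U))
    (hc : resU2 (kerChi_le χ) c = 0) : ∃ y, symU p U (h1mk (rU U) _ χ) y = c := by
  let K : KummerCtx p (rU U) :=
    kummerUnits p (rU U) (zb p) zb_spec fun u => loc_fix_zb (hω u u.2)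
  have hadm : IsAdm (rU U) (triv p U) := ⟨inferInstance, ⊥, inferInstance, fun _ _ => rfl⟩
  have hm : IsEqv (A := triv p U) (B := triv p U) (C := triv p U)
      (LinearMap.mul (ZMod p) (ZMod p)) := fun _ _ _ => rfl
  have hto : ∀ (u : U) (a : muU p U), (LinearMap.id : ZMod p →ₗ[ZMod p] ZMod p) ((muU p U).ρ u a) =
      (triv p U).ρ u a := fun u a => by
    rw [LinearMap.id_apply, muU_apply, hω u u.2, one_mul]; rfl
  have hfrom : ∀ (u : U) (a : triv p U), (LinearMap.id : ZMod p →ₗ[ZMod p] ZMod p) ((triv p U).ρ u a) =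
      (muU p U).ρ u a := fun u a => by
    rw [muU_apply, hω u u.2, one_mul]; rfl
  let χ' : Z1 (rU U) (triv p U) := ⟨χ.1, χ.2⟩
  have hsur : Function.Surjective χ'.1 := fun z => by
    obtain ⟨u, hu⟩ := exists_chi_one hχ
    exact ⟨u ^ (z : ZMod p).val, by
      show (χ.1 (u ^ (z : ZMod p).val) : ZMod p) = z
      rw [chi_pow, hu, mul_one, ZMod.natCast_zmod_val]⟩
  obtain ⟨z, rfl⟩ := Submodule.mkQ_surjective _ c
  have hres := hc
  change resU2 (kerChi_le χ) (h2mk (rU U) (muU p U) z) = 0 at hres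
  erw [continuousH2Map_continuousH2π, continuousH2π_eq_zero_iff, mem_levelCoboundaries₂_iff] at hres
  obtain ⟨b, ⟨F, hF, hFb⟩, hb⟩ := hres
  let z' := h2push (rU U) (A := muU p U) (B := triv p U) LinearMap.id hto (h2mk (rU U) (muU p U) z)
  obtain ⟨y, hy⟩ := exists_symbol K χ' hsur hm hadm ((kerChi χ).subgroupOf U)
    (fun g => by rw [Subgroup.mem_subgroupOf, mem_kerChi]) z' (by
      simp only [z']
      rw [continuousH2Map_continuousH2π, continuousH2Map_continuousH2π, continuousH2π_eq_zero_iff,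
        mem_levelCoboundaries₂_iff]
      refine ⟨fun v => b ⟨((v : U) : Gam q), Subgroup.mem_subgroupOf.1 v.2⟩,
        ⟨F, hF, fun v s hs => hFb ⟨((v : U) : Gam q), Subgroup.mem_subgroupOf.1 v.2⟩
          ⟨((s : U) : Gam q), Subgroup.mem_subgroupOf.1 s.2⟩ hs⟩,
        funext fun v => ?_⟩
      obtain ⟨v, w⟩ := v
      have e := congrFun hb (⟨((v : U) : Gam q), Subgroup.mem_subgroupOf.1 v.2⟩,
        ⟨((w : U) : Gam q), Subgroup.mem_subgroupOf.1 w.2⟩)
      rw [d₁₂_hom_apply] at e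
      have e1 : (om p ((v : U) : Gam q)) * (b ⟨((w : U) : Gam q), Subgroup.mem_subgroupOf.1 w.2⟩ : ZMod p)
          - b (⟨((v : U) : Gam q), Subgroup.mem_subgroupOf.1 v.2⟩ *
            ⟨((w : U) : Gam q), Subgroup.mem_subgroupOf.1 w.2⟩)
          + b ⟨((v : U) : Gam q), Subgroup.mem_subgroupOf.1 v.2⟩ =
          (z.1 ((v : U), (w : U)) : ZMod p) := by rw [← mu_apply]; exact e
      rw [hω _ (v : U).2, one_mul] at e1
      rw [d₁₂_hom_apply]
      exact e1)
  refine ⟨h1push (rU U) (A := triv p U) (B := muU p U) LinearMap.id hfrom y, ?_⟩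
  have e := congrArg (h2push (rU U) (A := triv p U) (B := muU p U) LinearMap.id hfrom) hy
  obtain ⟨w, rfl⟩ := Submodule.mkQ_surjective _ y
  refine (Eq.trans ?_ e).trans ?_
  · show h2mk (rU U) (muU p U) _ = h2mk (rU U) (muU p U) _
    refine congrArg _ (Subtype.ext (funext fun g => ?_))
    show (χ.1 g.1 : ZMod p) * ((muU p U).ρ g.1 (w.1 g.2) : ZMod p) = (χ.1 g.1 : ZMod p) * w.1 g.2
    rw [muU_apply, hω g.1 g.1.2, one_mul]
  · exact congrArg (h2mk (rU U) (muU p U)) (Subtype.ext (funext fun _ => rfl))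

/-- every class is killed by an open normal subgroup -/
theorem exists_kill (hU : OpenU q U) (hω : ∀ u ∈ U, om p u = 1)
    (c c' : cH2 (loc q) (Ind U (mu p))) :
    ∃ V : Subgroup (Gam q), OpenU q V ∧ V.Normal ∧ ∃ h : V ≤ U, pull2 h c = 0 ∧ pull2 h c' = 0 := by
  obtain ⟨z, hz⟩ := Submodule.mkQ_surjective _ (ev2 U (mu p) c)
  obtain ⟨z', hz'⟩ := Submodule.mkQ_surjective _ (ev2 U (mu p) c')
  obtain ⟨F₁, hF₁, h₁⟩ := z.2.2
  obtain ⟨F₂, hF₂, h₂⟩ := z'.2.2
  obtain ⟨F₃, hF₃, h₃⟩ := hU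
  haveI := hF₁; haveI := hF₂; haveI := hF₃
  obtain ⟨F, hF, hle, hn⟩ := exists_normal_level (F₁ ⊔ F₂ ⊔ F₃)
  haveI := hn
  have hFU : F.fixingSubgroup.comap (loc q) ≤ U := fun g hg =>
    h₃ (IntermediateField.fixingSubgroup_antitone le_sup_right (hle hg))
  have hV : OpenU q (F.fixingSubgroup.comap (loc q)) := ⟨F, hF, le_rfl⟩
  refine ⟨_, hV, hn.comap (loc q), hFU, ?_, ?_⟩
  · refine (ev2_bijective hV (isAdm_mu p)).1 ?_
    rw [ev2_pull, map_zero, ← hz]
    show resU2 hFU (h2mk (rU U) (muU p U) z) = 0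
    erw [continuousH2Map_continuousH2π, continuousH2π_eq_zero_iff, mem_levelCoboundaries₂_iff]
    refine ⟨fun _ => (z.1 (1, 1) : ZMod p), ⟨⊥, inferInstance, fun _ _ _ => rfl⟩, funext fun g => ?_⟩
    obtain ⟨g, g'⟩ := g
    have e := h₁ 1 1 ⟨(g : Gam q), hFU g.2⟩ ⟨(g' : Gam q), hFU g'.2⟩
      (IntermediateField.fixingSubgroup_antitone (le_sup_left.trans le_sup_left) (hle g.2))
      (IntermediateField.fixingSubgroup_antitone (le_sup_left.trans le_sup_left) (hle g'.2))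
    rw [one_mul, one_mul] at e
    rw [d₁₂_hom_apply]
    show (mu p).ρ (loc q g) (z.1 (1, 1) : ZMod p) - (z.1 (1, 1) : ZMod p) + (z.1 (1, 1) : ZMod p) =
      (z.1 (⟨(g : Gam q), hFU g.2⟩, ⟨(g' : Gam q), hFU g'.2⟩) : ZMod p)
    rw [mu_apply, hω _ (hFU g.2), one_mul, sub_add_cancel, e]
  · refine (ev2_bijective hV (isAdm_mu p)).1 ?_
    rw [ev2_pull, map_zero, ← hz']
    show resU2 hFU (h2mk (rU U) (muU p U) z') = 0
    erw [continuousH2Map_continuousH2π, continuousH2π_eq_zero_iff, mem_levelCoboundaries₂_iff]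
    refine ⟨fun _ => (z'.1 (1, 1) : ZMod p), ⟨⊥, inferInstance, fun _ _ _ => rfl⟩, funext fun g => ?_⟩
    obtain ⟨g, g'⟩ := g
    have e := h₂ 1 1 ⟨(g : Gam q), hFU g.2⟩ ⟨(g' : Gam q), hFU g'.2⟩
      (IntermediateField.fixingSubgroup_antitone (le_sup_right.trans le_sup_left) (hle g.2))
      (IntermediateField.fixingSubgroup_antitone (le_sup_right.trans le_sup_left) (hle g'.2))
    rw [one_mul, one_mul] at e
    rw [d₁₂_hom_apply]
    show (mu p).ρ (loc q g) (z'.1 (1, 1) : ZMod p) - (z'.1 (1, 1) : ZMod p) + (z'.1 (1, 1) : ZMod p) =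
      (z'.1 (⟨(g : Gam q), hFU g.2⟩, ⟨(g' : Gam q), hFU g'.2⟩) : ZMod p)
    rw [mu_apply, hω _ (hFU g.2), one_mul, sub_add_cancel, e]

/-- one step: a character of order `p` -/
theorem exists_step (hU : OpenU q U) (hω : ∀ u ∈ U, om p u = 1) (χ : Z1 (rU U) (oneU p U))
    (hχ : h1mk (rU U) _ χ ≠ 0) [Finite (Gam q ⧸ kerChi χ)] :
    (∃ z : cH2 (loc q) (Ind (kerChi χ) (mu p)), IsSym (openU_kerChi hU χ) z ∧
      fib2 (kerChi_le χ) z ≠ 0) ∧
      ∀ c : cH2 (loc q) (Ind U (mu p)), IsSym hU c → pull2 (kerChi_le χ) c = 0 := by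
  set C := cycOf hU hω χ hχ
  haveI : Finite (Gam q ⧸ C.U') := finite_quot (openU_kerChi hU χ)
  obtain ⟨l, hl, hl'⟩ : ∃ l ∈ Km (kerChi χ), C.Nm l ∉ (Km U).map (powMonoidHom p) := by
    by_contra! h
    have hle : (Km (kerChi χ)).map C.Nm ≤ (Km U).map (powMonoidHom p) := by
      rintro _ ⟨l, hl, rfl⟩; exact h l hl
    have hdvd := Subgroup.relIndex_dvd_of_le_left (Km U) hle
    rw [show ((Km (kerChi χ)).map C.Nm).relIndex (Km U) = p from C.relIndex_norm,
      relIndex_pow_Km hU, ← muCard, muCard_of_triv hω] at hdvd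
    obtain ⟨k, hk⟩ := hdvd
    have hp := (Fact.out : p.Prime)
    have h1 : 1 = (if (q : ℕ) = p then p ^ U.index else 1) * p * k :=
      Nat.eq_of_mul_eq_mul_left hp.pos (by rw [mul_one]; linarith [hk])
    exact hp.ne_one (Nat.eq_one_of_mul_eq_one_left (Nat.eq_one_of_mul_eq_one_right h1.symm))
  have hN : C.Nm l ∈ Km U := C.Nm_mem_base hl
  have hk : kum p hU (Additive.ofMul ⟨C.Nm l, hN⟩) ≠ 0 := fun h => hl' ((kum_eq_zero_iff hU _).1 h)
  obtain ⟨χ', hχ'⟩ := exists_symU_ne_right hU hω hk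
  obtain ⟨b, hb⟩ : ∃ b : cH1 (loc q) (Ind (kerChi χ) (mu p)),
      ev1 U (mu p) (fib1 (kerChi_le χ) b) = kum p hU (Additive.ofMul ⟨C.Nm l, hN⟩) :=
    exists_fib1_eq_norm C l hl hN
  obtain ⟨a, ha⟩ := (ev1_bijective hU (isAdm_one p)).2 χ'
  have hz : fib2 (kerChi_le χ) (symI (openU_kerChi hU χ) (pull1 (kerChi_le χ) a) b) ≠ 0 := fun h => by
    rw [fib2_symI hU] at h
    have h' := congrArg (ev2 U (mu p)) h
    rw [ev2_symI, map_zero, ha, hb] at h'
    exact hχ' h'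
  refine ⟨⟨_, ⟨_, _, rfl⟩, hz⟩, fun c hc => ?_⟩
  obtain ⟨g', -, -, hl'⟩ := exists_gen_sym (openU_kerChi hU χ) fun u hu => hω u (kerChi_le χ hu)
  obtain ⟨k, hk'⟩ := hl' _ ⟨_, _, rfl⟩
  obtain ⟨m, hm⟩ := hl' _ (isSym_pull hU (openU_kerChi hU χ) (kerChi_le χ) hc)
  have h0 := fib2_pull2 (openU_kerChi hU χ) (kerChi_le χ) c
  rw [relIndex_kerChi hχ, ZMod.natCast_self, zero_smul, hm, map_smul, smul_eq_zero] at h0
  rcases h0 with h0 | h0
  · rw [hm, h0, zero_smul]
  · exact absurd (by rw [hk', map_smul, h0, smul_zero]) hz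

/-- a character of a `p`-group quotient -/
theorem exists_chi_of_pgroup (hU : OpenU q U) {V : Subgroup (Gam q)} (hV : OpenU q V) (h : V ≤ U)
    [(V.subgroupOf U).Normal] {n : ℕ} (hn : V.relIndex U = p ^ (n + 1)) :
    ∃ χ : Z1 (rU U) (oneU p U), h1mk (rU U) _ χ ≠ 0 ∧ V ≤ kerChi χ := by
  classical
  let Q := U ⧸ V.subgroupOf U
  have hQ : Nat.card Q = p ^ (n + 1) := hn
  haveI : Finite Q := Nat.finite_of_card_ne_zero (by
    rw [hQ]; exact pow_ne_zero _ (Fact.out : p.Prime).ne_zero)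
  obtain ⟨W, hW⟩ := Sylow.exists_subgroup_card_pow_prime (G := Q) p (n := n)
    (by rw [hQ]; exact pow_dvd_pow p (Nat.le_succ n))
  have hWi : W.index = p := by
    have e := W.card_mul_index
    rw [hW, hQ, pow_succ] at e
    exact Nat.eq_of_mul_eq_mul_left (pow_pos (Fact.out : p.Prime).pos n) e
  haveI : W.Normal := Subgroup.normal_of_index_eq_minFac_card (by
    rw [hWi, hQ, Nat.pow_minFac (Nat.succ_ne_zero n), (Fact.out : p.Prime).minFac_eq])
  have hc : Nat.card (Q ⧸ W) = p := by rw [← Subgroup.index_eq_card, hWi]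
  let e : Q ⧸ W ≃* Multiplicative (ZMod p) := mulEquivOfPrimeCardEq hc
    (by rw [Nat.card_congr Multiplicative.toAdd, Nat.card_zmod])
  let f : U →* Multiplicative (ZMod p) :=
    e.toMonoidHom.comp ((QuotientGroup.mk' W).comp (QuotientGroup.mk' (V.subgroupOf U)))
  have hf : ∀ v : U, (v : Gam q) ∈ V → f v = 1 := fun v hv => by
    show e ((QuotientGroup.mk' W) ((QuotientGroup.mk' (V.subgroupOf U)) v)) = 1
    rw [show (QuotientGroup.mk' (V.subgroupOf U)) v = 1 from (QuotientGroup.eq_one_iff v).2 hv,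
      map_one, map_one]
  have hmem : (fun u => (Multiplicative.toAdd (f u) : ZMod p)) ∈ Z1 (rU U) (oneU p U) := by
    obtain ⟨F, hF, hle⟩ := hV
    refine ⟨(mem_cocycles₁_iff (A := oneU p U) _).2 fun u v => ?_, F, hF, fun u s hs => ?_⟩
    · show Multiplicative.toAdd (f (u * v)) = (Multiplicative.toAdd (f v) : ZMod p) + Multiplicative.toAdd (f u)
      rw [map_mul, toAdd_mul, add_comm]
    · show Multiplicative.toAdd (f (u * s)) = Multiplicative.toAdd (f u)
      rw [map_mul, hf s (hle hs), mul_one]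
  refine ⟨⟨_, hmem⟩, fun h0 => ?_, fun v hv => ⟨h hv, ?_⟩⟩
  · obtain ⟨m, hm⟩ := (h1mk_eq_zero_iff _ _).1 h0
    have hsurj : Function.Surjective f := e.surjective.comp
      ((QuotientGroup.mk'_surjective W).comp (QuotientGroup.mk'_surjective _))
    obtain ⟨u, hu⟩ := hsurj (Multiplicative.ofAdd (1 : ZMod p))
    have e1 : ((oneU p U).ρ u m : ZMod p) - m = Multiplicative.toAdd (f u) := hm u
    rw [hu, show ((oneU p U).ρ u m : ZMod p) = m from rfl, sub_self] at e1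
    exact zero_ne_one e1
  · show Multiplicative.toAdd (f ⟨v, h hv⟩) = (0 : ZMod p)
    rw [hf _ hv]; rfl

/-- classes killed by a normal subgroup of `p`-power index are symbols -/
theorem isSym_of_kill : ∀ (n : ℕ) (U : Subgroup (Gam q)) (hU : OpenU q U),
    (∀ u ∈ U, om p u = 1) → ∀ (V : Subgroup (Gam q)), OpenU q V → ∀ h : V ≤ U,
      V.Normal → V.relIndex U = p ^ n → ∀ c : cH2 (loc q) (Ind U (mu p)),
        pull2 h c = 0 → IsSym hU c
  | 0, U, hU, _, V, _, h, _, hn, c, hc => by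
    rw [pow_zero, Subgroup.relIndex_eq_one] at hn
    obtain rfl : V = U := le_antisymm h hn
    rw [pull2_self] at hc
    exact ⟨0, 0, by rw [hc, map_zero]⟩
  | n + 1, U, hU, hω, V, hV, h, hVn, hn, c, hc => by
    haveI := hVn
    haveI : (V.subgroupOf U).Normal := hVn.subgroupOf U
    obtain ⟨χ, hχ, hVk⟩ := exists_chi_of_pgroup hU hV h hn
    haveI := finite_quot (openU_kerChi hU χ)
    obtain ⟨⟨z, hz, hfz⟩, -⟩ := exists_step hU hω χ hχ
    have hidx : V.relIndex (kerChi χ) = p ^ n := by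
      have e := Subgroup.relIndex_mul_relIndex V (kerChi χ) U hVk (kerChi_le χ)
      rw [relIndex_kerChi hχ, hn, pow_succ] at e
      exact Nat.eq_of_mul_eq_mul_right (Fact.out : p.Prime).pos e
    have hs := isSym_of_kill n (kerChi χ) (openU_kerChi hU χ)
      (fun u hu => hω u (kerChi_le χ hu)) V hV hVk hVn hidx (pull2 (kerChi_le χ) c)
      (by rw [pull2_pull2]; exact hc)
    obtain ⟨g', -, hg', hl⟩ := exists_gen_sym (openU_kerChi hU χ)
      fun u hu => hω u (kerChi_le χ hu)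
    obtain ⟨k, hk⟩ := hl _ hz
    obtain ⟨m, hm⟩ := hl _ hs
    have h0 := fib2_pull2 (openU_kerChi hU χ) (kerChi_le χ) c
    rw [relIndex_kerChi hχ, ZMod.natCast_self, zero_smul, hm, map_smul, smul_eq_zero] at h0
    have h1 : pull2 (kerChi_le χ) c = 0 := by
      rcases h0 with h0 | h0
      · rw [hm, h0, zero_smul]
      · exact absurd (by rw [hk, map_smul, h0, smul_zero]) hfz
    refine (isSym_iff hU c).2 ⟨h1mk (rU U) _ χ, ?_⟩
    refine exists_symU_of_kill hU hω χ hχ _ ?_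
    rw [← ev2_pull, h1, map_zero]

/-- the preimage of a Sylow subgroup -/
theorem exists_sylow_between {V : Subgroup (Gam q)} (hV : OpenU q V) (h : V ≤ U) [V.Normal] :
    ∃ (U₁ : Subgroup (Gam q)) (n : ℕ), V ≤ U₁ ∧ U₁ ≤ U ∧ V.relIndex U₁ = p ^ n ∧
      ¬ p ∣ U₁.relIndex U := by
  classical
  haveI : (V.subgroupOf U).Normal := (inferInstance : V.Normal).subgroupOf U
  let Q := U ⧸ V.subgroupOf U
  haveI := finite_quot hV
  haveI : Finite Q := Nat.finite_of_card_ne_zero fun e => index_ne_zero hV (by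
    rw [← Subgroup.relIndex_mul_index h]; exact mul_eq_zero_of_left e _)
  let P : Sylow p Q := default
  obtain ⟨n, hn⟩ := IsPGroup.iff_card.1 P.2
  set W : Subgroup U := (P : Subgroup Q).comap (QuotientGroup.mk' (V.subgroupOf U))
  have hWi : (W.map U.subtype).relIndex U = (P : Subgroup Q).index := by
    rw [Subgroup.relIndex, Subgroup.subgroupOf, Subgroup.comap_map_eq_self_of_injective U.subtype_injective,
      Subgroup.index_comap_of_surjective _ (QuotientGroup.mk'_surjective _)]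
  have hVW : V ≤ W.map U.subtype := fun v hv => ⟨⟨v, h hv⟩, by
    show QuotientGroup.mk' (V.subgroupOf U) ⟨v, h hv⟩ ∈ (P : Subgroup Q)
    rw [show QuotientGroup.mk' (V.subgroupOf U) ⟨v, h hv⟩ = 1 from
      (QuotientGroup.eq_one_iff _).2 hv]
    exact one_mem _, rfl⟩
  refine ⟨W.map U.subtype, n, hVW, Subgroup.map_subtype_le _, ?_, hWi ▸ P.not_dvd_index⟩
  have e1 := Subgroup.relIndex_mul_relIndex V (W.map U.subtype) U hVW (Subgroup.map_subtype_le _)
  have e2 : Nat.card (P : Subgroup Q) * (P : Subgroup Q).index = V.relIndex U :=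
    (P : Subgroup Q).card_mul_index
  rw [← e2, hWi, hn] at e1
  exact Nat.eq_of_mul_eq_mul_right (Nat.pos_of_ne_zero (Subgroup.index_ne_zero_of_finite)) e1

/-- the classes form a line -/
theorem exists_gen_all (hU : OpenU q U) (hω : ∀ u ∈ U, om p u = 1) :
    ∃ g : cH2 (loc q) (Ind U (mu p)), g ≠ 0 ∧ ∀ c, ∃ k : ZMod p, c = k • g := by
  obtain ⟨g, hg, hg0, -⟩ := exists_gen_sym hU hω
  refine ⟨g, hg0, fun c => ?_⟩
  obtain ⟨V, hV, hVn, hle, hc, hg'⟩ := exists_kill hU hω c g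
  haveI := hVn
  obtain ⟨U₁, n, hV₁, h₁, hn, hnd⟩ := exists_sylow_between (p := p) hV hle
  have hU₁ := openU_mono hV hV₁
  haveI := finite_quot hU₁
  have hω₁ : ∀ u ∈ U₁, om p u = 1 := fun u hu => hω u (h₁ hu)
  have hinj := (fib2_surjective_of_unit (N := mu p) hU₁ h₁ hnd).2
  obtain ⟨g₁, -, -, hl⟩ := exists_gen_sym hU₁ hω₁
  obtain ⟨a, ha⟩ := hl _ (isSym_of_kill n U₁ hU₁ hω₁ V hV hV₁ hVn hn (pull2 h₁ c)
    (by rw [pull2_pull2]; exact hc))
  obtain ⟨b, hb⟩ := hl _ (isSym_of_kill n U₁ hU₁ hω₁ V hV hV₁ hVn hn (pull2 h₁ g)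
    (by rw [pull2_pull2]; exact hg'))
  have hb0 : b ≠ 0 := fun e => hg0 (hinj (by rw [hb, e, zero_smul, map_zero]))
  exact ⟨a * b⁻¹, hinj (by rw [map_smul, ha, hb, smul_smul, inv_mul_cancel_right₀ hb0])⟩

theorem fib2_surjective_pgroup : ∀ (n : ℕ) (U : Subgroup (Gam q)), OpenU q U →
    (∀ u ∈ U, om p u = 1) → ∀ (V : Subgroup (Gam q)) [Finite (Gam q ⧸ V)], OpenU q V → ∀ h : V ≤ U,
      V.Normal → V.relIndex U = p ^ n → Function.Surjective (fib2 (N := mu p) h)
  | 0, U, _, _, V, _, hV, h, _, hn => by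
    refine (fib2_surjective_of_unit hV h ?_).1
    rw [hn, pow_zero, Nat.dvd_one]
    exact (Fact.out : p.Prime).ne_one
  | n + 1, U, hU, hω, V, _, hV, h, hVn, hn => by
    haveI := hVn
    haveI : (V.subgroupOf U).Normal := hVn.subgroupOf U
    obtain ⟨χ, hχ, hVk⟩ := exists_chi_of_pgroup hU hV h hn
    haveI := finite_quot (openU_kerChi hU χ)
    obtain ⟨⟨z, -, hfz⟩, -⟩ := exists_step hU hω χ hχ
    have hidx : V.relIndex (kerChi χ) = p ^ n := by
      have e := Subgroup.relIndex_mul_relIndex V (kerChi χ) U hVk (kerChi_le χ)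
      rw [relIndex_kerChi hχ, hn, pow_succ] at e
      exact Nat.eq_of_mul_eq_mul_right (Fact.out : p.Prime).pos e
    intro c
    obtain ⟨g, hg, hl⟩ := exists_gen_all hU hω
    obtain ⟨a, ha⟩ := hl c
    obtain ⟨b, hb⟩ := hl (fib2 (kerChi_le χ) z)
    have hb0 : b ≠ 0 := fun e => hfz (by rw [hb, e, zero_smul])
    obtain ⟨d, hd⟩ := fib2_surjective_pgroup n (kerChi χ) (openU_kerChi hU χ)
      (fun u hu => hω u (kerChi_le χ hu)) V hV hVk hVn hidx ((a * b⁻¹) • z)
    refine ⟨d, ?_⟩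
    rw [← fib2_fib2 hVk (kerChi_le χ), hd, map_smul, hb, ha, smul_smul, inv_mul_cancel_right₀ hb0]

/-- corestriction between subgroups fixing the roots of unity is surjective -/
theorem fib2_surjective_triv (hU : OpenU q U) (hω : ∀ u ∈ U, om p u = 1) [Finite (Gam q ⧸ U')]
    (hU' : OpenU q U') (h : U' ≤ U) : Function.Surjective (fib2 (N := mu p) h) := by
  obtain ⟨F, hF, hle⟩ := hU'
  haveI := hF
  obtain ⟨F', hF', hFle, hn⟩ := exists_normal_level F
  set V := F'.fixingSubgroup.comap (loc q)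
  have hV : OpenU q V := ⟨F', hF', le_rfl⟩
  haveI : V.Normal := hn.comap (loc q)
  have hVU' : V ≤ U' := fun g hg => hle (hFle hg)
  haveI := finite_quot hV
  obtain ⟨U₁, n, hV₁, h₁, hni, hnd⟩ := exists_sylow_between (p := p) hV (hVU'.trans h)
  have hU₁ := openU_mono hV hV₁
  haveI := finite_quot hU₁
  intro c
  obtain ⟨c₁, rfl⟩ := (fib2_surjective_of_unit hU₁ h₁ hnd).1 c
  obtain ⟨d, rfl⟩ := fib2_surjective_pgroup n U₁ hU₁ (fun u hu => hω u (h₁ hu)) V hV hV₁
    (inferInstance) hni c₁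
  exact ⟨fib2 hVU' d, by rw [fib2_fib2 hVU' h, fib2_fib2 hV₁ h₁]⟩

end Kill

section General

/-- the kernel of the cyclotomic character -/
def Kom (p : ℕ) [Fact p.Prime] (q : Nat.Primes) : Subgroup (Gam q) :=
  ((ExtCitation.cycloChar p).comp (loc q)).ker

theorem om_Kom {u : Gam q} (hu : u ∈ Kom p q) : om p u = 1 := by
  rw [om, show ExtCitation.cycloChar p (loc q u) = 1 from hu, Units.val_one]

theorem openU_Kom : OpenU q (Kom p q) := by
  obtain ⟨F, hF, hρ⟩ := (isAdm_mu p).level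
  refine ⟨F, hF, fun g hg => Units.ext ?_⟩
  have h := LinearMap.congr_fun (hρ (loc q g) hg) (1 : ZMod p)
  rw [Units.val_one]
  simpa [Representation.twist_apply] using h

theorem not_dvd_index_Kom : ¬ p ∣ (Kom p q).index := fun h => by
  have hp := (Fact.out : p.Prime)
  have h1 : (Kom p q).index ∣ p - 1 := by
    rw [Kom, Subgroup.index_ker, ← Nat.totient_prime hp, ← ZMod.card_units_eq_totient,
      ← Nat.card_eq_fintype_card]
    exact Subgroup.card_subgroup_dvd_card _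
  have h2 : p ≤ p - 1 := Nat.le_of_dvd (Nat.sub_pos_of_lt hp.one_lt) (h.trans h1)
  have h3 : 2 ≤ p := hp.two_le
  omega

theorem not_dvd_relIndex_Kom (U : Subgroup (Gam q)) : ¬ p ∣ (U ⊓ Kom p q).relIndex U := fun h => by
  haveI : (Kom p q).Normal := MonoidHom.normal_ker _
  refine not_dvd_index_Kom (p := p) (q := q) (h.trans ?_)
  rw [inf_comm, Subgroup.inf_relIndex_right]
  exact Subgroup.relIndex_dvd_index_of_normal _ _

/-- for any open subgroup there is at most a line -/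
theorem exists_gen_open (hU : OpenU q U) :
    ∃ g : cH2 (loc q) (Ind U (mu p)), ∀ c, ∃ k : ZMod p, c = k • g := by
  have hU₀ := openU_inf hU (openU_Kom (p := p) (q := q))
  haveI := finite_quot hU₀
  obtain ⟨hs, -⟩ := fib2_surjective_of_unit (N := mu p) hU₀ inf_le_left (not_dvd_relIndex_Kom U)
  obtain ⟨g, -, hl⟩ := exists_gen_all hU₀ fun u hu => om_Kom (p := p) hu.2
  refine ⟨fib2 inf_le_left g, fun c => ?_⟩
  obtain ⟨d, rfl⟩ := hs c
  obtain ⟨k, rfl⟩ := hl d
  exact ⟨k, map_smul _ _ _⟩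

theorem indSum_top_bijective [Finite (Gam q ⧸ (⊤ : Subgroup (Gam q)))] :
    Function.Bijective (eps2 (⊤ : Subgroup (Gam q)) N) := by
  haveI : Subsingleton (Gam q ⧸ (⊤ : Subgroup (Gam q))) := QuotientGroup.subsingleton_quotient_top
  let g : Rep.res (loc q) N →ₗ[ZMod p] Ind (⊤ : Subgroup (Gam q)) N := LinearMap.pi fun _ => LinearMap.id
  have hsum : ∀ f : Ind (⊤ : Subgroup (Gam q)) N,
      indSum (⊤ : Subgroup (Gam q)) (Rep.res (loc q) N) f = f ((1 : Gam q) : Gam q ⧸ (⊤ : Subgroup (Gam q))) := by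
    intro f
    letI := Fintype.ofFinite (Gam q ⧸ (⊤ : Subgroup (Gam q)))
    show (∑ y, f y) = _
    exact Fintype.sum_subsingleton _ _
  refine h2push_bijective _ g indSum_Ind_eqv (fun x a => rfl) (fun f => ?_) fun a => ?_
  · funext y
    rw [Subsingleton.elim y ((1 : Gam q) : Gam q ⧸ (⊤ : Subgroup (Gam q)))]
    exact hsum f
  · rw [hsum]
    rfl

/-- corestriction to the whole group is surjective -/
theorem eps2_surjective [Finite (Gam q ⧸ U)] (hU : OpenU q U) :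
    Function.Surjective (eps2 U (mu p)) := by
  have hK := openU_Kom (p := p) (q := q)
  have hU₀ := openU_inf hU hK
  haveI := finite_quot hU₀
  haveI := finite_quot hK
  haveI : Finite (Gam q ⧸ (⊤ : Subgroup (Gam q))) := finite_quot (openU_top q)
  intro c
  obtain ⟨c₁, rfl⟩ := (indSum_top_bijective (q := q) (N := mu p)).2 c
  obtain ⟨c₂, rfl⟩ := (fib2_surjective_of_unit (N := mu p) hK le_top
    (by rw [Subgroup.relIndex_top_right]; exact not_dvd_index_Kom)).1 c₁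
  obtain ⟨c₃, rfl⟩ := fib2_surjective_triv hK (fun u hu => om_Kom hu) hU₀ inf_le_right c₂
  exact ⟨fib2 inf_le_left c₃, by rw [eps2_fib2, eps2_fib2, eps2_fib2]⟩

theorem exists_gen_lH2 : ∃ g : lH2 q (mu p), ∀ c, ∃ k : ZMod p, c = k • g := by
  haveI : Finite (Gam q ⧸ (⊤ : Subgroup (Gam q))) := finite_quot (openU_top q)
  obtain ⟨g, hg⟩ := exists_gen_open (p := p) (openU_top q)
  refine ⟨eps2 ⊤ (mu p) g, fun c => ?_⟩
  obtain ⟨d, rfl⟩ := (indSum_top_bijective (q := q) (N := mu p)).2 c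
  obtain ⟨k, rfl⟩ := hg d
  exact ⟨k, map_smul _ _ _⟩

end General

end FLTAgent.PT.Loc
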