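import Fermat.Agent.PT.Local.Top
import Fermat.Agent.PT.Dual.PermBase

/-!
Parcel C: the local classes of the permutation modules, and corestriction from them.
-/

set_option autoImplicit false
set_option linter.style.haveILetI false
set_option linter.unusedSectionVars false

noncomputable section

open CategoryTheory groupCohomology

namespace FLTAgent.PT.Loc

variable {p : ℕ} [Fact p.Prime] {q : Nat.Primes} {H : Subgroup GQ}

/-- the stabiliser of a coset in the local group -/
abbrev stQ (q : Nat.Primes) (H : Subgroup GQ) (x : GQ ⧸ H) : Subgroup (Gam q) :=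
  stabAt (loc q) H x

theorem mem_stQ {x : GQ ⧸ H} {u : Gam q} : u ∈ stQ q H x ↔ loc q u • x = x := Iff.rfl

theorem openU_stQ (hH : IsOpenSub (MonoidHom.id GQ) H) (x : GQ ⧸ H) : OpenU q (stQ q H x) := by
  obtain ⟨F, hF, hle⟩ := hH
  haveI := hF
  obtain ⟨F', hF', hle', hn⟩ := exists_normal_level F
  refine ⟨F', hF', fun g hg => ?_⟩
  refine smul_coset_eq (U := F'.fixingSubgroup) hn (fun a ha => hle (hle' ha)) ?_ x
  exact hg

theorem om_stQ (hω : ∀ h ∈ H, ExtCitation.cycloChar p h = 1) (x : GQ ⧸ H) :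
    ∀ u ∈ stQ q H x, om p u = 1 := by
  intro u hu
  induction x using QuotientGroup.induction_on with
  | H a =>
    rw [mem_stQ, MulAction.Quotient.smul_mk, smul_eq_mul, QuotientGroup.eq] at hu
    have h := hω _ hu
    rw [map_mul, map_inv, map_mul, mul_inv, inv_mul_cancel_right, inv_eq_one] at h
    rw [om, h, Units.val_one]

/-- representatives of the orbits -/
def repsQ (q : Nat.Primes) (H : Subgroup GQ) : Set (GQ ⧸ H) :=
  Set.range (Quotient.out : MulAction.orbitRel.Quotient (loc q).range (GQ ⧸ H) → GQ ⧸ H)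

theorem isOrbitReps_repsQ : IsOrbitReps (loc q) H (repsQ q H) := by
  intro x
  have h1 : ∃ g, loc q g • (Quotient.mk (MulAction.orbitRel (loc q).range (GQ ⧸ H)) x).out = x := by
    obtain ⟨⟨_, g, rfl⟩, he⟩ :
        ∃ d : (loc q).range, d • x =
          (Quotient.mk (MulAction.orbitRel (loc q).range (GQ ⧸ H)) x).out :=
      MulAction.orbitRel_apply.1 (Quotient.mk_out (s := MulAction.orbitRel (loc q).range (GQ ⧸ H)) x)
    refine ⟨g⁻¹, ?_⟩
    rw [map_inv, inv_smul_eq_iff]
    exact he.symm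
  refine ⟨⟨_, Quotient.mk _ x, rfl⟩, h1, ?_⟩
  rintro ⟨_, o, rfl⟩ ⟨g, hg⟩
  refine Subtype.ext (congrArg Quotient.out ?_)
  rw [← o.out_eq]
  exact (Quotient.sound (MulAction.orbitRel_apply.2 ⟨⟨loc q g, g, rfl⟩, hg⟩)).symm

theorem card_repsQ : Nat.card (repsQ q H) = Nat.card (Quotient (MulAction.orbitRel (loc q).range (GQ ⧸ H))) :=
  Nat.card_congr (Equiv.ofInjective _ Quotient.out_injective).symm

theorem sum_index_stQ (hH : IsOpenSub (MonoidHom.id GQ) H) [Fintype (repsQ q H)] :
    ∑ x : repsQ q H, (stQ q H x.1).index = H.index := by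
  classical
  haveI := hH.finite_quotient
  haveI : ∀ x : repsQ q H, Finite (Gam q ⧸ stQ q H x.1) := fun x => finite_quot (openU_stQ hH x.1)
  let F : (Σ x : repsQ q H, Gam q ⧸ stQ q H x.1) → GQ ⧸ H := fun y =>
    Quotient.liftOn' y.2 (fun g => loc q g • (y.1.1 : GQ ⧸ H)) fun a b hab => by
      rw [QuotientGroup.leftRel_apply] at hab
      have h : loc q (a⁻¹ * b) • (y.1.1 : GQ ⧸ H) = y.1.1 := hab
      conv_lhs => rw [← h]
      rw [smul_smul, ← map_mul, mul_inv_cancel_left]
  have hF : ∀ (x : repsQ q H) (g : Gam q), F ⟨x, (g : Gam q ⧸ stQ q H x.1)⟩ = loc q g • (x.1 : GQ ⧸ H) := fun _ _ => rfl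
  have hb : Function.Bijective F := by
    refine ⟨?_, fun z => ?_⟩
    · rintro ⟨x, a⟩ ⟨y, b⟩ h
      induction a using QuotientGroup.induction_on with
      | H a =>
        induction b using QuotientGroup.induction_on with
        | H b =>
          rw [hF, hF] at h
          obtain ⟨w, -, hu⟩ := isOrbitReps_repsQ (q := q) (H := H) (loc q a • x.1)
          obtain rfl : x = y := (hu x ⟨a, rfl⟩).trans (hu y ⟨b, h.symm⟩).symm
          refine Sigma.ext rfl (heq_of_eq (QuotientGroup.eq.2 ?_))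
          rw [mem_stQ, map_mul, map_inv, mul_smul, inv_smul_eq_iff, ← h]
    · obtain ⟨y, ⟨g, hg⟩, -⟩ := isOrbitReps_repsQ (q := q) (H := H) z
      exact ⟨⟨y, (g : Gam q ⧸ stQ q H y.1)⟩, hg⟩
  rw [Subgroup.index_eq_card, ← Nat.card_congr (Equiv.ofBijective F hb), Nat.card_sigma]
  exact Finset.sum_congr rfl fun x _ => Subgroup.index_eq_card _

section Perm

variable (hH : IsOpenSub (MonoidHom.id GQ) H) (hω : ∀ h ∈ H, ExtCitation.cycloChar p h = 1)

/-- `H¹` of a permutation module as a product -/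
def permEquiv1 : lH1 q (ind H (one p)) ≃ₗ[ZMod p]
    ∀ x : repsQ q H, cH1 (rU (stQ q H x.1)) (Rep.res (rU (stQ q H x.1)) (mu p)) :=
  (LinearEquiv.ofBijective
    (h1push (loc q) (A := Rep.res (loc q) (ind H (one p))) (B := Rep.res (loc q) (ind H (mu p)))
      (twistMu hω) fun g a => twistMu_eqv hω (loc q g) a)
    (h1push_bijective (r := loc q) (A := Rep.res (loc q) (ind H (one p)))
      (B := Rep.res (loc q) (ind H (mu p))) (twistMu hω) (untwistMu hω)
      (fun g a => twistMu_eqv hω (loc q g) a) (fun g a => untwistMu_eqv hω (loc q g) a)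
      (untwist_twist hω) (twist_untwist hω))).trans
  (LinearEquiv.ofBijective (shap1 (loc q) H (mu p) (loc q) (repsQ q H))
    (shap1_bijective (f := loc q) (H := H) (r := MonoidHom.id GQ) (r' := loc q) (fun _ => rfl) hH (isAdm_mu p) isOrbitReps_repsQ))

/-- `H²` of a permutation module as a product -/
def permEquiv2 : lH2 q (ind H (one p)) ≃ₗ[ZMod p]
    ∀ x : repsQ q H, cH2 (rU (stQ q H x.1)) (Rep.res (rU (stQ q H x.1)) (mu p)) :=
  (LinearEquiv.ofBijective
    (h2push (loc q) (A := Rep.res (loc q) (ind H (one p))) (B := Rep.res (loc q) (ind H (mu p)))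
      (twistMu hω) fun g a => twistMu_eqv hω (loc q g) a)
    (h2push_bijective (r := loc q) (A := Rep.res (loc q) (ind H (one p)))
      (B := Rep.res (loc q) (ind H (mu p))) (twistMu hω) (untwistMu hω)
      (fun g a => twistMu_eqv hω (loc q g) a) (fun g a => untwistMu_eqv hω (loc q g) a)
      (untwist_twist hω) (twist_untwist hω))).trans
  (LinearEquiv.ofBijective (shap2 (loc q) H (mu p) (loc q) (repsQ q H))
    (shap2_bijective (f := loc q) (H := H) (r := MonoidHom.id GQ) (r' := loc q) (fun _ => rfl) hH (isAdm_mu p) isOrbitReps_repsQ))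

theorem finite_repsQ (hH : IsOpenSub (MonoidHom.id GQ) H) : Finite (repsQ q H) := by
  haveI := hH.finite_quotient
  exact Subtype.finite

include hH hω in
theorem finite_lH1_perm : Module.Finite (ZMod p) (lH1 q (ind H (one p))) := by
  haveI := finite_repsQ (q := q) hH
  haveI : ∀ x : repsQ q H,
      Module.Finite (ZMod p) (cH1 (rU (stQ q H x.1)) (Rep.res (rU (stQ q H x.1)) (mu p))) := fun x => by
    haveI := finite_cH1_mu (p := p) (openU_stQ (q := q) hH x.1)
    exact Module.Finite.of_finite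
  exact Module.Finite.equiv (permEquiv1 hH hω).symm

include hH hω in
theorem finite_lH2_perm : Module.Finite (ZMod p) (lH2 q (ind H (one p))) := by
  haveI := finite_repsQ (q := q) hH
  haveI : ∀ x : repsQ q H,
      Module.Finite (ZMod p) (cH2 (rU (stQ q H x.1)) (Rep.res (rU (stQ q H x.1)) (mu p))) := fun x =>
    Module.finite_of_finrank_eq_succ (finrank_cH2_mu_open' (openU_stQ (q := q) hH x.1))
  exact Module.Finite.equiv (permEquiv2 hH hω).symm

include hH hω in
theorem finrank_lH2_perm :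
    Module.finrank (ZMod p) (lH2 q (ind H (one p))) =
      Nat.card (Quotient (MulAction.orbitRel (loc q).range (GQ ⧸ H))) := by
  haveI := finite_repsQ (q := q) hH
  letI := Fintype.ofFinite (repsQ q H)
  haveI : ∀ x : repsQ q H,
      Module.Finite (ZMod p) (cH2 (rU (stQ q H x.1)) (Rep.res (rU (stQ q H x.1)) (mu p))) := fun x =>
    Module.finite_of_finrank_eq_succ (finrank_cH2_mu_open' (openU_stQ (q := q) hH x.1))
  haveI : ∀ x : repsQ q H,
      Module.Free (ZMod p) (cH2 (rU (stQ q H x.1)) (Rep.res (rU (stQ q H x.1)) (mu p))) :=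
    fun _ => Module.Free.of_divisionRing _ _
  rw [(permEquiv2 hH hω).finrank_eq, Module.finrank_pi_fintype,
    Finset.sum_congr rfl fun x _ => finrank_cH2_mu_open' (openU_stQ (q := q) hH x.1),
    Finset.sum_const, Finset.card_univ, ← Nat.card_eq_fintype_card, card_repsQ, smul_eq_mul, mul_one]

include hH hω in
theorem finrank_lH1_perm' :
    Module.finrank (ZMod p) (lH1 q (ind H (one p))) =
      2 * Nat.card (Quotient (MulAction.orbitRel (loc q).range (GQ ⧸ H))) +
        if (q : ℕ) = p then H.index else 0 := by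
  haveI := finite_repsQ (q := q) hH
  letI := Fintype.ofFinite (repsQ q H)
  haveI : ∀ x : repsQ q H,
      Module.Finite (ZMod p) (cH1 (rU (stQ q H x.1)) (Rep.res (rU (stQ q H x.1)) (mu p))) := fun x => by
    haveI := finite_cH1_mu (p := p) (openU_stQ (q := q) hH x.1)
    exact Module.Finite.of_finite
  haveI : ∀ x : repsQ q H,
      Module.Free (ZMod p) (cH1 (rU (stQ q H x.1)) (Rep.res (rU (stQ q H x.1)) (mu p))) :=
    fun _ => Module.Free.of_divisionRing _ _
  rw [(permEquiv1 hH hω).finrank_eq, Module.finrank_pi_fintype,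
    Finset.sum_congr rfl fun x _ =>
      finrank_cH1_mu_of_triv (openU_stQ (q := q) hH x.1) (om_stQ hω x.1),
    Finset.sum_add_distrib, Finset.sum_const, Finset.card_univ, ← Nat.card_eq_fintype_card,
    card_repsQ, smul_eq_mul, mul_comm]
  congr 1
  split_ifs
  · exact sum_index_stQ hH
  · exact Finset.sum_const_zero

end Perm

section Sum

variable {U : Subgroup (Gam q)} [Finite (Gam q ⧸ U)]

/-- push forward along an equivariant map of coset spaces -/
def pushCos {N : Rep.{0} (ZMod p) GQ} (ι : Gam q ⧸ U → GQ ⧸ H) :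
    Ind U N →ₗ[ZMod p] Rep.res (loc q) (ind H N) := by
  classical
  letI := Fintype.ofFinite (Gam q ⧸ U)
  exact
  { toFun := fun f z => ∑ x ∈ Finset.univ.filter (fun x => ι x = z), f x
    map_add' := fun f f' => funext fun z => Finset.sum_add_distrib
    map_smul' := fun c f => funext fun z => by simp [Finset.smul_sum] }

theorem pushCos_apply {N : Rep.{0} (ZMod p) GQ} [Fintype (Gam q ⧸ U)] [DecidableEq (GQ ⧸ H)]
    (ι : Gam q ⧸ U → GQ ⧸ H) (f : Ind U N) (z : GQ ⧸ H) :
    pushCos ι f z = ∑ x ∈ Finset.univ.filter (fun x => ι x = z), f x := by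
  show Finset.sum _ _ = _
  convert rfl

theorem pushCos_eqv {N : Rep.{0} (ZMod p) GQ} (ι : Gam q ⧸ U → GQ ⧸ H)
    (hι : ∀ g x, ι (g • x) = loc q g • ι x) (g : Gam q) (f : Ind U N) :
    pushCos ι ((Ind U N).ρ g f) = (Rep.res (loc q) (ind H N)).ρ g (pushCos ι f) := by
  classical
  letI := Fintype.ofFinite (Gam q ⧸ U)
  funext z
  rw [pushCos_apply]
  show ∑ x ∈ _, N.ρ (loc q g) (f (g⁻¹ • x)) = N.ρ (loc q g) (pushCos ι f ((loc q g)⁻¹ • z))
  rw [pushCos_apply, map_sum]
  refine Finset.sum_bij' (fun x _ => g⁻¹ • x) (fun x _ => g • x) (fun x hx => ?_) (fun x hx => ?_)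
    (fun x _ => smul_inv_smul g x) (fun x _ => inv_smul_smul g x) (fun x _ => rfl)
  · simp only [Finset.mem_filter, Finset.mem_univ, true_and] at hx ⊢
    rw [hι, hx, map_inv]
  · simp only [Finset.mem_filter, Finset.mem_univ, true_and] at hx ⊢
    rw [hι, hx, smul_inv_smul]

theorem indSum_pushCos {N : Rep.{0} (ZMod p) GQ} [Finite (GQ ⧸ H)] (ι : Gam q ⧸ U → GQ ⧸ H)
    (f : Ind U N) : indSum H N (pushCos ι f) = indSum U (Rep.res (loc q) N) f := by
  classical
  letI := Fintype.ofFinite (Gam q ⧸ U)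
  letI := Fintype.ofFinite (GQ ⧸ H)
  show (∑ z, pushCos ι f z) = ∑ x, f x
  rw [Finset.sum_congr rfl fun z _ => pushCos_apply ι f z]
  exact Finset.sum_fiberwise _ _ _

end Sum

theorem indSum_surjective' (q : Nat.Primes) (hH : IsOpenSub (MonoidHom.id GQ) H)
    [Finite (GQ ⧸ H)]
    (heqv : ∀ g a, (indSum H (mu p)) ((Rep.res (loc q) (ind H (mu p))).ρ g a) =
      (Rep.res (loc q) (mu p)).ρ g (indSum H (mu p) a)) :
    Function.Surjective (h2push (loc q) (A := Rep.res (loc q) (ind H (mu p)))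
      (B := Rep.res (loc q) (mu p)) (indSum H (mu p)) heqv) := by
  set x : GQ ⧸ H := ((1 : GQ) : GQ ⧸ H)
  set S := stQ q H x
  have hS : OpenU q S := openU_stQ hH x
  haveI := finite_quot hS
  let ι : Gam q ⧸ S → GQ ⧸ H := fun y =>
    Quotient.liftOn' y (fun g => loc q g • x) fun a b hab => by
      rw [QuotientGroup.leftRel_apply] at hab
      have h : loc q (a⁻¹ * b) • x = x := hab
      conv_lhs => rw [← h]
      rw [smul_smul, ← map_mul, mul_inv_cancel_left]
  have hι : ∀ g y, ι (g • y) = loc q g • ι y := by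
    intro g y
    induction y using QuotientGroup.induction_on with
    | H a =>
      show loc q (g * a) • x = loc q g • loc q a • x
      rw [map_mul, mul_smul]
  intro c
  obtain ⟨d, hd⟩ := eps2_surjective (p := p) hS c
  refine ⟨h2push (loc q) (pushCos ι) (pushCos_eqv ι hι) d, ?_⟩
  rw [← hd]
  exact h2push_h2push _ _ _ _ _ _ (indSum_pushCos ι) d

theorem finrank_lH1_mu' (hq : (q : ℕ) = p) (hp2 : p ≠ 2) :
    Module.finrank (ZMod p) (lH1 q (mu p)) = 2 := by
  haveI : Finite (Gam q ⧸ (⊤ : Subgroup (Gam q))) := finite_quot (openU_top q)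
  haveI : Subsingleton (Gam q ⧸ (⊤ : Subgroup (Gam q))) := QuotientGroup.subsingleton_quotient_top
  have hb : Function.Bijective (eps1 (⊤ : Subgroup (Gam q)) (mu p)) := by
    let g : Rep.res (loc q) (mu p) →ₗ[ZMod p] Ind (⊤ : Subgroup (Gam q)) (mu p) :=
      LinearMap.pi fun _ => LinearMap.id
    have hsum : ∀ f : Ind (⊤ : Subgroup (Gam q)) (mu p),
        indSum (⊤ : Subgroup (Gam q)) (Rep.res (loc q) (mu p)) f =
          f ((1 : Gam q) : Gam q ⧸ (⊤ : Subgroup (Gam q))) := by
      intro f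
      letI := Fintype.ofFinite (Gam q ⧸ (⊤ : Subgroup (Gam q)))
      show (∑ y, f y) = _
      exact Fintype.sum_subsingleton _ _
    refine h1push_bijective _ g indSum_Ind_eqv (fun _ _ => rfl) (fun f => ?_) fun a => ?_
    · funext y
      rw [Subsingleton.elim y ((1 : Gam q) : Gam q ⧸ (⊤ : Subgroup (Gam q)))]
      exact hsum f
    · rw [hsum]
      rfl
  rw [← (LinearEquiv.ofBijective _ hb).finrank_eq,
    (LinearEquiv.ofBijective _ (ev1_bijective (openU_top q) (isAdm_mu p))).finrank_eq]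
  refine finrank_cH1_mu (openU_top q) ?_
  rw [muCard_top hq hp2, if_pos hq, Subgroup.index_top, pow_one, mul_one, sq]

end FLTAgent.PT.Loc
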