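import Fermat.Agent.PT.Local.Kummer
import Fermat.Agent.PT.Local.Norm

/-!
Parcel C: symbols of an open subgroup fixing the roots of unity; a symbol vanishes exactly on the
norms, and the symbols form a line.
-/

set_option autoImplicit false
set_option linter.style.haveILetI false
set_option linter.unusedSectionVars false

noncomputable section

open CategoryTheory groupCohomology

namespace FLTAgent.PT.Loc

variable {p : ℕ} [Fact p.Prime] {q : Nat.Primes} {U : Subgroup (Gam q)}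

/-- trivial coefficients on `U` -/
abbrev oneU (p : ℕ) [Fact p.Prime] (U : Subgroup (Gam q)) : Rep.{0} (ZMod p) U :=
  Rep.res (rU U) (one p)

/-- roots of unity on `U` -/
abbrev muU (p : ℕ) [Fact p.Prime] (U : Subgroup (Gam q)) : Rep.{0} (ZMod p) U :=
  Rep.res (rU U) (mu p)

theorem isAdm_one (p : ℕ) [Fact p.Prime] : IsAdm (MonoidHom.id GQ) (one p) :=
  ⟨inferInstance, ⊥, inferInstance, fun _ _ => rfl⟩

theorem muU_apply (u : U) (a : ZMod p) : (muU p U).ρ u a = om p (u : Gam q) * a := mu_apply _ a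

/-- multiplication -/
def mulB (p : ℕ) [Fact p.Prime] (U : Subgroup (Gam q)) :
    oneU p U →ₗ[ZMod p] muU p U →ₗ[ZMod p] muU p U :=
  LinearMap.mul (ZMod p) (ZMod p)

theorem mulB_apply (a : oneU p U) (b : muU p U) : (mulB p U a b : ZMod p) = (a : ZMod p) * b := rfl

theorem mulB_eqv : IsEqv (mulB p U) := fun g a b => by
  show (a : ZMod p) * ((muU p U).ρ g b : ZMod p) = (muU p U).ρ g ((a : ZMod p) * b : ZMod p)
  rw [muU_apply, muU_apply]
  ring

/-- the symbol -/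
def symU (p : ℕ) [Fact p.Prime] (U : Subgroup (Gam q)) :
    cH1 (rU U) (oneU p U) →ₗ[ZMod p] cH1 (rU U) (muU p U) →ₗ[ZMod p] cH2 (rU U) (muU p U) :=
  cupH (rU U) (mulB p U) mulB_eqv ((isAdm_mu p).res _)

theorem Z1_one_add (χ : Z1 (rU U) (oneU p U)) (u v : U) :
    (χ.1 (u * v) : ZMod p) = χ.1 u + χ.1 v := by
  rw [show (χ.1 (u * v) : ZMod p) = χ.1 v + χ.1 u from (mem_cocycles₁_iff χ.1).1 χ.2.1 u v, add_comm]

section Twist

variable (hω : ∀ u ∈ U, om p u = 1)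

include hω in
theorem id_eqv (u : U) (a : oneU p U) :
    (LinearMap.id : ZMod p →ₗ[ZMod p] ZMod p) ((oneU p U).ρ u a) = (muU p U).ρ u a := by
  rw [muU_apply, hω u u.2, one_mul]; rfl

include hω in
theorem id_eqv' (u : U) (a : muU p U) :
    (LinearMap.id : ZMod p →ₗ[ZMod p] ZMod p) ((muU p U).ρ u a) = (oneU p U).ρ u a := by
  rw [LinearMap.id_apply, muU_apply, hω u u.2, one_mul]; rfl

/-- the identification of the two coefficient modules -/
def toMu : cH1 (rU U) (oneU p U) →ₗ[ZMod p] cH1 (rU U) (muU p U) :=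
  h1push (rU U) (A := oneU p U) (B := muU p U) LinearMap.id (id_eqv hω)

/-- its inverse -/
def toOne : cH1 (rU U) (muU p U) →ₗ[ZMod p] cH1 (rU U) (oneU p U) :=
  h1push (rU U) (A := muU p U) (B := oneU p U) LinearMap.id (id_eqv' hω)

theorem toMu_toOne (y : cH1 (rU U) (muU p U)) : toMu hω (toOne hω y) = y := by
  obtain ⟨z, rfl⟩ := Submodule.mkQ_surjective _ y
  rfl

theorem toOne_toMu (y : cH1 (rU U) (oneU p U)) : toOne hω (toMu hω y) = y := by
  obtain ⟨z, rfl⟩ := Submodule.mkQ_surjective _ y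
  rfl

theorem symU_skew (χ ψ : cH1 (rU U) (oneU p U)) :
    symU p U χ (toMu hω ψ) + symU p U ψ (toMu hω χ) = 0 := by
  let φ' : muU p U →ₗ[ZMod p] oneU p U →ₗ[ZMod p] muU p U := LinearMap.mul (ZMod p) (ZMod p)
  have hφ' : IsEqv φ' := fun g a b => by
    show ((muU p U).ρ g a : ZMod p) * ((oneU p U).ρ g b : ZMod p) = _
    rw [muU_apply, show ((oneU p U).ρ g b : ZMod p) = b from rfl, muU_apply]
    show _ = om p (g : Gam q) * ((a : ZMod p) * b)
    ring
  have h := cupH_flip (r := rU U) mulB_eqv ((isAdm_one p).res _) ((isAdm_mu p).res _) φ' hφ'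
    (fun a b => mul_comm _ _) χ (toMu hω ψ)
  have h2 : cupH (rU U) φ' hφ' ((isAdm_one p).res _) (toMu hω ψ) χ = symU p U ψ (toMu hω χ) := by
    obtain ⟨z, rfl⟩ := Submodule.mkQ_surjective _ χ
    obtain ⟨w, rfl⟩ := Submodule.mkQ_surjective _ ψ
    show h2mk (rU U) (muU p U) _ = h2mk (rU U) (muU p U) _
    refine congrArg _ (Subtype.ext (funext fun g => ?_))
    show (w.1 g.1 : ZMod p) * (z.1 g.2) = (w.1 g.1 : ZMod p) * ((muU p U).ρ g.1 (z.1 g.2) : ZMod p)
    rw [muU_apply, hω g.1 g.1.2, one_mul]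
  exact (congrArg _ h2.symm).trans h

end Twist

section Kernel

/-- the kernel of a character -/
def kerChi (χ : Z1 (rU U) (oneU p U)) : Subgroup (Gam q) where
  carrier := {g | ∃ h : g ∈ U, (χ.1 ⟨g, h⟩ : ZMod p) = 0}
  one_mem' := ⟨one_mem U, by
    have h := Z1_one_add χ 1 1
    rw [mul_one, left_eq_add] at h
    exact h⟩
  mul_mem' := fun {a b} ⟨ha, ha'⟩ ⟨hb, hb'⟩ => ⟨mul_mem ha hb, by
    rw [show (⟨a * b, mul_mem ha hb⟩ : U) = ⟨a, ha⟩ * ⟨b, hb⟩ from rfl, Z1_one_add, ha', hb',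
      add_zero]⟩
  inv_mem' := fun {a} ⟨ha, ha'⟩ => ⟨inv_mem ha, by
    have h := Z1_one_add χ ⟨a, ha⟩⁻¹ ⟨a, ha⟩
    rw [inv_mul_cancel, ha', add_zero] at h
    have h1 := Z1_one_add χ 1 1
    rw [mul_one, left_eq_add] at h1
    rw [h1] at h
    exact h.symm⟩

theorem kerChi_le (χ : Z1 (rU U) (oneU p U)) : kerChi χ ≤ U := fun _ h => h.1

theorem mem_kerChi {χ : Z1 (rU U) (oneU p U)} (u : U) :
    (u : Gam q) ∈ kerChi χ ↔ (χ.1 u : ZMod p) = 0 :=
  ⟨fun ⟨_, h⟩ => h, fun h => ⟨u.2, h⟩⟩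

/-- a character as a homomorphism -/
def chiHom (χ : Z1 (rU U) (oneU p U)) : U →* Multiplicative (ZMod p) :=
  MonoidHom.mk' (fun u => Multiplicative.ofAdd (χ.1 u : ZMod p)) fun u v => by
    rw [← ofAdd_add, Z1_one_add]

theorem chi_pow (χ : Z1 (rU U) (oneU p U)) (u : U) (i : ℕ) :
    (χ.1 (u ^ i) : ZMod p) = i * χ.1 u := by
  have h : Multiplicative.ofAdd (χ.1 (u ^ i) : ZMod p) = Multiplicative.ofAdd (χ.1 u : ZMod p) ^ i :=
    map_pow (chiHom χ) u i
  rw [← ofAdd_nsmul] at h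
  rw [Multiplicative.ofAdd.injective h, nsmul_eq_mul]

theorem openU_kerChi (hU : OpenU q U) (χ : Z1 (rU U) (oneU p U)) : OpenU q (kerChi χ) := by
  obtain ⟨F, hF, hle⟩ := hU
  obtain ⟨F', hF', hlev⟩ := χ.2.2
  haveI := hF; haveI := hF'
  refine ⟨F ⊔ F', inferInstance, fun s hs => ?_⟩
  have hsU : s ∈ U := hle (IntermediateField.fixingSubgroup_antitone le_sup_left hs)
  refine ⟨hsU, ?_⟩
  have h := hlev 1 ⟨s, hsU⟩ (IntermediateField.fixingSubgroup_antitone le_sup_right hs)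
  rw [one_mul] at h
  have h1 := Z1_one_add χ 1 1
  rw [mul_one, left_eq_add] at h1
  exact h.trans h1

theorem exists_chi_one {χ : Z1 (rU U) (oneU p U)} (hχ : h1mk (rU U) _ χ ≠ 0) :
    ∃ u : U, (χ.1 u : ZMod p) = 1 := by
  obtain ⟨u, hu⟩ : ∃ u : U, (χ.1 u : ZMod p) ≠ 0 := by
    by_contra! h
    exact hχ ((h1mk_eq_zero_iff _ _).2 ⟨0, fun g => by
      rw [map_zero, sub_zero]
      exact (h g).symm⟩)
  refine ⟨u ^ ((χ.1 u : ZMod p)⁻¹).val, ?_⟩
  rw [chi_pow, ZMod.natCast_zmod_val, inv_mul_cancel₀ hu]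

theorem relIndex_kerChi {χ : Z1 (rU U) (oneU p U)} (hχ : h1mk (rU U) _ χ ≠ 0) :
    (kerChi χ).relIndex U = p := by
  obtain ⟨u, hu⟩ := exists_chi_one hχ
  have hker : (chiHom χ).ker = (kerChi χ).subgroupOf U := by
    ext v
    rw [MonoidHom.mem_ker, Subgroup.mem_subgroupOf, mem_kerChi]
    exact Multiplicative.ofAdd.injective.eq_iff' rfl
  have hsur : Function.Surjective (chiHom χ) := fun z => ⟨u ^ (Multiplicative.toAdd z).val, by
    rw [map_pow, show chiHom χ u = Multiplicative.ofAdd (χ.1 u : ZMod p) from rfl, hu, ← ofAdd_nsmul,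
      nsmul_one, ZMod.natCast_zmod_val]
    rfl⟩
  show ((kerChi χ).subgroupOf U).index = p
  rw [← hker, Subgroup.index_ker, MonoidHom.range_eq_top.2 hsur, Subgroup.card_top,
    Nat.card_congr Multiplicative.toAdd, Nat.card_zmod]

/-- the cyclic extension of a character -/
def cycOf (hU : OpenU q U) (hω : ∀ u ∈ U, om p u = 1) (χ : Z1 (rU U) (oneU p U))
    (hχ : h1mk (rU U) _ χ ≠ 0) : Cyc q p where
  U := U
  U' := kerChi χ
  isOpen := openU_kerChi hU χ
  le := kerChi_le χ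
  σ := ((exists_chi_one hχ).choose : U)
  σ_mem := (exists_chi_one hχ).choose.2
  σ_notMem := fun h => by
    rw [mem_kerChi, (exists_chi_one hχ).choose_spec] at h
    exact one_ne_zero h
  σ_pow := by
    rw [← Subgroup.coe_pow, mem_kerChi, chi_pow, ZMod.natCast_self, zero_mul]
  normal := fun u hu v ⟨hv, hv'⟩ => by
    have hvi : (χ.1 ⟨v, hv⟩ : ZMod p) = 0 := hv'
    refine ⟨mul_mem (mul_mem hu hv) (inv_mem hu), ?_⟩
    rw [show (⟨u * v * u⁻¹, _⟩ : U) = ⟨u, hu⟩ * ⟨v, hv⟩ * ⟨u, hu⟩⁻¹ from rfl, Z1_one_add,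
      Z1_one_add, hvi, add_zero, ← Z1_one_add, mul_inv_cancel]
    have h1 := Z1_one_add χ 1 1
    rw [mul_one, left_eq_add] at h1
    exact h1
  gen := fun u hu => by
    refine ⟨(χ.1 ⟨u, hu⟩ : ZMod p).val, ?_⟩
    set s := (exists_chi_one hχ).choose
    have h := Z1_one_add χ (s ^ (χ.1 ⟨u, hu⟩ : ZMod p).val)
      ((s ^ (χ.1 ⟨u, hu⟩ : ZMod p).val)⁻¹ * ⟨u, hu⟩)
    rw [mul_inv_cancel_left, chi_pow, (exists_chi_one hχ).choose_spec, ZMod.natCast_zmod_val,
      mul_one, left_eq_add] at h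
    exact (mem_kerChi ((s ^ (χ.1 ⟨u, hu⟩ : ZMod p).val)⁻¹ * ⟨u, hu⟩)).2 h
  ζ := zq p q
  hζ := zq_spec
  fix_ζ := fun u hu => by
    have h := toAut_zz (p := p) u (1 : ZMod p)
    haveI : Fact (1 < p) := ⟨(Fact.out : p.Prime).one_lt⟩
    rwa [hω u hu, one_mul, zz, ZMod.val_one, pow_one] at h

theorem zz_pow_nat (a : ZMod p) (n : ℕ) : zz q a ^ n = zz q ((n : ZMod p) * a) := by
  rw [zz, ← pow_mul, ← zz_natCast, Nat.cast_mul, ZMod.natCast_zmod_val, mul_comm]

theorem cocycle_carry {p : ℕ} [NeZero p] (a b : ZMod p) :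
    ∃ k : ℕ, a.val + b.val = (a + b).val + p * k :=
  ⟨(a.val + b.val) / p, by rw [ZMod.val_add, Nat.mod_add_div]⟩

/-- a symbol vanishing only on norms -/
theorem norm_of_symU_eq_zero (hU : OpenU q U) (hω : ∀ u ∈ U, om p u = 1)
    (χ : Z1 (rU U) (oneU p U)) (hχ : h1mk (rU U) _ χ ≠ 0) (x : Km U)
    (h : symU p U (h1mk (rU U) _ χ) (kum p hU (Additive.ofMul x)) = 0) :
    (x : (Cq q)ˣ) ∈ (Km (kerChi χ)).map (cycOf hU hω χ hχ).Nm := by
  haveI : NeZero p := ⟨(Fact.out : p.Prime).ne_zero⟩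
  obtain ⟨r, a, hr, hr0, ha⟩ := exists_isKumU (p := p) x
  rw [kum_eq hU x hr (y := ⟨a, ha.mem_Z1 hU hr0⟩) ha, symU, cupH_mk, continuousH2π_eq_zero_iff,
    mem_levelCoboundaries₂_iff] at h
  obtain ⟨b, hbl, hb⟩ := h
  have hb' : ∀ g k : U, (b k : ZMod p) - b (g * k) + b g = (χ.1 g : ZMod p) * a k := fun g k => by
    have e := congrFun hb (g, k)
    rw [d₁₂_hom_apply] at e
    have e' : ((muU p U).ρ g (b k) : ZMod p) - b (g * k) + b g =
        (χ.1 g : ZMod p) * ((muU p U).ρ g (a k) : ZMod p) := e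
    rwa [muU_apply, muU_apply, hω g g.2, one_mul, one_mul] at e'
  have hadd : ∀ g k : U, a (g * k) = a g + a k := fun g k => by
    have e := (mem_cocycles₁_iff (A := muU p U) a).1 (ha.mem_Z1 hU hr0).1 g k
    rw [show (a (g * k) : ZMod p) = ((muU p U).ρ g (a k) : ZMod p) + a g from e, muU_apply, hω g g.2,
      one_mul, add_comm]
  -- a cochain whose coboundary is the carry
  let e : U → ℕ := fun g => (χ.1 g : ZMod p).val
  let W : U → Cq q := fun g => r ^ e g * zz q (a g * (χ.1 g : ZMod p) + (b g : ZMod p))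
  have hW0 : ∀ g, W g ≠ 0 := fun g => mul_ne_zero (pow_ne_zero _ hr0) (zz_ne _)
  have hfix : ∀ (g : U) (t : ZMod p), toAut q g (zz q t) = zz q t := fun g t => by
    rw [toAut_zz, hω g g.2, one_mul]
  have hdW : ∀ g k : U, ∀ j : ℕ, e g + e k = e (g * k) + p * j →
      W g * toAut q g (W k) = W (g * k) * ((x : (Cq q)ˣ) : Cq q) ^ j := by
    intro g k j hj
    show r ^ e g * zz q _ * toAut q g (r ^ e k * zz q _) = r ^ e (g * k) * zz q _ * _
    rw [map_mul, map_pow, ha g, hfix, mul_pow, ← hr, ← pow_mul, zz_pow_nat,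
      show ((e k : ℕ) : ZMod p) = χ.1 k from ZMod.natCast_zmod_val _, mul_comm (χ.1 k : ZMod p)]
    calc r ^ e g * zz q (a g * (χ.1 g : ZMod p) + (b g : ZMod p)) *
          (zz q (a g * (χ.1 k : ZMod p)) * r ^ e k * zz q (a k * (χ.1 k : ZMod p) + (b k : ZMod p)))
        = r ^ (e g + e k) * zz q (a g * (χ.1 g : ZMod p) + (b g : ZMod p) +
            a g * (χ.1 k : ZMod p) + (a k * (χ.1 k : ZMod p) + (b k : ZMod p))) := by
          rw [zz_add (_ + _ + _), zz_add (_ + _), pow_add]; ring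
      _ = _ := by
          rw [hj, pow_add, show (a g * (χ.1 g : ZMod p) + (b g : ZMod p) + a g * (χ.1 k : ZMod p) +
            (a k * (χ.1 k : ZMod p) + (b k : ZMod p))) =
              a (g * k) * (χ.1 (g * k) : ZMod p) + (b (g * k) : ZMod p) by
            rw [hadd, Z1_one_add]; linear_combination hb' g k]
          ring
  -- trivialise it on the kernel
  have hker : ∀ v : kerChi χ, (χ.1 ⟨v, v.2.1⟩ : ZMod p) = 0 := fun v => v.2.2
  obtain ⟨y, hy0, hy⟩ := hilbert90_Cq (kerChi χ) (fun v => W ⟨v, v.2.1⟩) (fun v => hW0 _) (fun v w => by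
    have := hdW ⟨v, v.2.1⟩ ⟨w, w.2.1⟩ 0 (by
      simp only [e, mul_zero, add_zero]
      rw [Z1_one_add, hker, hker, add_zero, ZMod.val_zero, add_zero])
    rw [pow_zero, mul_one] at this
    exact this.symm) (by
    obtain ⟨F, hF, hle⟩ := openU_kerChi hU χ
    obtain ⟨F', hF', hb2⟩ := hbl
    obtain ⟨F'', hF'', ha2⟩ := (ha.mem_Z1 hU hr0).2
    obtain ⟨F₃, hF₃, hχ2⟩ := χ.2.2
    haveI := hF; haveI := hF'; haveI := hF''; haveI := hF₃
    refine ⟨F' ⊔ F'' ⊔ F₃, inferInstance, fun v s hs => ?_⟩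
    show W ⟨(v : Gam q) * s, _⟩ = W ⟨v, _⟩
    have h1 := hb2 ⟨v, v.2.1⟩ ⟨s, s.2.1⟩
      (IntermediateField.fixingSubgroup_antitone (le_sup_left.trans le_sup_left) hs)
    have h2 := ha2 ⟨v, v.2.1⟩ ⟨s, s.2.1⟩
      (IntermediateField.fixingSubgroup_antitone (le_sup_right.trans le_sup_left) hs)
    have h3 := hχ2 ⟨v, v.2.1⟩ ⟨s, s.2.1⟩ (IntermediateField.fixingSubgroup_antitone le_sup_right hs)
    simp only [W, e]
    erw [h1, h2, h3])
  let W' : U → Cq q := fun g => W g * y / toAut q g y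
  have hdW' : ∀ g k : U, ∀ j : ℕ, e g + e k = e (g * k) + p * j →
      W' g * toAut q g (W' k) = W' (g * k) * ((x : (Cq q)ˣ) : Cq q) ^ j := by
    intro g k j hj
    have hy' : ∀ g : Gam q, toAut q g y ≠ 0 := fun g => by simpa using hy0
    show W g * y / toAut q g y * toAut q g (W k * y / toAut q k y) = _
    rw [map_div₀, map_mul, ← toAut_mul]
    show W g * y / toAut q g y * (toAut q g (W k) * toAut q g y / toAut q (g * k : U) y) =
      W (g * k) * y / toAut q (g * k : U) y * _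
    rw [div_mul_div_comm, div_mul_eq_mul_div, div_eq_div_iff (mul_ne_zero (hy' _) (hy' _)) (hy' _)]
    linear_combination (toAut q g y * y * toAut q (g * k : U) y) * hdW g k j hj
  have hW'ker : ∀ v : kerChi χ, W' ⟨v, v.2.1⟩ = 1 := fun v => by
    show W ⟨v, v.2.1⟩ * y / toAut q v y = 1
    rw [hy v, div_self (mul_ne_zero (hW0 _) hy0)]
  have he : ∀ i < p, ∀ s : U, (χ.1 s : ZMod p) = 1 → e (s ^ i) = i := fun i hi s hs => by
    simp only [e, chi_pow, hs, mul_one, ZMod.val_cast_of_lt hi]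
  set C := cycOf hU hω χ hχ
  set s : U := (exists_chi_one hχ).choose
  have hs : (χ.1 s : ZMod p) = 1 := (exists_chi_one hχ).choose_spec
  have hes : e s = 1 := by
    haveI : Fact (1 < p) := ⟨(Fact.out : p.Prime).one_lt⟩
    simp only [e, hs, ZMod.val_one]
  set w := W' s
  have hsg : ∀ z, C.sg 1 z = toAut q (s : Gam q) z := fun z => by
    show toAut q ((s : Gam q) ^ 1) z = _
    rw [pow_one]
  have hw : w ∈ KF (kerChi χ) := mem_KF.2 fun v hv => by
    have hv' := C.normal ((s : Gam q)⁻¹) (inv_mem s.2) v hv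
    rw [inv_inv] at hv'
    set v' : U := ⟨(s : Gam q)⁻¹ * v * s, kerChi_le χ hv'⟩
    have hj : (χ.1 v' : ZMod p) = 0 := hv'.2
    have h1 := hdW' s v' 0 (by simp only [e]; rw [Z1_one_add, hj, ZMod.val_zero, add_zero, add_zero, mul_zero, add_zero])
    have h2 := hdW' ⟨v, kerChi_le χ hv⟩ s 0 (by
      simp only [e]; rw [Z1_one_add, show (χ.1 ⟨v, kerChi_le χ hv⟩ : ZMod p) = 0 from hv.2,
        ZMod.val_zero, zero_add, zero_add, mul_zero, add_zero])
    rw [hW'ker ⟨_, hv'⟩, map_one, mul_one, pow_zero, mul_one] at h1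
    rw [hW'ker ⟨v, hv⟩, one_mul, pow_zero, mul_one,
      show (⟨v, kerChi_le χ hv⟩ : U) * s = s * v' from Subtype.ext (by simp [v']; group), ← h1] at h2
    exact h2
  have hw0 : w ≠ 0 := div_ne_zero (mul_ne_zero (hW0 _) hy0) (by simpa using hy0)
  have hpart : ∀ i < p, W' (s ^ i) = C.part w i := by
    intro i hi
    induction i with
    | zero =>
      rw [pow_zero, Cyc.part, Finset.range_zero, Finset.prod_empty]
      exact hW'ker 1
    | succ i ih =>
      have hj : e s + e (s ^ i) = e (s * s ^ i) + p * 0 := by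
        rw [← pow_succ', he i (by omega) s hs, he (i + 1) hi s hs, hes]; omega
      have h1 := hdW' s (s ^ i) 0 hj
      rw [pow_zero, mul_one, ← pow_succ'] at h1
      rw [← h1, ih (by omega), C.part_succ, hsg]
  obtain ⟨n, hn⟩ : ∃ n, p = n + 1 := ⟨p - 1, by have := (Fact.out : p.Prime).pos; omega⟩
  have hfin : e s + e (s ^ n) = e (s * s ^ n) + p * 1 := by
    rw [← pow_succ', ← hn, he n (by omega) s hs, hes]
    simp only [e, chi_pow, ZMod.natCast_self, zero_mul, ZMod.val_zero]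
    omega
  have h1 := hdW' s (s ^ n) 1 hfin
  have hsp : ((s : Gam q)) ^ p ∈ kerChi χ := C.σ_pow
  rw [pow_one, ← pow_succ', hpart n (by omega), show s ^ (n + 1) = ⟨(s : Gam q) ^ p, hsp.1⟩ from
    Subtype.ext (by rw [Subgroup.coe_pow]; exact congrArg _ hn.symm), hW'ker ⟨_, hsp⟩, one_mul] at h1
  refine ⟨Units.mk0 w hw0, hw, Units.ext ?_⟩
  rw [C.Nm_apply, ← h1]
  show C.part w p = _
  rw [congrArg (C.part w) hn, C.part_succ, hsg]

end Kernel

section Proj

variable {U' : Subgroup (Gam q)}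

/-- pointwise product -/
def indMul (p : ℕ) [Fact p.Prime] (U : Subgroup (Gam q)) :
    Ind U (one p) →ₗ[ZMod p] Ind U (mu p) →ₗ[ZMod p] Ind U (mu p) :=
  LinearMap.mk₂ (ZMod p) (fun a b => fun x => ((a x : ZMod p) * b x : ZMod p))
    (fun a a' b => funext fun x => add_mul _ _ _) (fun c a b => funext fun x => mul_assoc _ _ _)
    (fun a b b' => funext fun x => mul_add _ _ _) (fun c a b => funext fun x => mul_left_comm _ _ _)

theorem indMul_eqv : IsEqv (indMul p U) := fun g a b => funext fun x => by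
  show (a (g⁻¹ • x) : ZMod p) * ((mu p).ρ (loc q g) (b (g⁻¹ • x)) : ZMod p) =
    ((mu p).ρ (loc q g) ((a (g⁻¹ • x) : ZMod p) * b (g⁻¹ • x) : ZMod p) : ZMod p)
  rw [mu_apply, mu_apply]
  ring

/-- the symbol of induced classes -/
def symI (hU : OpenU q U) : cH1 (loc q) (Ind U (one p)) →ₗ[ZMod p]
    cH1 (loc q) (Ind U (mu p)) →ₗ[ZMod p] cH2 (loc q) (Ind U (mu p)) :=
  cupH (loc q) (indMul p U) indMul_eqv (isAdm_Ind hU (isAdm_mu p))

theorem ev2_symI (hU : OpenU q U) (a : cH1 (loc q) (Ind U (one p)))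
    (b : cH1 (loc q) (Ind U (mu p))) :
    ev2 U (mu p) (symI hU a b) = symU p U (ev1 U (one p) a) (ev1 U (mu p) b) :=
  cupH_natural' U.subtype (fun _ => rfl) (indMul p U) (mulB p U) indMul_eqv mulB_eqv _ _
    (proj1 U (one p)) proj1_eqv (proj1 U (mu p)) proj1_eqv (proj1 U (mu p)) proj1_eqv
    (fun _ _ => rfl) a b

theorem fib2_symI [Finite (Gam q ⧸ U')] (hU : OpenU q U) (hU' : OpenU q U') (h : U' ≤ U)
    (a : cH1 (loc q) (Ind U (one p))) (b : cH1 (loc q) (Ind U' (mu p))) :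
    fib2 h (symI hU' (pull1 h a) b) = symI hU a (fib1 h b) :=
  cupH_proj indMul_eqv indMul_eqv (isAdm_Ind hU (isAdm_mu p)) (isAdm_Ind hU' (isAdm_mu p))
    (pullInd h) (pullInd_eqv h) (fibSum h) (fibSum_eqv h) (fibSum h) (fibSum_eqv h)
    (fun x y => funext fun z => by
      classical
      letI := Fintype.ofFinite (Gam q ⧸ U')
      rw [fibSum_apply]
      show _ = (x z : ZMod p) * (fibSum h y z : ZMod p)
      rw [fibSum_apply h y z, Finset.mul_sum]
      exact Finset.sum_congr rfl fun w hw => by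
        show (x (qproj h w) : ZMod p) * y w = _
        rw [(Finset.mem_filter.1 hw).2]) a b

theorem zz_sum {ι : Type*} (s : Finset ι) (f : ι → ZMod p) :
    zz q (∑ i ∈ s, f i) = ∏ i ∈ s, zz q (f i) := by
  classical
  induction s using Finset.induction_on with
  | empty => simp [zz_zero]
  | insert a s ha ih => rw [Finset.sum_insert ha, Finset.prod_insert ha, zz_add, ih]

/-- norms are corestrictions -/
theorem exists_fib1_eq_norm (C : Cyc q p) [Finite (Gam q ⧸ C.U')]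
    (l : (Cq q)ˣ) (hl : l ∈ Km C.U') (hN : C.Nm l ∈ Km C.U) :
    ∃ b : cH1 (loc q) (Ind C.U' (mu p)),
      ev1 C.U (mu p) (fib1 C.le b) = kum p C.openU (Additive.ofMul ⟨C.Nm l, hN⟩) := by
  classical
  letI := Fintype.ofFinite (Gam q ⧸ C.U')
  obtain ⟨R, hR⟩ := IsAlgClosed.exists_pow_nat_eq (l : Cq q) (Fact.out : p.Prime).pos
  have hR0 : R ≠ 0 := fun h => l.ne_zero (by rw [← hR, h, zero_pow (Fact.out : p.Prime).ne_zero])
  have hval : ∀ g : Gam q, toAut q ((g : Gam q ⧸ C.U').out) (l : Cq q) = toAut q g (l : Cq q) := by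
    intro g
    obtain ⟨⟨v, hv⟩, he⟩ := QuotientGroup.mk_out_eq_mul C.U' g
    rw [he, toAut_mul, mem_KF.1 hl v hv]
  obtain ⟨b, hb⟩ := exists_indKummer C.isOpen (fun x : Gam q ⧸ C.U' => toAut q x.out R)
    (fun x => by simpa using hR0) (fun g x => by
      induction x using QuotientGroup.induction_on with
      | H a =>
        rw [MulAction.Quotient.smul_mk, ← map_pow, ← map_pow, hR, ← map_pow, hR, hval, hval,
          smul_eq_mul, ← toAut_mul, mul_inv_cancel_left])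
  refine ⟨h1mk (loc q) _ b, ?_⟩
  let fib := Finset.univ.filter (fun x => qproj C.le x = ((1 : Gam q) : Gam q ⧸ C.U))
  have hmem : ∀ u : C.U, ∀ x : Gam q ⧸ C.U',
      x ∈ fib ↔ ((u : Gam q)⁻¹ • x) ∈ fib := fun u x => by
    simp only [fib, Finset.mem_filter, Finset.mem_univ, true_and, qproj_smul]
    exact ⟨fun h => by rw [h, fix_one (inv_mem u.2)],
      fun h => by rw [← smul_inv_smul (u : Gam q) (qproj C.le x), h, fix_one u.2]⟩
  have hy : (fun u : C.U => (fibSum C.le (b.1 u) ((1 : Gam q) : Gam q ⧸ C.U) : ZMod p)) ∈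
      Z1 (rU C.U) (muU p C.U) := by
    refine pullPush_mem_Z1 (r := loc q) (r' := rU C.U) (f := C.U.subtype) (hf := fun _ => rfl)
      (φ := (proj1 C.U (mu p)).comp (fibSum C.le)) (B := muU p C.U) (hφ := fun u a => ?_) b.2
    show proj1 C.U (mu p) (fibSum C.le _) = _
    rw [fibSum_eqv]
    exact proj1_eqv u _
  refine (kum_eq (p := p) C.openU ⟨C.Nm l, hN⟩ (r := ∏ x ∈ fib, toAut q x.out R) ?_
    (y := ⟨_, hy⟩) (fun u => ?_)).symm
  · rw [← Finset.prod_pow]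
    simp only [← map_pow, hR]
    show _ = ((C.Nm l : (Cq q)ˣ) : Cq q)
    rw [C.Nm_apply, Cyc.part]
    symm
    refine Finset.prod_bij (fun i _ => ((C.σ ^ i : Gam q) : Gam q ⧸ C.U')) (fun i _ => ?_)
      (fun i hi j hj h => ?_) (fun x hx => ?_) (fun i _ => (hval _).symm)
    · simp only [fib, Finset.mem_filter, Finset.mem_univ, true_and, qproj_mk, QuotientGroup.eq,
        mul_one]
      exact inv_mem (pow_mem C.σ_mem i)
    · rw [QuotientGroup.eq] at h
      rcases le_total i j with hle | hle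
      · have := C.eq_zero_of_pow_mem (k := j - i) (by have := Finset.mem_range.1 hj; omega) (by
          rwa [pow_sub _ hle, ← Commute.inv_left (Commute.pow_pow_self C.σ i j) |>.eq])
        omega
      · have := C.eq_zero_of_pow_mem (k := i - j) (by have := Finset.mem_range.1 hi; omega) (by
          have h' := inv_mem h
          rw [mul_inv_rev, inv_inv] at h'
          rwa [pow_sub _ hle, ← Commute.inv_left (Commute.pow_pow_self C.σ j i) |>.eq])
        omega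
    · induction x using QuotientGroup.induction_on with
      | H a =>
        simp only [fib, Finset.mem_filter, Finset.mem_univ, true_and, qproj_mk, QuotientGroup.eq,
          mul_one, inv_mem_iff] at hx
        obtain ⟨i, hi⟩ := C.gen a hx
        refine ⟨i % p, Finset.mem_range.2 (Nat.mod_lt _ (Fact.out : p.Prime).pos), ?_⟩
        have e : (C.σ ^ (i % p))⁻¹ * a = ((C.σ ^ p) ^ (i / p)) * ((C.σ ^ i)⁻¹ * a) := by
          conv_rhs => rw [← Nat.mod_add_div i p, pow_add, pow_mul, Nat.mod_add_div]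
          rw [mul_inv_rev, mul_assoc, mul_inv_cancel_left]
        rw [QuotientGroup.eq, e]
        exact mul_mem (pow_mem C.σ_pow _) hi
  · show toAut q u (∏ x ∈ fib, toAut q x.out R) = zz q (fibSum C.le (b.1 u) _ : ZMod p) * _
    rw [fibSum_apply, zz_sum, ← Finset.prod_mul_distrib, map_prod]
    refine Finset.prod_equiv (MulAction.toPerm (u : Gam q)) (fun x => ?_) fun x _ => ?_
    · rw [MulAction.toPerm_apply, hmem u ((u : Gam q) • x), inv_smul_smul]
    · rw [MulAction.toPerm_apply, ← hb, inv_smul_smul]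

theorem symU_norm_eq_zero (hU : OpenU q U) (hω : ∀ u ∈ U, om p u = 1)
    (χ : Z1 (rU U) (oneU p U)) (hχ : h1mk (rU U) _ χ ≠ 0) (x : Km U)
    (h : (x : (Cq q)ˣ) ∈ (Km (kerChi χ)).map (cycOf hU hω χ hχ).Nm) :
    symU p U (h1mk (rU U) _ χ) (kum p hU (Additive.ofMul x)) = 0 := by
  obtain ⟨x, hx⟩ := x
  obtain ⟨l, hl, rfl⟩ := h
  have hU' := openU_kerChi hU χ
  haveI := finite_quot hU'
  haveI : Finite (Gam q ⧸ (cycOf hU hω χ hχ).U') := finite_quot hU'
  obtain ⟨b, hb⟩ : ∃ b : cH1 (loc q) (Ind (kerChi χ) (mu p)),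
      ev1 U (mu p) (fib1 (kerChi_le χ) b) = kum p hU (Additive.ofMul ⟨(cycOf hU hω χ hχ).Nm l, hx⟩) :=
    exists_fib1_eq_norm (cycOf hU hω χ hχ) l hl hx
  obtain ⟨a, ha⟩ := (ev1_bijective hU (isAdm_one p)).2 (h1mk (rU U) _ χ)
  have hpull : pull1 (kerChi_le χ) a = 0 := (ev1_bijective hU' (isAdm_one p)).1 (by
    rw [ev1_pull, ha, map_zero]
    refine (h1mk_eq_zero_iff _ _).2 ⟨0, fun v => ?_⟩
    rw [map_zero, sub_zero]
    exact ((show (χ.1 ⟨v, v.2.1⟩ : ZMod p) = 0 from v.2.2).symm :))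
  have h0 : symI hU a (fib1 (kerChi_le χ) b) = 0 := by
    rw [← fib2_symI hU hU' (kerChi_le χ), hpull, map_zero, LinearMap.zero_apply, map_zero]
  have h2 := congrArg (ev2 U (mu p)) h0
  rw [ev2_symI, map_zero, ha] at h2
  rw [← h2]
  exact congrArg _ hb.symm

end Proj

section Line

variable (hU : OpenU q U) (hω : ∀ u ∈ U, om p u = 1)

set_option maxHeartbeats 1000000 in
include hω in
theorem exists_symU_ne {χ : cH1 (rU U) (oneU p U)} (hχ : χ ≠ 0) (hU : OpenU q U) :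
    ∃ y₀, symU p U χ y₀ ≠ 0 ∧ ∀ y, ∃ k : ZMod p, symU p U χ y = k • symU p U χ y₀ := by
  obtain ⟨z, rfl⟩ := Submodule.mkQ_surjective _ χ
  change h1mk (rU U) _ z ≠ 0 at hχ
  set C := cycOf hU hω z hχ
  set X : Subgroup (Cq q)ˣ := (Km (kerChi z)).map C.Nm
  have hXle : X ≤ Km U := by rintro _ ⟨l, hl, rfl⟩; exact C.Nm_mem_base hl
  have hidx : X.relIndex (Km U) = p := C.relIndex_norm
  obtain ⟨x₀, hx₀, hx₀'⟩ : ∃ x ∈ Km U, x ∉ X := by
    by_contra! h
    rw [Subgroup.relIndex_eq_one.2 h] at hidx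
    exact (Fact.out : p.Prime).ne_one hidx.symm
  refine ⟨kum p hU (Additive.ofMul ⟨x₀, hx₀⟩), fun h => hx₀' (norm_of_symU_eq_zero hU hω z hχ _ h),
    fun y => ?_⟩
  obtain ⟨x, rfl⟩ := kum_surjective hU y
  have hgen : X ⊔ Subgroup.zpowers x₀ = Km U := by
    refine le_antisymm (sup_le hXle (Subgroup.zpowers_le.2 hx₀)) (Subgroup.relIndex_eq_one.1 ?_)
    have h := Subgroup.relIndex_mul_relIndex X (X ⊔ Subgroup.zpowers x₀) (Km U) le_sup_left
      (sup_le hXle (Subgroup.zpowers_le.2 hx₀))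
    rw [hidx] at h
    rcases (Nat.dvd_prime (Fact.out : p.Prime)).1 (Dvd.intro _ h) with h1 | h1
    · exact absurd (Subgroup.relIndex_eq_one.1 h1 (Subgroup.mem_sup_right (Subgroup.mem_zpowers x₀))) hx₀'
    · rw [h1] at h
      exact Nat.eq_of_mul_eq_mul_left (Fact.out : p.Prime).pos (h.trans (mul_one p).symm)
  obtain ⟨n, hn, m, ⟨k, rfl⟩, hnm⟩ : ∃ n ∈ X, ∃ m ∈ Subgroup.zpowers x₀, n * m = (Additive.toMul x).1 :=
    Subgroup.mem_sup.1 (hgen.ge (Additive.toMul x).2)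
  refine ⟨(k : ZMod p), ?_⟩
  have hx : x = Additive.ofMul ⟨n, hXle hn⟩ + k • Additive.ofMul (⟨x₀, hx₀⟩ : Km U) :=
    Additive.toMul.injective (Subtype.ext (by simp [← hnm]))
  rw [hx, map_add, map_zsmul, map_add, map_zsmul, Int.cast_smul_eq_zsmul]
  show symU p U (h1mk (rU U) _ z) _ + _ = _
  rw [symU_norm_eq_zero hU hω z hχ ⟨n, hXle hn⟩ hn, zero_add]

include hω hU in
theorem exists_symU_ne_right {y : cH1 (rU U) (muU p U)} (hy : y ≠ 0) : ∃ χ, symU p U χ y ≠ 0 := by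
  have hψ : toOne hω y ≠ 0 := fun h => hy (by rw [← toMu_toOne hω y, h, map_zero])
  obtain ⟨y', hy', -⟩ := exists_symU_ne hω hψ hU
  refine ⟨toOne hω y', fun h => hy' ?_⟩
  have h' := symU_skew hω (toOne hω y') (toOne hω y)
  rw [toMu_toOne, toMu_toOne, h, zero_add] at h'
  exact h'

set_option maxHeartbeats 1000000 in
include hω hU in
/-- the symbols lie on one line -/
theorem exists_symU_gen : ∃ (χ₀ : cH1 (rU U) (oneU p U)) (y₀ : cH1 (rU U) (muU p U)),
    symU p U χ₀ y₀ ≠ 0 ∧ ∀ χ y, ∃ k : ZMod p, symU p U χ y = k • symU p U χ₀ y₀ := by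
  obtain ⟨x, hx, hx'⟩ := exists_notMem_pow (p := p) hU
  have hk : kum p hU (Additive.ofMul ⟨x, hx⟩) ≠ 0 := fun h => hx' ((kum_eq_zero_iff hU _).1 h)
  obtain ⟨χ₀, hχ₀⟩ := exists_symU_ne_right hU hω hk
  have hχ₀0 : χ₀ ≠ 0 := fun h => hχ₀ (by rw [h, map_zero, LinearMap.zero_apply])
  obtain ⟨y₀, hy₀, hl₀⟩ := exists_symU_ne hω hχ₀0 hU
  refine ⟨χ₀, y₀, hy₀, fun χ y => ?_⟩
  by_cases hχ : χ = 0
  · exact ⟨0, by rw [hχ, map_zero, LinearMap.zero_apply, zero_smul]⟩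
  obtain ⟨y₁, hy₁, hl₁⟩ := exists_symU_ne hω hχ hU
  obtain ⟨w, hw₀, hw⟩ : ∃ w, symU p U χ₀ w ≠ 0 ∧ symU p U χ w ≠ 0 := by
    by_cases h1 : symU p U χ y₀ ≠ 0
    · exact ⟨y₀, hy₀, h1⟩
    by_cases h2 : symU p U χ₀ y₁ ≠ 0
    · exact ⟨y₁, h2, hy₁⟩
    push Not at h1 h2
    exact ⟨y₀ + y₁, by rwa [map_add, h2, add_zero], by rwa [map_add, h1, zero_add]⟩
  have hψ : toOne hω w ≠ 0 := fun h => hw (by rw [← toMu_toOne hω w, h, map_zero, map_zero])
  obtain ⟨y₂, -, hl₂⟩ := exists_symU_ne hω hψ hU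
  obtain ⟨a, ha⟩ := hl₂ (toMu hω χ₀)
  obtain ⟨b, hb⟩ := hl₂ (toMu hω χ)
  have h0 := symU_skew hω χ₀ (toOne hω w)
  have h1 := symU_skew hω χ (toOne hω w)
  rw [toMu_toOne] at h0 h1
  rw [ha] at h0
  rw [hb] at h1
  have e0 : symU p U χ₀ w = (-a) • symU p U (toOne hω w) y₂ := by
    rw [neg_smul]; exact eq_neg_of_add_eq_zero_left h0
  have e1 : symU p U χ w = (-b) • symU p U (toOne hω w) y₂ := by
    rw [neg_smul]; exact eq_neg_of_add_eq_zero_left h1
  have ha0 : -a ≠ 0 := fun h => hw₀ (by rw [e0, h, zero_smul])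
  obtain ⟨c, hc⟩ := hl₀ w
  obtain ⟨s, hs⟩ := hl₁ y
  obtain ⟨d, hd⟩ := hl₁ w
  have hd0 : d ≠ 0 := fun h => hw (by rw [hd, h, zero_smul])
  refine ⟨s * d⁻¹ * (-b * (-a)⁻¹ * c), ?_⟩
  have e2 : symU p U χ y₁ = d⁻¹ • symU p U χ w := by rw [hd, inv_smul_smul₀ hd0]
  have e3 : symU p U (toOne hω w) y₂ = (-a)⁻¹ • symU p U χ₀ w := by rw [e0, inv_smul_smul₀ ha0]
  rw [hs, e2, e1, e3, hc]
  simp only [smul_smul]
  congr 1
  ring

end Line

end FLTAgent.PT.Loc
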