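import Fermat.Agent.PT.Local.Line
import Fermat.Agent.PT.Tool.Unram

/-!
Parcel C: the unramified character, and `H²(Gam q, μ_p)` is a line.
-/

set_option autoImplicit false
set_option linter.style.haveILetI false
set_option linter.unusedSectionVars false

noncomputable section

open CategoryTheory groupCohomology

namespace FLTAgent.PT.Loc

variable {p : ℕ} [Fact p.Prime] {q : Nat.Primes}

/-- the order of the roots of unity used to split off the unramified extension of degree `p` -/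
def unrOrder (p : ℕ) (q : Nat.Primes) : ℕ := (q : ℕ) ^ p - 1

theorem unrOrder_succ : unrOrder p q + 1 = (q : ℕ) ^ p :=
  Nat.sub_add_cancel (Nat.one_le_pow _ _ q.2.pos)

theorem unrOrder_ne : unrOrder p q ≠ 0 := fun h => by
  have h1 := Nat.one_lt_pow (Fact.out : p.Prime).ne_zero q.2.one_lt
  rw [unrOrder] at h
  omega

theorem not_dvd_unrOrder : ¬ (q : ℕ) ∣ unrOrder p q := fun h => by
  have h1 : (q : ℕ) ∣ unrOrder p q + 1 := by
    rw [unrOrder_succ]; exact dvd_pow_self _ (Fact.out : p.Prime).ne_zero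
  exact q.2.not_dvd_one ((Nat.dvd_add_right h).1 h1)

theorem orderOf_q : orderOf ((q : ℕ) : ZMod (unrOrder p q)) = p := by
  refine orderOf_eq_prime ?_ ?_
  · rw [← Nat.cast_pow, ← unrOrder_succ, Nat.cast_add, Nat.cast_one, ZMod.natCast_self, zero_add]
  · intro h
    have h1 : ((q : ℕ) : ZMod (unrOrder p q)) = ((1 : ℕ) : ZMod (unrOrder p q)) := by
      rw [h, Nat.cast_one]
    rw [ZMod.natCast_eq_natCast_iff, Nat.ModEq.comm, Nat.modEq_iff_dvd' q.2.one_lt.le] at h1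
    have h2 := Nat.le_of_dvd (Nat.sub_pos_of_lt q.2.one_lt) h1
    have h3 : (q : ℕ) ^ 1 < (q : ℕ) ^ p := Nat.pow_lt_pow_right q.2.one_lt (Fact.out : p.Prime).one_lt
    rw [pow_one, ← unrOrder_succ] at h3
    have h4 : unrOrder p q ≤ (q : ℕ) - 1 := h2
    have h5 : 1 < (q : ℕ) := q.2.one_lt
    omega

theorem q_pow_eq_iff (i j : ℕ) :
    ((q : ℕ) : ZMod (unrOrder p q)) ^ i = ((q : ℕ) : ZMod (unrOrder p q)) ^ j ↔
      (i : ZMod p) = j := by
  have hu : IsUnit ((q : ℕ) : ZMod (unrOrder p q)) :=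
    (ZMod.isUnit_iff_coprime _ _).2 ((q.2.coprime_iff_not_dvd).2 not_dvd_unrOrder)
  obtain ⟨u, hu⟩ := hu
  have ho : orderOf u = p := by rw [← orderOf_units, hu, orderOf_q]
  rw [← hu, ← Units.val_pow_eq_pow_val, ← Units.val_pow_eq_pow_val, Units.val_injective.eq_iff,
    pow_eq_pow_iff_modEq, ho, ZMod.natCast_eq_natCast_iff]

/-- the cyclotomic character of that order -/
def cq (p : ℕ) [Fact p.Prime] (q : Nat.Primes) (g : Gam q) : ZMod (unrOrder p q) :=
  haveI : NeZero (unrOrder p q) := ⟨unrOrder_ne⟩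
  Attach.cyc (unrOrder p q) (loc q g)

theorem exists_cq (g : Gam q) : ∃ i : ℕ, cq p q g = ((q : ℕ) : ZMod (unrOrder p q)) ^ i := by
  haveI : NeZero (unrOrder p q) := ⟨unrOrder_ne⟩
  haveI : Fact (q : ℕ).Prime := ⟨q.2⟩
  haveI := FLTAgent.Common.isAlgebraic_qbar
  haveI := FLTAgent.Common.isGalois_qbar
  have hA := lies_place q
  obtain ⟨φ, hφ⟩ := exists_frobenius_place q.2 hA
  obtain ⟨ζ, hζ⟩ := HasEnoughRootsOfUnity.exists_primitiveRoot (AlgebraicClosure ℚ) (unrOrder p q)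
  let Z := IntermediateField.adjoin ℚ ({ζ} : Set (AlgebraicClosure ℚ))
  haveI : FiniteDimensional ℚ Z :=
    IntermediateField.adjoin.finiteDimensional (Algebra.IsIntegral.isIntegral ζ)
  let E := IntermediateField.normalClosure ℚ Z (AlgebraicClosure ℚ)
  haveI : FiniteDimensional ℚ E := normalClosure.is_finiteDimensional ℚ _ _
  haveI : Normal ℚ E := normalClosure.normal ℚ Z _
  haveI : IsGalois ℚ E := {}
  obtain ⟨i, ρ, hρI, hρE⟩ := exists_pow_frob_inertia q.2 hA hφ (loc_mem_decomposition g) E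
  refine ⟨i, Attach.cyc_unique _ _ fun z hz => ?_⟩
  obtain ⟨j, -, rfl⟩ := hζ.eq_pow_of_pow_eq_one hz
  have hzE : ζ ^ j ∈ E :=
    pow_mem (Z.le_normalClosure (IntermediateField.mem_adjoin_simple_self ℚ ζ)) j
  have hφz : ∀ k : ℕ, (φ ^ k) (ζ ^ j) = (ζ ^ j) ^ (q : ℕ) ^ k := by
    intro k
    induction k with
    | zero => simp
    | succ k ih =>
      rw [pow_succ' φ, AlgEquiv.mul_apply, ih, map_pow, Attach.cyc_spec φ hz,
        Attach.cyc_frobenius q.2 not_dvd_unrOrder hA hφ, ZMod.val_natCast,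
        ← pow_eq_pow_mod _ hz, ← pow_mul, ← pow_succ']
  have h1 : ρ (ζ ^ j) = ζ ^ j := by
    rw [Attach.cyc_spec ρ hz, Attach.cyc_inertia q.2 not_dvd_unrOrder hA hρI]
    rcases Nat.lt_or_ge 1 (unrOrder p q) with h | h
    · haveI : Fact (1 < unrOrder p q) := ⟨h⟩
      rw [ZMod.val_one, pow_one]
    · have h' : unrOrder p q = 1 := le_antisymm h (Nat.one_le_iff_ne_zero.2 unrOrder_ne)
      have h'' : ζ ^ j = 1 := by simpa [h'] using hz
      rw [h'', one_pow]
  have h2 : loc q g (ζ ^ j) = (φ ^ i) (ζ ^ j) := by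
    rw [← AlgEquiv.apply_symm_apply (φ ^ i) (loc q g (ζ ^ j))]
    congr 1
    exact ((hρE _ hzE).symm.trans h1 : _)
  rw [h2, hφz, ← Nat.cast_pow, ZMod.val_natCast, ← pow_eq_pow_mod _ hz]

/-- the unramified character of order `p` -/
def chiUnr (p : ℕ) [Fact p.Prime] (q : Nat.Primes) (g : Gam q) : ZMod p :=
  ((exists_cq (p := p) g).choose : ZMod p)

theorem chiUnr_eq {g : Gam q} {i : ℕ} (h : cq p q g = ((q : ℕ) : ZMod (unrOrder p q)) ^ i) :
    chiUnr p q g = i :=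
  (q_pow_eq_iff _ _).1 ((exists_cq (p := p) g).choose_spec.symm.trans h)

theorem chiUnr_mul (g h : Gam q) : chiUnr p q (g * h) = chiUnr p q g + chiUnr p q h := by
  haveI : NeZero (unrOrder p q) := ⟨unrOrder_ne⟩
  obtain ⟨i, hi⟩ := exists_cq (p := p) g
  obtain ⟨j, hj⟩ := exists_cq (p := p) h
  rw [chiUnr_eq hi, chiUnr_eq hj, ← Nat.cast_add]
  refine chiUnr_eq ?_
  rw [pow_add, ← hi, ← hj, cq, map_mul]
  exact Attach.cyc_mul _ _ _

theorem chiUnr_one : chiUnr p q 1 = 0 := by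
  have h := chiUnr_mul (p := p) (q := q) 1 1
  rw [mul_one, left_eq_add] at h
  exact h

theorem chiUnr_pow (g : Gam q) (n : ℕ) : chiUnr p q (g ^ n) = n * chiUnr p q g := by
  induction n with
  | zero => rw [pow_zero, chiUnr_one, Nat.cast_zero, zero_mul]
  | succ n ih => rw [pow_succ, chiUnr_mul, ih]; push_cast; ring

theorem exists_chiUnr_one : ∃ g : Gam q, chiUnr p q g = 1 := by
  haveI : NeZero (unrOrder p q) := ⟨unrOrder_ne⟩
  haveI : Fact (q : ℕ).Prime := ⟨q.2⟩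
  obtain ⟨φ, hφ⟩ := exists_frobenius_place q.2 (lies_place q)
  obtain ⟨σ, hσ⟩ : φ ∈ (loc q).range := by rw [range_loc']; exact hφ.mem_decompositionSubgroup
  refine ⟨σ, ?_⟩
  rw [← Nat.cast_one]
  refine chiUnr_eq ?_
  rw [pow_one, cq, hσ, Attach.cyc_frobenius q.2 not_dvd_unrOrder (lies_place q) hφ]

/-- the unramified character is continuous -/
theorem chiUnr_level : ∃ F : IntermediateField ℚ (AlgebraicClosure ℚ), FiniteDimensional ℚ F ∧
    ∀ g : Gam q, loc q g ∈ F.fixingSubgroup → chiUnr p q g = 0 := by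
  haveI : NeZero (unrOrder p q) := ⟨unrOrder_ne⟩
  haveI := FLTAgent.Common.isAlgebraic_qbar
  obtain ⟨ζ, hζ⟩ := HasEnoughRootsOfUnity.exists_primitiveRoot (AlgebraicClosure ℚ) (unrOrder p q)
  refine ⟨IntermediateField.adjoin ℚ {ζ},
    IntermediateField.adjoin.finiteDimensional (Algebra.IsIntegral.isIntegral ζ), fun g hg => ?_⟩
  rw [← Nat.cast_zero]
  refine chiUnr_eq ?_
  rw [pow_zero, cq]
  refine Attach.cyc_unique _ _ fun z hz => ?_
  obtain ⟨j, -, rfl⟩ := hζ.eq_pow_of_pow_eq_one hz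
  rw [map_pow, (IntermediateField.mem_fixingSubgroup_iff _ _).1 hg ζ
    (IntermediateField.mem_adjoin_simple_self ℚ ζ)]
  rcases Nat.lt_or_ge 1 (unrOrder p q) with h | h
  · haveI : Fact (1 < unrOrder p q) := ⟨h⟩
    rw [ZMod.val_one, pow_one]
  · have h' : unrOrder p q = 1 := le_antisymm h (Nat.one_le_iff_ne_zero.2 unrOrder_ne)
    have h'' : ζ = 1 := by simpa [h'] using hζ.pow_eq_one
    simp [h'']

/-- its restriction -/
def chiU (p : ℕ) [Fact p.Prime] (U : Subgroup (Gam q)) : Z1 (rU U) (oneU p U) :=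
  ⟨fun u => chiUnr p q u, (mem_cocycles₁_iff (A := oneU p U) _).2 fun u v => by
    show chiUnr p q ((u : Gam q) * v) = chiUnr p q v + chiUnr p q u
    rw [chiUnr_mul, add_comm], by
    obtain ⟨F, hF, h⟩ := chiUnr_level (p := p) (q := q)
    refine ⟨F, hF, fun u s hs => ?_⟩
    show chiUnr p q ((u : Gam q) * s) = chiUnr p q u
    rw [chiUnr_mul, show chiUnr p q (s : Gam q) = 0 from h _ hs, add_zero]⟩

theorem chiU_ne {U : Subgroup (Gam q)} [U.Normal] (hn : ¬ p ∣ U.index) :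
    h1mk (rU U) (oneU p U) (chiU p U) ≠ 0 := fun h => by
  obtain ⟨g, hg⟩ := exists_chiUnr_one (p := p) (q := q)
  obtain ⟨m, hm⟩ := (h1mk_eq_zero_iff _ _).1 h
  have e : ((oneU p U).ρ ⟨g ^ U.index, Subgroup.pow_index_mem U g⟩ m : ZMod p) - m =
      chiUnr p q (g ^ U.index) := hm _
  rw [show ((oneU p U).ρ ⟨g ^ U.index, Subgroup.pow_index_mem U g⟩ m : ZMod p) = m from rfl,
    sub_self, chiUnr_pow, hg, mul_one, eq_comm, ZMod.natCast_eq_zero_iff] at e
  exact hn e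

theorem qKm (U : Subgroup (Gam q)) :
    Units.mk0 ((q : ℕ) : Cq q) (Nat.cast_ne_zero.2 q.2.ne_zero) ∈ Km U :=
  (show ((q : ℕ) : Cq q) ∈ KF U from natCast_mem (KF U) _)

theorem norm_sub_one_eq_one {y : Cq q} {m : ℕ} (hqm : ¬ (q : ℕ) ∣ m) (hy : y ^ m = 1) (hy1 : y ≠ 1) :
    ‖y - 1‖ = 1 := by
  haveI : Fact (q : ℕ).Prime := ⟨q.2⟩
  have hm : m ≠ 0 := fun h => hqm (h ▸ dvd_zero _)
  have hny : ‖y‖ = 1 := (pow_eq_one_iff_of_nonneg (norm_nonneg _) hm).1 (by rw [← norm_pow, hy, norm_one])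
  refine le_antisymm ?_ (le_of_not_gt fun hlt => ?_)
  · rw [sub_eq_add_neg]
    refine (IsUltrametricDist.norm_add_le_max _ _).trans ?_
    rw [norm_neg, hny, norm_one, max_self]
  have hsum : ∑ i ∈ Finset.range m, y ^ i = 0 := by
    have h := geom_sum_mul y m
    rw [hy, sub_self] at h
    exact (mul_eq_zero.1 h).resolve_right (sub_ne_zero.2 hy1)
  have hnm : ‖(m : Cq q)‖ = 1 := by
    rw [← map_natCast (algebraMap (Qq q) (Cq q)) m, norm_algebraMap', Padic.norm_natCast_eq_one_iff]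
    exact (q.2.coprime_iff_not_dvd).2 hqm
  have hle : ‖(m : Cq q)‖ ≤ ‖y - 1‖ := by
    have e : (m : Cq q) = ∑ i ∈ Finset.range m, (1 - y ^ i) := by
      rw [Finset.sum_sub_distrib, hsum, Finset.sum_const, Finset.card_range, nsmul_one, sub_zero]
    rw [e]
    refine IsUltrametricDist.norm_sum_le_of_forall_le_of_nonneg (norm_nonneg _) fun i _ => ?_
    rw [norm_sub_rev, ← geom_sum_mul, norm_mul]
    refine mul_le_of_le_one_left (norm_nonneg _) ?_
    refine IsUltrametricDist.norm_sum_le_of_forall_le_of_nonneg zero_le_one fun j _ => ?_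
    rw [norm_pow, hny, one_pow]
  rw [hnm] at hle
  exact absurd hle (not_le.2 hlt)

theorem norm_sum_pow {l : Cq q} (hl0 : 0 < ‖l‖) (hl1 : ‖l‖ < 1) {n : ℕ} (c : Fin n → Cq q)
    (hc : ∀ j, c j = 0 ∨ ‖c j‖ = 1) (hne : ∃ j, c j ≠ 0) :
    ‖l‖ ^ n < ‖∑ j, c j * l ^ (j : ℕ)‖ := by
  classical
  let S := Finset.univ.filter fun j => c j ≠ 0
  have hS : S.Nonempty := by
    obtain ⟨j, hj⟩ := hne
    exact ⟨j, Finset.mem_filter.2 ⟨Finset.mem_univ _, hj⟩⟩
  set j0 := S.min' hS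
  have hj0 : c j0 ≠ 0 := (Finset.mem_filter.1 (S.min'_mem hS)).2
  have hrest : ‖∑ j ∈ Finset.univ.erase j0, c j * l ^ (j : ℕ)‖ ≤ ‖l‖ ^ ((j0 : ℕ) + 1) := by
    refine IsUltrametricDist.norm_sum_le_of_forall_le_of_nonneg (pow_nonneg hl0.le _) fun j hj => ?_
    rcases eq_or_ne (c j) 0 with h | h
    · rw [h, zero_mul, norm_zero]; exact pow_nonneg hl0.le _
    · have hle : j0 ≤ j := S.min'_le j (Finset.mem_filter.2 ⟨Finset.mem_univ _, h⟩)
      have hlt : (j0 : ℕ) < j :=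
        lt_of_le_of_ne hle fun e => (Finset.mem_erase.1 hj).1 (Fin.ext e.symm)
      rw [norm_mul, (hc j).resolve_left h, one_mul, norm_pow]
      exact pow_le_pow_of_le_one hl0.le hl1.le hlt
  have hhead : ‖c j0 * l ^ (j0 : ℕ)‖ = ‖l‖ ^ (j0 : ℕ) := by
    rw [norm_mul, (hc j0).resolve_left hj0, one_mul, norm_pow]
  have hlt : ‖l‖ ^ ((j0 : ℕ) + 1) < ‖l‖ ^ (j0 : ℕ) :=
    pow_lt_pow_right_of_lt_one₀ hl0 hl1 (Nat.lt_succ_self _)
  rw [← Finset.add_sum_erase _ _ (Finset.mem_univ j0),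
    IsUltrametricDist.norm_add_eq_max_of_norm_ne_norm (by rw [hhead]; exact (lt_of_le_of_lt hrest hlt).ne'),
    hhead]
  exact lt_of_lt_of_le (pow_lt_pow_right_of_lt_one₀ hl0 hl1 j0.2) (le_max_left _ _)

theorem relIndex_ballA_q {L : Subgroup (Gam q)} (hL : OpenU q L) :
    (ballA L (‖((q : ℕ) : Cq q)‖ * 1) (mul_nonneg (norm_nonneg _) zero_le_one)).relIndex
      (ballA L 1 zero_le_one) = (q : ℕ) ^ L.index := by
  haveI : Fact (q : ℕ).Prime := ⟨q.2⟩
  have h := relIndex_nsmul_ballA (p := (q : ℕ)) hL one_pos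
  rwa [if_pos rfl] at h

/-- `q` is not the norm from an extension containing the unramified one of degree `p` -/
theorem norm_pow_ne {L : Subgroup (Gam q)} (hL : OpenU q L) {d : ℕ} (hidx : L.index = p * d)
    (hd : d < p) {ζ : Cq q} (hζ : IsPrimitiveRoot ζ (unrOrder p q)) (hζL : ζ ∈ KF L)
    {l : Cq q} (hl : l ∈ KF L) : ‖l‖ ^ p ≠ ‖((q : ℕ) : Cq q)‖ := by
  classical
  haveI : Fact (q : ℕ).Prime := ⟨q.2⟩
  intro he
  have hp := (Fact.out : p.Prime)
  have hq0 : 0 < ‖((q : ℕ) : Cq q)‖ := norm_pos_iff.2 (Nat.cast_ne_zero.2 q.2.ne_zero)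
  have hq1 : ‖((q : ℕ) : Cq q)‖ < 1 := by
    rw [← map_natCast (algebraMap (Qq q) (Cq q)) (q : ℕ), norm_algebraMap']
    exact Padic.norm_p_lt_one
  have hl0 : 0 < ‖l‖ := lt_of_le_of_ne (norm_nonneg _) fun h => by
    rw [← h, zero_pow hp.ne_zero] at he
    exact hq0.ne he
  have hl1 : ‖l‖ < 1 := lt_of_not_ge fun h => by
    have := one_le_pow₀ h (n := p)
    rw [he] at this
    exact absurd this (not_le.2 hq1)
  set m := unrOrder p q with hm
  let rep : Option (Fin m) → Cq q := fun o => o.elim 0 fun k => ζ ^ (k : ℕ)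
  have hrep : ∀ o, rep o ∈ KF L ∧ ‖rep o‖ ≤ 1 := by
    rintro (_ | k)
    · exact ⟨zero_mem (KF L), by simp [rep]⟩
    · refine ⟨pow_mem hζL _, ?_⟩
      show ‖ζ ^ (k : ℕ)‖ ≤ 1
      rw [norm_pow, (pow_eq_one_iff_of_nonneg (norm_nonneg _) unrOrder_ne).1
        (by rw [← norm_pow, hζ.pow_eq_one, norm_one]), one_pow]
  have hz1 : ∀ k : Fin m, ‖ζ ^ (k : ℕ)‖ = 1 := fun k => by
    rw [norm_pow, (pow_eq_one_iff_of_nonneg (norm_nonneg _) unrOrder_ne).1
        (by rw [← norm_pow, hζ.pow_eq_one, norm_one]), one_pow]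
  have hdiff : ∀ o o', o ≠ o' → rep o - rep o' ≠ 0 ∧ ‖rep o - rep o'‖ = 1 := by
    have key : ∀ k k' : Fin m, k ≠ k' → ‖ζ ^ (k : ℕ) - ζ ^ (k' : ℕ)‖ = 1 := by
      intro k k' hkk
      have h0 : ζ ^ (k' : ℕ) ≠ 0 := pow_ne_zero _ (hζ.ne_zero unrOrder_ne)
      have hy1 : ζ ^ (k : ℕ) / ζ ^ (k' : ℕ) ≠ 1 := fun h =>
        hkk (Fin.ext (hζ.pow_inj k.2 k'.2 ((div_eq_one_iff_eq h0).1 h)))
      have hy : (ζ ^ (k : ℕ) / ζ ^ (k' : ℕ)) ^ m = 1 := by
        rw [div_pow, ← pow_mul, ← pow_mul, mul_comm (k : ℕ), mul_comm (k' : ℕ), pow_mul, pow_mul,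
          hζ.pow_eq_one, one_pow, one_pow, div_one]
      rw [show ζ ^ (k : ℕ) - ζ ^ (k' : ℕ) = (ζ ^ (k : ℕ) / ζ ^ (k' : ℕ) - 1) * ζ ^ (k' : ℕ) by
        rw [sub_mul, div_mul_cancel₀ _ h0, one_mul], norm_mul,
        norm_sub_one_eq_one not_dvd_unrOrder hy hy1, hz1, one_mul]
    intro o o' hne
    have hn : ‖rep o - rep o'‖ = 1 := by
      rcases o with _ | k <;> rcases o' with _ | k'
      · exact absurd rfl hne
      · show ‖(0 : Cq q) - ζ ^ (k' : ℕ)‖ = 1
        rw [zero_sub, norm_neg, hz1]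
      · show ‖ζ ^ (k : ℕ) - 0‖ = 1
        rw [sub_zero, hz1]
      · exact key k k' fun e => hne (congrArg some e)
    exact ⟨fun h => zero_ne_one ((norm_zero (E := Cq q)).symm.trans (h ▸ hn)), hn⟩
  let A := ballA L 1 zero_le_one
  let B := ballA L (‖((q : ℕ) : Cq q)‖ * 1) (mul_nonneg (norm_nonneg _) zero_le_one)
  let val : (Fin p → Option (Fin m)) → A := fun a => ⟨∑ j, rep (a j) * l ^ (j : ℕ),
    sum_mem fun j _ => mul_mem (hrep _).1 (pow_mem hl _),
    IsUltrametricDist.norm_sum_le_of_forall_le_of_nonneg zero_le_one fun j _ => by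
      rw [norm_mul, norm_pow]
      exact mul_le_one₀ (hrep _).2 (pow_nonneg hl0.le _) (pow_le_one₀ hl0.le hl1.le)⟩
  have hinj : Function.Injective fun a => (QuotientAddGroup.mk (val a) : A ⧸ B.addSubgroupOf A) := by
    intro a a' h
    by_contra hne
    obtain ⟨j, hj⟩ := Function.ne_iff.1 hne
    rw [QuotientAddGroup.eq, AddSubgroup.mem_addSubgroupOf] at h
    have h1 : ‖∑ j, (rep (a' j) - rep (a j)) * l ^ (j : ℕ)‖ ≤ ‖l‖ ^ p := by
      refine le_trans (le_of_eq (congrArg norm ?_)) (h.2.trans (le_of_eq (by rw [mul_one, he])))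
      show _ = -(∑ j, rep (a j) * l ^ (j : ℕ)) + ∑ j, rep (a' j) * l ^ (j : ℕ)
      simp only [sub_mul, Finset.sum_sub_distrib]
      abel
    refine absurd h1 (not_le.2 (norm_sum_pow hl0 hl1 _ (fun i => ?_) ⟨j, (hdiff _ _ (Ne.symm hj)).1⟩))
    rcases eq_or_ne (a' i) (a i) with e | e
    · exact Or.inl (by rw [e, sub_self])
    · exact Or.inr (hdiff _ _ e).2
  have hcard : Nat.card (A ⧸ B.addSubgroupOf A) = (q : ℕ) ^ L.index := relIndex_ballA_q hL
  haveI : Finite (A ⧸ B.addSubgroupOf A) :=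
    Nat.finite_of_card_ne_zero (by rw [hcard]; exact pow_ne_zero _ q.2.ne_zero)
  have hle := Nat.card_le_card_of_injective _ hinj
  rw [hcard, hidx, Nat.card_fun, Nat.card_eq_fintype_card, Fintype.card_option, Fintype.card_fin,
    Nat.card_eq_fintype_card, Fintype.card_fin, hm, unrOrder_succ, ← pow_mul] at hle
  have := Nat.le_of_mul_le_mul_left ((Nat.pow_le_pow_iff_right q.2.two_le).1 hle) hp.pos
  omega

/-- the symbol of the unramified character and `q` -/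
theorem exists_lH2_ne (p : ℕ) [Fact p.Prime] (q : Nat.Primes) : ∃ c : lH2 q (mu p), c ≠ 0 := by
  classical
  haveI : Fact (q : ℕ).Prime := ⟨q.2⟩
  haveI : NeZero (unrOrder p q) := ⟨unrOrder_ne⟩
  set K := Kom p q with hKdef
  have hK : OpenU q K := openU_Kom
  haveI : K.Normal := MonoidHom.normal_ker _
  have hω : ∀ u ∈ K, om p u = 1 := fun u hu => om_Kom hu
  have hχ := chiU_ne (p := p) (U := K) not_dvd_index_Kom
  set C := cycOf hK hω _ hχ
  haveI : Finite (Gam q ⧸ (⊤ : Subgroup (Gam q))) := finite_quot (openU_top q)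
  have hsym : symU p K (h1mk (rU K) _ (chiU p K)) (kum p hK (Additive.ofMul ⟨_, qKm K⟩)) ≠ 0 := by
    intro h
    obtain ⟨l, hl, hN⟩ := norm_of_symU_eq_zero hK hω _ hχ _ h
    obtain ⟨ζ, hζ⟩ := HasEnoughRootsOfUnity.exists_primitiveRoot (AlgebraicClosure ℚ) (unrOrder p q)
    have hidx : (kerChi (chiU p K)).index = p * K.index := by
      rw [← Subgroup.relIndex_mul_index (kerChi_le (chiU p K)), relIndex_kerChi hχ]
    have hd : K.index < p := by
      refine lt_of_not_ge fun hge => ?_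
      have h1 : K.index ∣ p - 1 := by
        rw [hKdef, Kom, Subgroup.index_ker, ← Nat.totient_prime (Fact.out : p.Prime),
          ← ZMod.card_units_eq_totient, ← Nat.card_eq_fintype_card]
        exact Subgroup.card_subgroup_dvd_card _
      have h2 := (Fact.out : p.Prime).two_le
      have h3 := Nat.le_of_dvd (by omega) h1
      omega
    have hζL : iota q ζ ∈ KF (kerChi (chiU p K)) := mem_KF.2 fun u hu => by
      rw [← iota_loc]
      congr 1
      have h0 : chiUnr p q u = 0 := hu.2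
      obtain ⟨i, hi⟩ := exists_cq (p := p) u
      have hi0 : (i : ZMod p) = ((0 : ℕ) : ZMod p) := by rw [← chiUnr_eq hi, h0, Nat.cast_zero]
      rw [(q_pow_eq_iff _ _).2 hi0, pow_zero] at hi
      rw [Attach.cyc_spec (loc q u) hζ.pow_eq_one]
      show ζ ^ (cq p q u).val = ζ
      rw [hi]
      rcases Nat.lt_or_ge 1 (unrOrder p q) with h' | h'
      · haveI : Fact (1 < unrOrder p q) := ⟨h'⟩
        rw [ZMod.val_one, pow_one]
      · have h'' : unrOrder p q = 1 := le_antisymm h' (Nat.one_le_iff_ne_zero.2 unrOrder_ne)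
        have e : ζ = 1 := by simpa [h''] using hζ.pow_eq_one
        rw [e, one_pow]
    refine norm_pow_ne (openU_kerChi hK _) hidx hd
      (hζ.map_of_injective (f := iota q) (iota q).toRingHom.injective) hζL (l := (l : Cq q)) hl ?_
    have e := congrArg (fun z : (Cq q)ˣ => ‖(z : Cq q)‖) hN
    rw [C.Nm_apply] at e
    refine Eq.trans ?_ e
    rw [Cyc.part, norm_prod, Finset.prod_congr rfl fun i _ => (show ‖C.sg i (l : Cq q)‖ = ‖(l : Cq q)‖
      from norm_toAut q _ _), Finset.prod_const, Finset.card_range]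
  obtain ⟨a, ha⟩ := (ev1_bijective (openU_top q) (isAdm_one p)).2
    (h1mk (rU (⊤ : Subgroup (Gam q))) _ (chiU p ⊤))
  obtain ⟨b, hb⟩ := (ev1_bijective (openU_top q) (isAdm_mu p)).2
    (kum p (openU_top q) (Additive.ofMul ⟨_, qKm ⊤⟩))
  haveI := finite_quot hK
  refine ⟨eps2 ⊤ (mu p) (symI (openU_top q) a b), fun h0 => hsym ?_⟩
  have h1 : symI (openU_top q) a b = 0 :=
    (indSum_top_bijective (q := q) (N := mu p)).1 (by rw [h0, map_zero])
  have h2 : symI hK (pull1 le_top a) (pull1 le_top b) = 0 := by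
    have e := congrArg (pull2 (le_top : K ≤ ⊤)) h1
    rw [map_zero] at e
    rw [← e]
    exact (cupH_natural (MonoidHom.id (Gam q)) (fun _ => rfl) (indMul p ⊤) (indMul p K) indMul_eqv
      indMul_eqv (isAdm_Ind (openU_top q) (isAdm_mu p)) (isAdm_Ind hK (isAdm_mu p)) (pullInd le_top)
      (pullInd_eqv _) (pullInd le_top) (pullInd_eqv _) (pullInd le_top) (pullInd_eqv _)
      (fun _ _ => rfl) a b).symm
  have h3 := congrArg (ev2 K (mu p)) h2
  rw [ev2_symI, ev1_pull, ev1_pull, ha, hb, map_zero] at h3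
  rw [← h3]
  congr 1
  obtain ⟨r, y, hr, hr0, hy⟩ := exists_isKumU (p := p) (⟨_, qKm ⊤⟩ : Km (⊤ : Subgroup (Gam q)))
  rw [kum_eq (openU_top q) ⟨_, qKm ⊤⟩ hr (y := ⟨y, hy.mem_Z1 (openU_top q) hr0⟩) hy]
  exact kum_eq hK ⟨_, qKm K⟩ hr
    (y := ⟨fun u => y (Subgroup.inclusion le_top u),
      (pullPush_mem_Z1 (r := rU (⊤ : Subgroup (Gam q))) (r' := rU K)
        (f := Subgroup.inclusion le_top) (hf := fun _ => rfl)
        (φ := (LinearMap.id : ZMod p →ₗ[ZMod p] ZMod p)) (A := muU p ⊤) (B := muU p K)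
        (hφ := fun _ _ => rfl) (hy.mem_Z1 (openU_top q) hr0) :)⟩)
    fun u => hy (Subgroup.inclusion le_top u)

theorem finrank_lH2_mu' (p : ℕ) [Fact p.Prime] (q : Nat.Primes) :
    Module.finrank (ZMod p) (lH2 q (mu p)) = 1 := by
  obtain ⟨g, hg⟩ := exists_gen_lH2 (p := p) (q := q)
  obtain ⟨c, hc⟩ := exists_lH2_ne p q
  obtain ⟨k, rfl⟩ := hg c
  exact finrank_eq_one g (fun h => hc (by rw [h, smul_zero])) fun w => by
    obtain ⟨a, rfl⟩ := hg w
    exact ⟨a, rfl⟩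

theorem finrank_cH2_mu_open' {U : Subgroup (Gam q)} (hU : OpenU q U) :
    Module.finrank (ZMod p) (cH2 (rU U) (Rep.res (rU U) (mu p))) = 1 := by
  haveI := finite_quot hU
  obtain ⟨g, hg⟩ := exists_gen_open (p := p) hU
  have hg0 : g ≠ 0 := fun h => by
    obtain ⟨c, hc⟩ := exists_lH2_ne p q
    obtain ⟨d, rfl⟩ := eps2_surjective hU c
    obtain ⟨k, rfl⟩ := hg d
    exact hc (by rw [h, smul_zero, map_zero])
  have hb := ev2_bijective (N := mu p) hU (isAdm_mu p)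
  rw [← (LinearEquiv.ofBijective _ hb).finrank_eq]
  exact finrank_eq_one g hg0 fun w => by
    obtain ⟨a, rfl⟩ := hg w
    exact ⟨a, rfl⟩

end FLTAgent.PT.Loc
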